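/-
S48/CD (Chebotarev density, sub-captain helper61): INTERFACE FILE (definitions only, no proofs).

Goal: `Fermat.Agent.S48.StmtChebDensity`.  Route (NOTES/S48-CD.md):

  Dirichlet over `E` for norms mod `ℓ`  (analysis: `StmtNormL`, `StmtEulerLog`, `StmtArgBounded`;
                                         algebra: `StmtSplitOne`, `StmtNormRange`, `StmtNormGen`)
    ⇒ `StmtDirichletE`
    ⇒ (Deuring: `StmtFrobTransfer`, `StmtFiberCount`)  `StmtChebCycT`   (classes of "cyclotomic type")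
    ⇒ (crossing: `StmtGlueConj`, `StmtCycLift`, `StmtGoodCount`)  `StmtChebClass`  (one class)
    ⇒ `StmtChebDensity`.
-/
import Mathlib
import Fermat.Agent.S48.Plan
import Fermat.Agent.Cheb.Plan

set_option autoImplicit false

namespace Fermat.Agent.S48.CD

open NumberField IsDedekindDomain
open Fermat.Agent.Cheb (HasLogDensity)

/-- `∑_I χ(N I) N I^{-s}`, the sum over the nonzero ideals of `𝓞 E` -/
noncomputable def idealL (E : Type) [Field E] [NumberField E] (m : ℕ)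
    (χ : DirichletCharacter ℂ m) (s : ℝ) : ℂ :=
  ∑' I : nonZeroDivisors (Ideal (𝓞 E)),
    (χ ((Ideal.absNorm (I : Ideal (𝓞 E)) : ℕ) : ZMod m) : ℂ) *
      (((Ideal.absNorm (I : Ideal (𝓞 E)) : ℝ) ^ (-s) : ℝ) : ℂ)

/-- `∑_v χ(N v) N v^{-s}`, the sum over the nonzero primes of `𝓞 E` -/
noncomputable def primeL (E : Type) [Field E] [NumberField E] (m : ℕ)
    (χ : DirichletCharacter ℂ m) (s : ℝ) : ℂ :=
  ∑' v : HeightOneSpectrum (𝓞 E),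
    (χ ((Ideal.absNorm v.asIdeal : ℕ) : ZMod m) : ℂ) *
      (((Ideal.absNorm v.asIdeal : ℝ) ^ (-s) : ℝ) : ℂ)

/-- `M/E` with a primitive `ℓ`-th root of unity `ζ ∈ M` (`ℓ` prime) on which `Gal(M/E)` acts
faithfully (so `M = E(ζ)` when `M/E` is Galois). -/
def IsCycl (E M : Type) [Field E] [Field M] [Algebra E M] (ℓ : ℕ) (ζ : M) : Prop :=
  ℓ.Prime ∧ IsPrimitiveRoot ζ ℓ ∧ ∀ g : M ≃ₐ[E] M, g ζ = ζ → g = 1

/-! ### Analysis -/

/-- (CD-L) `L(s, χ ∘ N)` extends continuously to `[1,2]` when `χ ∘ N` is not trivial. -/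
def StmtNormL : Prop :=
  ∀ (E : Type) [Field E] [NumberField E] (m : ℕ) [NeZero m] (χ : DirichletCharacter ℂ m),
    (∃ I : nonZeroDivisors (Ideal (𝓞 E)),
      χ ((Ideal.absNorm (I : Ideal (𝓞 E)) : ℕ) : ZMod m) ≠ 0 ∧
      χ ((Ideal.absNorm (I : Ideal (𝓞 E)) : ℕ) : ZMod m) ≠ 1) →
    ∃ Λ : ℝ → ℂ, ContinuousOn Λ (Set.Icc 1 2) ∧
      ∀ s : ℝ, 1 < s → s ≤ 2 → Λ s = idealL E m χ s

/-- (EUL) Euler product in logarithmic form: `L(s, χ ∘ N) = exp (∑_v χ(N v) N v^{-s} + R(s))`,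
`R` bounded and continuous, the prime sum continuous, on `(1,2]`. -/
def StmtEulerLog : Prop :=
  ∀ (E : Type) [Field E] [NumberField E] (m : ℕ) [NeZero m] (χ : DirichletCharacter ℂ m),
    ∃ R : ℝ → ℂ, ContinuousOn R (Set.Ioc 1 2) ∧ (∃ C : ℝ, ∀ s : ℝ, 1 < s → s ≤ 2 → ‖R s‖ ≤ C) ∧
      ContinuousOn (primeL E m χ) (Set.Ioc 1 2) ∧
      ∀ s : ℝ, 1 < s → s ≤ 2 → idealL E m χ s = Complex.exp (primeL E m χ s + R s)

/-- (ARG) a continuous logarithm of a function which is continuous and nonzero up to the end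
point is bounded. -/
def StmtArgBounded : Prop :=
  ∀ f Λ : ℝ → ℂ, ContinuousOn f (Set.Ioc 1 2) → ContinuousOn Λ (Set.Icc 1 2) → Λ 1 ≠ 0 →
    (∀ s : ℝ, 1 < s → s ≤ 2 → Λ s = Complex.exp (f s)) →
    ∃ C : ℝ, ∀ s : ℝ, 1 < s → s ≤ 2 → ‖f s‖ ≤ C

/-! ### Algebra of `M = E(ζ_ℓ)` over `E` -/

/-- (SP1) the primes of `E` of norm `≡ 1 mod ℓ` have density `1/[M:E]` (they are the primes which
split completely in `M`, up to finitely many). -/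
def StmtSplitOne : Prop :=
  ∀ (E M : Type) [Field E] [NumberField E] [Field M] [NumberField M] [Algebra E M] [IsGalois E M]
    (ℓ : ℕ) (ζ : M), IsCycl E M ℓ ζ →
    HasLogDensity
      {v : HeightOneSpectrum (𝓞 E) | ((Ideal.absNorm v.asIdeal : ℕ) : ZMod ℓ) = 1}
      (1 / (Module.finrank E M : ℝ))

/-- (NR) the norm of a prime not above `ℓ` is the cyclotomic character of an element of
`Gal(M/E)` (of a Frobenius element). -/
def StmtNormRange : Prop :=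
  ∀ (E M : Type) [Field E] [NumberField E] [Field M] [NumberField M] [Algebra E M] [IsGalois E M]
    (ℓ : ℕ) (ζ : M), IsCycl E M ℓ ζ →
    ∀ v : HeightOneSpectrum (𝓞 E), ((Ideal.absNorm v.asIdeal : ℕ) : ZMod ℓ) ≠ 0 →
      ∃ g : M ≃ₐ[E] M, g ζ = ζ ^ Ideal.absNorm v.asIdeal

/-- (NG) there is a prime `v` of `E`, not above `ℓ`, whose Frobenius generates `Gal(M/E)`: every
`g` acts on `ζ` as a power of `N v`. -/
def StmtNormGen : Prop :=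
  ∀ (E M : Type) [Field E] [NumberField E] [Field M] [NumberField M] [Algebra E M] [IsGalois E M]
    (ℓ : ℕ) (ζ : M), IsCycl E M ℓ ζ →
    ∃ v : HeightOneSpectrum (𝓞 E), ((Ideal.absNorm v.asIdeal : ℕ) : ZMod ℓ) ≠ 0 ∧
      ∀ g : M ≃ₐ[E] M, ∃ j : ℕ, g ζ = ζ ^ (Ideal.absNorm v.asIdeal ^ j)

/-- (DIRE) Dirichlet's theorem over `E`: the primes of `E` of norm `≡ t mod ℓ`, where `t` is the
cyclotomic character of an element of `Gal(M/E)`, have density `1/[M:E]`. -/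
def StmtDirichletE : Prop :=
  ∀ (E M : Type) [Field E] [NumberField E] [Field M] [NumberField M] [Algebra E M] [IsGalois E M]
    (ℓ : ℕ) (ζ : M), IsCycl E M ℓ ζ → ∀ (z : M ≃ₐ[E] M) (t : ℕ), z ζ = ζ ^ t →
    HasLogDensity
      {v : HeightOneSpectrum (𝓞 E) | ((Ideal.absNorm v.asIdeal : ℕ) : ZMod ℓ) = (t : ZMod ℓ)}
      (1 / (Module.finrank E M : ℝ))

/-! ### Deuring's reduction: `M/ℚ` Galois, `z ∈ Gal(M/ℚ)`, `E = M^⟨z⟩` -/

/-- the fixed field of `z` -/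
abbrev fixZ {M : Type} [Field M] [NumberField M] (z : M ≃ₐ[ℚ] M) : IntermediateField ℚ M :=
  IntermediateField.fixedField (Subgroup.zpowers z)

/-- `z` is of cyclotomic type: it acts faithfully (with all its powers) on `ζ`, a primitive
`ℓ`-th root of unity. -/
def IsCyclZ {M : Type} [Field M] [NumberField M] (z : M ≃ₐ[ℚ] M) (ℓ : ℕ) (ζ : M) : Prop :=
  ℓ.Prime ∧ IsPrimitiveRoot ζ ℓ ∧ ∀ j : ℕ, (z ^ j) ζ = ζ → z ^ j = 1

/-- `p` is unramified in `M` -/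
def UnramAt (M : Type) [Field M] [NumberField M] (p : ℕ) : Prop :=
  ∀ (𝔓 : Ideal (𝓞 M)) [𝔓.IsPrime], (p : 𝓞 M) ∈ 𝔓 → Algebra.IsUnramifiedAt ℤ 𝔓

/-- `z` is a Frobenius element at some prime of `M` above `p` -/
def FrobAt (M : Type) [Field M] [NumberField M] (z : M ≃ₐ[ℚ] M) (p : ℕ) : Prop :=
  ∃ 𝔓 : Ideal (𝓞 M), 𝔓.IsPrime ∧ (p : 𝓞 M) ∈ 𝔓 ∧ IsArithFrobAt ℤ z 𝔓

/-- (DEU-1) if `v` is a prime of degree one of `E = M^⟨z⟩` with `N v ≡ t mod ℓ`, `z ζ = ζ ^ t`,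
then `z` is a Frobenius element (over `ℤ`) at every prime of `M` above `v`. -/
def StmtFrobTransfer : Prop :=
  ∀ (M : Type) [Field M] [NumberField M] [IsGalois ℚ M] (z : M ≃ₐ[ℚ] M) (ℓ : ℕ) (ζ : M) (t : ℕ),
    IsCyclZ z ℓ ζ → z ζ = ζ ^ t →
    ∀ v : HeightOneSpectrum (𝓞 (fixZ z)), (Ideal.absNorm v.asIdeal).Prime →
      ((Ideal.absNorm v.asIdeal : ℕ) : ZMod ℓ) = (t : ZMod ℓ) →
      ∀ 𝔓 : Ideal (𝓞 M), 𝔓.IsPrime → 𝔓.under (𝓞 (fixZ z)) = v.asIdeal → IsArithFrobAt ℤ z 𝔓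

/-- (DEU-2) above an unramified `p` there are at most `|Z(z)| / ord z` primes `v` of `E = M^⟨z⟩`
below a prime of `M` with Frobenius element `z`. -/
def StmtFiberCount : Prop :=
  ∀ (M : Type) [Field M] [NumberField M] [IsGalois ℚ M] (z : M ≃ₐ[ℚ] M) (p : ℕ),
    p.Prime → UnramAt M p →
    orderOf z *
      {v : HeightOneSpectrum (𝓞 (fixZ z)) | Ideal.absNorm v.asIdeal = p ∧
        ∃ 𝔓 : Ideal (𝓞 M), 𝔓.IsPrime ∧ 𝔓.under (𝓞 (fixZ z)) = v.asIdeal ∧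
          IsArithFrobAt ℤ z 𝔓}.ncard ≤
      Nat.card (Subgroup.centralizer {z})

/-- (CYC-T) Chebotarev, lower bound with `O(1)` error, for an element `z` of cyclotomic type. -/
def StmtChebCycT : Prop :=
  ∀ (M : Type) [Field M] [NumberField M] [IsGalois ℚ M] (z : M ≃ₐ[ℚ] M) (ℓ : ℕ) (ζ : M),
    IsCyclZ z ℓ ζ → ∀ S : Finset ℕ, ∃ C : ℝ, ∀ s : ℝ, 1 < s → s < 2 →
      ∃ P : Finset ℕ, (∀ p ∈ P, p.Prime ∧ p ∉ S ∧ UnramAt M p ∧ FrobAt M z p) ∧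
        1 / (Nat.card (Subgroup.centralizer {z}) : ℝ) * Real.log (1 / (s - 1)) - C ≤
          ∑ p ∈ P, (p : ℝ) ^ (-s)

/-! ### Crossing with `ℚ(ζ_ℓ)`, inside `ℚ̄` -/

/-- (GLUE) at an unramified `p`, all the Frobenius elements of `G_ℚ` at `p` restrict to the
conjugacy class of `φ`, if `φ` is a Frobenius element at one prime of `F` above `p`. -/
def StmtGlueConj : Prop :=
  ∀ (F : IntermediateField ℚ (AlgebraicClosure ℚ)) [NumberField F] [IsGalois ℚ F]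
    (φ : F ≃ₐ[ℚ] F) (p : ℕ), p.Prime → UnramAt F p → FrobAt F φ p →
    ∀ A : ValuationSubring (AlgebraicClosure ℚ), A.LiesOverPrime p →
      ∀ τ : GalQ, A.IsFrobeniusAt τ p → ∃ g : F ≃ₐ[ℚ] F, AlgEquiv.restrictNormal τ F = g * φ * g⁻¹

/-- (LIFTζ) for all large primes `ℓ`, `Gal(ℚ̄/F)` acts on the `ℓ`-th roots of unity through all of
`(ℤ/ℓ)ˣ` (the `ℓ`-th cyclotomic polynomial is irreducible over `F`). -/
def StmtCycLift : Prop :=
  ∀ (F : IntermediateField ℚ (AlgebraicClosure ℚ)) [NumberField F],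
    ∃ N₀ : ℕ, ∀ ℓ : ℕ, ℓ.Prime → N₀ < ℓ → ∀ ζ : AlgebraicClosure ℚ, IsPrimitiveRoot ζ ℓ →
      ∀ t : ℕ, ¬ ℓ ∣ t → ∃ h : GalQ, (∀ x ∈ F, h x = x) ∧ h ζ = ζ ^ t

/-- (CNT) in `(ℤ/ℓ)ˣ`, `ℓ ≡ 1 mod n ^ k`, all but a proportion `≤ n / 2 ^ k` of the elements have
order divisible by `n`. -/
def StmtGoodCount : Prop :=
  ∀ n k ℓ : ℕ, 0 < n → ℓ.Prime → ℓ ≡ 1 [MOD n ^ k] →
    Nat.card {t : (ZMod ℓ)ˣ // ¬ n ∣ orderOf t} * 2 ^ k ≤ n * (ℓ - 1)

/-- (CLS) Chebotarev, lower density, for one conjugacy class. -/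
def StmtChebClass : Prop :=
  ∀ (F : IntermediateField ℚ (AlgebraicClosure ℚ)) [NumberField F] [IsGalois ℚ F]
    (S : Finset ℕ) (σ : F ≃ₐ[ℚ] F) (δ : ℝ), 0 < δ →
    ∃ s₀ : ℝ, 1 < s₀ ∧ ∀ s : ℝ, 1 < s → s < s₀ →
      ∃ P : Finset ℕ,
        (∀ p ∈ P, p.Prime ∧ p ∉ S ∧
          ∀ A : ValuationSubring (AlgebraicClosure ℚ), A.LiesOverPrime p →
            ∀ τ : GalQ, A.IsFrobeniusAt τ p →
              ∃ g : F ≃ₐ[ℚ] F, AlgEquiv.restrictNormal τ F = g * σ * g⁻¹) ∧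
        (1 / (Nat.card (Subgroup.centralizer {σ}) : ℝ) - δ) * Real.log (1 / (s - 1)) ≤
          ∑ p ∈ P, (p : ℝ) ^ (-s)

end Fermat.Agent.S48.CD
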