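/-
S48/CD — piece **ARG** (helper32): a continuous logarithm `f` on `(1,2]` of a function `Λ` which
is continuous on `[1,2]` with `Λ 1 ≠ 0` is bounded.

Near `1`: `Λ s / Λ 1` stays in the disc `|w - 1| ≤ 1/2`, where `Complex.log` is continuous and
bounded; `f - log (Λ / Λ 1)` is continuous with `exp = Λ 1`, hence constant on the interval
`(1, 1 + d]` (intermediate value theorem for the integer `(Im …)/(2π)`).  Away from `1`: `f` is
continuous on the compact `[1 + d, 2]`.
-/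
import Fermat.Agent.S48.CD.Plan

set_option autoImplicit false

namespace Fermat.Agent.S48.CD

open Complex

/-- an integer valued continuous real function on a preconnected set is constant -/
lemma argB_int_const {S : Set ℝ} (hS : IsPreconnected S) {r : ℝ → ℝ} (hr : ContinuousOn r S)
    (hint : ∀ s ∈ S, ∃ n : ℤ, r s = n) {x y : ℝ} (hx : x ∈ S) (hy : y ∈ S) : r x = r y := by
  by_contra hne
  wlog hlt : r x < r y generalizing x y
  · exact this hy hx (Ne.symm hne) (lt_of_le_of_ne (not_lt.1 hlt) (Ne.symm hne))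
  obtain ⟨m, hm⟩ := hint x hx
  obtain ⟨n, hn⟩ := hint y hy
  have hmn : m < n := by
    rw [hm, hn] at hlt
    exact_mod_cast hlt
  have hmn' : (m : ℝ) + 1 ≤ n := by exact_mod_cast hmn
  have hmem : (m : ℝ) + 1 / 2 ∈ Set.Icc (r x) (r y) := by
    rw [hm, hn]
    constructor <;> linarith
  obtain ⟨z, hz, hrz⟩ := hS.intermediate_value hx hy hr hmem
  obtain ⟨k, hk⟩ := hint z hz
  rw [hk] at hrz
  have h1 : (2 * k : ℝ) = 2 * m + 1 := by linarith
  have h2 : (2 * k : ℤ) = 2 * m + 1 := by exact_mod_cast h1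
  omega

/-- a continuous function with constant exponential on a preconnected subset of `ℝ` is
constant -/
lemma argB_exp_const {S : Set ℝ} (hS : IsPreconnected S) {h : ℝ → ℂ} (hh : ContinuousOn h S)
    {c : ℂ} (hc : ∀ s ∈ S, Complex.exp (h s) = c) {x y : ℝ} (hx : x ∈ S) (hy : y ∈ S) :
    h x = h y := by
  have hint : ∀ s ∈ S, ∃ n : ℤ, h s = h y + n * (2 * Real.pi * I) := by
    intro s hs
    exact Complex.exp_eq_exp_iff_exists_int.1 ((hc s hs).trans (hc y hy).symm)
  have hpi : (2 * Real.pi : ℝ) ≠ 0 := by positivity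
  have hr : ContinuousOn (fun s => (h s - h y).im / (2 * Real.pi)) S := by
    apply ContinuousOn.div_const
    exact Complex.continuous_im.comp_continuousOn (hh.sub continuousOn_const)
  have hint' : ∀ s ∈ S, ∃ n : ℤ, (fun s => (h s - h y).im / (2 * Real.pi)) s = n := by
    intro s hs
    obtain ⟨n, hn⟩ := hint s hs
    refine ⟨n, ?_⟩
    show (h s - h y).im / (2 * Real.pi) = n
    rw [hn, add_sub_cancel_left]
    have : ((n : ℂ) * (2 * Real.pi * I)).im = n * (2 * Real.pi) := by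
      simp [Complex.mul_im]
    rw [this]
    field_simp
  have h0 := argB_int_const hS hr hint' hx hy
  obtain ⟨n, hn⟩ := hint x hx
  have h1 : (h x - h y).im / (2 * Real.pi) = 0 := by
    have : (fun s => (h s - h y).im / (2 * Real.pi)) y = 0 := by
      show (h y - h y).im / (2 * Real.pi) = 0
      simp
    rw [← this]
    exact h0
  rw [hn, add_sub_cancel_left] at h1
  have h2 : ((n : ℂ) * (2 * Real.pi * I)).im = n * (2 * Real.pi) := by
    simp [Complex.mul_im]
  rw [h2, mul_div_assoc, div_self hpi, mul_one] at h1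
  have h3 : n = 0 := by exact_mod_cast h1
  rw [hn, h3]
  simp

/-- **ARG**. -/
theorem stmtArgBounded : StmtArgBounded := by
  intro f Λ hf hΛ h1 hexp
  have hΛ1 : 0 < ‖Λ 1‖ := norm_pos_iff.2 h1
  have hcont := hΛ 1 (by simp : (1 : ℝ) ∈ Set.Icc 1 2)
  rw [Metric.continuousWithinAt_iff] at hcont
  obtain ⟨δ, hδ, hδΛ⟩ := hcont (‖Λ 1‖ / 2) (by positivity)
  set d : ℝ := min (δ / 2) 1 with hd
  have hd0 : 0 < d := lt_min (by positivity) one_pos
  have hd1 : d ≤ 1 := min_le_right _ _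
  have hdδ : d < δ := lt_of_le_of_lt (min_le_left _ _) (by linarith)
  -- the disc
  have hw : ∀ s : ℝ, 1 < s → s ≤ 1 + d → ‖Λ s / Λ 1 - 1‖ ≤ 1 / 2 := by
    intro s hs1 hs2
    have h2 : dist (Λ s) (Λ 1) < ‖Λ 1‖ / 2 := by
      apply hδΛ
      · exact ⟨hs1.le, by linarith⟩
      · rw [Real.dist_eq, abs_of_pos (by linarith)]
        linarith
    rw [dist_eq_norm] at h2
    have h3 : Λ s / Λ 1 - 1 = (Λ s - Λ 1) / Λ 1 := by
      field_simp
    rw [h3, norm_div, div_le_iff₀ hΛ1]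
    linarith
  set g : ℝ → ℂ := fun s => Complex.log (Λ s / Λ 1) with hg
  have hgb : ∀ s : ℝ, 1 < s → s ≤ 1 + d → ‖g s‖ ≤ 3 / 4 := by
    intro s hs1 hs2
    have h2 := Complex.norm_log_one_add_half_le_self (hw s hs1 hs2)
    rw [show (1 : ℂ) + (Λ s / Λ 1 - 1) = Λ s / Λ 1 by ring] at h2
    have := hw s hs1 hs2
    show ‖Complex.log (Λ s / Λ 1)‖ ≤ 3 / 4
    linarith
  have hsub : Set.Ioc (1 : ℝ) (1 + d) ⊆ Set.Ioc 1 2 := by
    intro s hs
    exact ⟨hs.1, by linarith [hs.2]⟩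
  have hsub' : Set.Ioc (1 : ℝ) (1 + d) ⊆ Set.Icc 1 2 := by
    intro s hs
    exact ⟨hs.1.le, by linarith [hs.2]⟩
  have hgc : ContinuousOn g (Set.Ioc 1 (1 + d)) := by
    apply ContinuousOn.clog
    · exact (hΛ.mono hsub').div_const _
    · intro s hs
      have h2 := hw s hs.1 hs.2
      have h3 := Complex.mem_slitPlane_of_norm_lt_one
        (lt_of_le_of_lt h2 (by norm_num : (1 / 2 : ℝ) < 1))
      rwa [show (1 : ℂ) + (Λ s / Λ 1 - 1) = Λ s / Λ 1 by ring] at h3
  have hhc : ContinuousOn (fun s => f s - g s) (Set.Ioc 1 (1 + d)) :=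
    (hf.mono hsub).sub hgc
  have hexp' : ∀ s ∈ Set.Ioc (1 : ℝ) (1 + d), Complex.exp (f s - g s) = Λ 1 := by
    intro s hs
    have hs2 : s ≤ 2 := by linarith [hs.2]
    have hne : Λ s ≠ 0 := by
      rw [hexp s hs.1 hs2]
      exact Complex.exp_ne_zero _
    rw [Complex.exp_sub, ← hexp s hs.1 hs2]
    show Λ s / Complex.exp (Complex.log (Λ s / Λ 1)) = Λ 1
    rw [Complex.exp_log (div_ne_zero hne h1)]
    field_simp
  have hs₀ : (1 + d : ℝ) ∈ Set.Ioc (1 : ℝ) (1 + d) := ⟨by linarith, le_refl _⟩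
  have hconst : ∀ s ∈ Set.Ioc (1 : ℝ) (1 + d), f s - g s = f (1 + d) - g (1 + d) := by
    intro s hs
    exact argB_exp_const isPreconnected_Ioc hhc hexp' hs hs₀
  -- away from `1`
  have hsub2 : Set.Icc (1 + d) 2 ⊆ Set.Ioc (1 : ℝ) 2 := by
    intro s hs
    exact ⟨by linarith [hs.1], hs.2⟩
  obtain ⟨C₂, hC₂⟩ := isCompact_Icc.exists_bound_of_continuousOn (hf.mono hsub2)
  refine ⟨max (3 / 4 + ‖f (1 + d) - g (1 + d)‖) C₂, fun s hs1 hs2 => ?_⟩
  by_cases hsd : s ≤ 1 + d
  · have h2 := hconst s ⟨hs1, hsd⟩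
    have h3 : f s = g s + (f (1 + d) - g (1 + d)) := by
      rw [← h2]
      ring
    rw [h3]
    exact le_trans (norm_add_le _ _)
      (le_trans (add_le_add (hgb s hs1 hsd) (le_refl _)) (le_max_left _ _))
  · exact le_trans (hC₂ s ⟨(not_le.1 hsd).le, hs2⟩) (le_max_right _ _)

end Fermat.Agent.S48.CD
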