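/-
S48/CD, piece CLS (helper40): Chebotarev, lower density, for one conjugacy class
`stmtChebClass_of : StmtChebCycT → StmtGlueConj → StmtCycLift → StmtGoodCount → StmtChebClass`.

Proof (crossing with `ℚ(ζ_ℓ)`): `n = ord σ`, `k` with `n / 2 ^ k ≤ δ / 2`, `ℓ ≡ 1 mod n ^ k` a large
prime, `M = F(ζ_ℓ)`.  For every `t ∈ (ℤ/ℓ)ˣ` with `n ∣ ord t` there is `z_t ∈ Gal(M/ℚ)` with
`z_t|F = σ`, `z_t ζ = ζ ^ t`; it is of cyclotomic type, its centralizer has at most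
`|Z(σ)| (ℓ - 1)` elements, and the primes with Frobenius `z_t` are `≡ t mod ℓ` and have Frobenius
class `σ` in `F`.  Summing the lower bounds of `StmtChebCycT` over the good `t` (a proportion
`≥ 1 - n / 2 ^ k` by `StmtGoodCount`) gives the claim.
-/
import Mathlib
import Fermat.Agent.S48.GalFactor
import Fermat.Agent.S48.CD.Plan

set_option autoImplicit false
set_option linter.style.haveILetI false

namespace Fermat.Agent.S48.CD

open NumberField IsDedekindDomain IntermediateField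

/-! ### Transfer along the equality of two `ℚ`-algebra structures -/

theorem cls_isGalois_of {K : Type} [Field K] (a b : Algebra ℚ K) (h : @IsGalois ℚ _ K _ a) :
    @IsGalois ℚ _ K _ b := by
  have : a = b := Subsingleton.elim _ _
  subst this; exact h

theorem cls_normal_of {K : Type} [Field K] (a b : Algebra ℚ K) (h : @Normal ℚ K _ _ a) :
    @Normal ℚ K _ _ b := by
  have : a = b := Subsingleton.elim _ _
  subst this; exact h

theorem cls_finDim_of {K : Type} [Field K] (a b : Algebra ℚ K)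
    (h : @FiniteDimensional ℚ K _ _ (@Algebra.toModule ℚ K _ _ a)) :
    @FiniteDimensional ℚ K _ _ (@Algebra.toModule ℚ K _ _ b) := by
  have : a = b := Subsingleton.elim _ _
  subst this; exact h

theorem cls_qbar_isIntegral : Algebra.IsIntegral ℚ (AlgebraicClosure ℚ) := by
  haveI := qbar_normal
  haveI : Algebra.IsAlgebraic ℚ (AlgebraicClosure ℚ) := Normal.toIsAlgebraic
  exact Algebra.IsAlgebraic.isIntegral

/-! ### The field `M = F(ζ)` -/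

/-- the compositum `F(ζ)` -/
noncomputable def clsM (F : IntermediateField ℚ (AlgebraicClosure ℚ)) (ζ : AlgebraicClosure ℚ) :
    IntermediateField ℚ (AlgebraicClosure ℚ) := F ⊔ ℚ⟮ζ⟯

theorem cls_le_M (F : IntermediateField ℚ (AlgebraicClosure ℚ)) (ζ : AlgebraicClosure ℚ) :
    F ≤ clsM F ζ := le_sup_left

theorem cls_mem_M (F : IntermediateField ℚ (AlgebraicClosure ℚ)) (ζ : AlgebraicClosure ℚ) :
    ζ ∈ clsM F ζ :=
  (le_sup_right : ℚ⟮ζ⟯ ≤ F ⊔ ℚ⟮ζ⟯) (mem_adjoin_simple_self ℚ ζ)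

theorem cls_adjoin_isGalois {ℓ : ℕ} (hℓ : ℓ.Prime) {ζ : AlgebraicClosure ℚ}
    (hζ : IsPrimitiveRoot ζ ℓ) : IsGalois ℚ ℚ⟮ζ⟯ := by
  haveI : NeZero ℓ := ⟨hℓ.ne_zero⟩
  haveI := cls_qbar_isIntegral
  have h1 := hζ.intermediateField_adjoin_isCyclotomicExtension ℚ
  exact cls_isGalois_of _ _ (@IsCyclotomicExtension.isGalois {ℓ} ℚ ℚ⟮ζ⟯ _ _ _ h1)

theorem cls_M_isGalois (F : IntermediateField ℚ (AlgebraicClosure ℚ)) [IsGalois ℚ F]
    {ℓ : ℕ} (hℓ : ℓ.Prime) {ζ : AlgebraicClosure ℚ}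
    (hζ : IsPrimitiveRoot ζ ℓ) : IsGalois ℚ (clsM F ζ) := by
  have h1 : IsGalois ℚ ℚ⟮ζ⟯ := cls_adjoin_isGalois hℓ hζ
  have h2 := @IntermediateField.normal_sup ℚ (AlgebraicClosure ℚ) _ _ _ F ℚ⟮ζ⟯
    (cls_normal_of _ _ (inferInstance : Normal ℚ F))
    (cls_normal_of _ _ (@IsGalois.to_normal _ _ _ _ _ h1))
  haveI : Normal ℚ (clsM F ζ) := cls_normal_of _ _ h2
  exact { }

theorem cls_M_numberField (F : IntermediateField ℚ (AlgebraicClosure ℚ)) [NumberField F]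
    (ζ : AlgebraicClosure ℚ) : NumberField (clsM F ζ) := by
  haveI := cls_qbar_isIntegral
  have h1 := IntermediateField.adjoin.finiteDimensional
    (Algebra.IsIntegral.isIntegral (R := ℚ) ζ)
  have h2 := @IntermediateField.finiteDimensional_sup ℚ (AlgebraicClosure ℚ) _ _ _ F ℚ⟮ζ⟯
    (cls_finDim_of _ _ (inferInstance : FiniteDimensional ℚ F)) h1
  haveI : FiniteDimensional ℚ (clsM F ζ) := cls_finDim_of _ _ h2
  exact { to_charZero := inferInstance, to_finiteDimensional := inferInstance }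

/-- an automorphism fixing `F` and `ζ` fixes `F(ζ)` -/
theorem cls_fix_M (F : IntermediateField ℚ (AlgebraicClosure ℚ)) (ζ : AlgebraicClosure ℚ)
    (τ : GalQ) (h1 : ∀ x ∈ F, τ x = x) (h2 : τ ζ = ζ) : ∀ x ∈ clsM F ζ, τ x = x := by
  let E : IntermediateField ℚ (AlgebraicClosure ℚ) :=
    IntermediateField.fixedField (Subgroup.zpowers τ)
  have hE : ∀ x, x ∈ E ↔ τ x = x := by
    intro x
    constructor
    · intro hx
      exact hx ⟨τ, Subgroup.mem_zpowers τ⟩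
    · intro hx g
      obtain ⟨g, hg⟩ := g
      obtain ⟨k, rfl⟩ := Subgroup.mem_zpowers_iff.mp hg
      show (τ ^ k) x = x
      have : τ ^ k ∈ MulAction.stabilizer GalQ x := by
        apply Subgroup.zpow_mem
        exact hx
      exact this
  have hle : clsM F ζ ≤ E := by
    apply sup_le
    · intro x hx; exact (hE x).mpr (h1 x hx)
    · rw [adjoin_simple_le_iff]; exact (hE ζ).mpr h2
  intro x hx
  exact (hE x).mp (hle hx)

/-- the cyclotomic lifting property of `F` at `ℓ`, `ζ` -/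
def ClsLift (F : IntermediateField ℚ (AlgebraicClosure ℚ)) (ℓ : ℕ) (ζ : AlgebraicClosure ℚ) :
    Prop :=
  ∀ t : ℕ, ¬ ℓ ∣ t → ∃ h : GalQ, (∀ x ∈ F, h x = x) ∧ h ζ = ζ ^ t

theorem cls_pow_eq_pow_of_zmod {ℓ : ℕ} {ζ : AlgebraicClosure ℚ} (hζ : IsPrimitiveRoot ζ ℓ)
    {a b : ℕ} (h : (a : ZMod ℓ) = (b : ZMod ℓ)) : ζ ^ a = ζ ^ b := by
  have h1 : a ≡ b [MOD ℓ] := (ZMod.natCast_eq_natCast_iff a b ℓ).mp h
  rw [← Nat.mod_add_div a ℓ, ← Nat.mod_add_div b ℓ, pow_add, pow_add, pow_mul, pow_mul,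
    hζ.pow_eq_one, one_pow, one_pow, mul_one, mul_one]
  rw [show a % ℓ = b % ℓ from h1]

theorem cls_zmod_of_pow_eq_pow {ℓ : ℕ} (hℓ : ℓ.Prime) {ζ : AlgebraicClosure ℚ}
    (hζ : IsPrimitiveRoot ζ ℓ) {a b : ℕ} (h : ζ ^ a = ζ ^ b) : (a : ZMod ℓ) = (b : ZMod ℓ) := by
  rw [ZMod.natCast_eq_natCast_iff]
  have h1 : ζ ^ (a % ℓ) = ζ ^ (b % ℓ) := by
    have e : ℓ = orderOf ζ := hζ.eq_orderOf
    rw [e, pow_mod_orderOf, pow_mod_orderOf]; exact h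
  exact hζ.pow_inj (Nat.mod_lt _ hℓ.pos) (Nat.mod_lt _ hℓ.pos) h1

/-- lifting `σ ∈ Gal(F/ℚ)` to `G_ℚ` with prescribed action on `ζ` -/
theorem cls_exists_lift (F : IntermediateField ℚ (AlgebraicClosure ℚ)) [IsGalois ℚ F]
    {ℓ : ℕ} (hℓ : ℓ.Prime) {ζ : AlgebraicClosure ℚ} (hζ : IsPrimitiveRoot ζ ℓ)
    (hL : ClsLift F ℓ ζ) (σ : F ≃ₐ[ℚ] F) (t : ℕ) (ht : ¬ ℓ ∣ t) :
    ∃ τ : GalQ, resF F τ = σ ∧ τ ζ = ζ ^ t := by
  haveI : Fact ℓ.Prime := ⟨hℓ⟩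
  haveI : NeZero ℓ := ⟨hℓ.ne_zero⟩
  obtain ⟨σ', hσ'⟩ := resF_surjective F σ
  -- `σ' ζ = ζ ^ t₀`
  have h1 : (σ' ζ) ^ ℓ = 1 := by rw [← map_pow, hζ.pow_eq_one, map_one]
  obtain ⟨t₀, -, ht₀⟩ := hζ.eq_pow_of_pow_eq_one h1
  have ht₀' : (t₀ : ZMod ℓ) ≠ 0 := by
    intro h0
    have h2 : ζ ^ t₀ = 1 := by
      have := cls_pow_eq_pow_of_zmod hζ (a := t₀) (b := 0) (by simpa using h0)
      simpa using this
    rw [h2] at ht₀
    have h3 : σ' ζ = σ' 1 := by rw [← ht₀, map_one]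
    have h4 : ζ = 1 := σ'.injective h3
    exact hζ.ne_one hℓ.one_lt h4
  -- `u = t / t₀`
  set u : ℕ := ((t : ZMod ℓ) * (t₀ : ZMod ℓ)⁻¹).val with hu
  have hu1 : (u : ZMod ℓ) * (t₀ : ZMod ℓ) = (t : ZMod ℓ) := by
    rw [hu, ZMod.natCast_zmod_val, mul_assoc, inv_mul_cancel₀ ht₀', mul_one]
  have hu2 : ¬ ℓ ∣ u := by
    intro hdvd
    have h0 : (u : ZMod ℓ) = 0 := (ZMod.natCast_eq_zero_iff u ℓ).mpr hdvd
    rw [h0, zero_mul] at hu1
    exact ht ((ZMod.natCast_eq_zero_iff t ℓ).mp hu1.symm)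
  obtain ⟨h, hF, hζh⟩ := hL u hu2
  refine ⟨σ' * h, ?_, ?_⟩
  · rw [← hσ']
    apply resF_eq_of_agree
    intro x hx
    rw [AlgEquiv.mul_apply, hF x hx]
  · rw [AlgEquiv.mul_apply, hζh, map_pow, ← ht₀, ← pow_mul]
    apply cls_pow_eq_pow_of_zmod hζ
    rw [Nat.cast_mul, mul_comm]
    exact hu1

theorem cls_pow_zeta (ζ : AlgebraicClosure ℚ) (τ : GalQ) (t : ℕ) (h : τ ζ = ζ ^ t) (j : ℕ) :
    (τ ^ j) ζ = ζ ^ (t ^ j) := by
  induction j with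
  | zero => simp
  | succ j ih =>
    rw [pow_succ, AlgEquiv.mul_apply, h, map_pow, ih, ← pow_mul, pow_succ]

theorem cls_isPrimitiveRoot_M {M : IntermediateField ℚ (AlgebraicClosure ℚ)} {ℓ : ℕ}
    {ζ : AlgebraicClosure ℚ} (hζ : IsPrimitiveRoot ζ ℓ) (hm : ζ ∈ M) :
    IsPrimitiveRoot (⟨ζ, hm⟩ : M) ℓ := by
  have : IsPrimitiveRoot (M.val (⟨ζ, hm⟩ : M)) ℓ := hζ
  exact IsPrimitiveRoot.of_map_of_injective (f := M.val) this M.val.injective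

/-- the restriction to `M = F(ζ)` of a lift `τ` of `σ` with `τ ζ = ζ ^ t`, `ord σ ∣ ord t`, is of
cyclotomic type -/
theorem cls_isCyclZ (F : IntermediateField ℚ (AlgebraicClosure ℚ)) [IsGalois ℚ F]
    {ℓ : ℕ} (hℓ : ℓ.Prime) {ζ : AlgebraicClosure ℚ} (hζ : IsPrimitiveRoot ζ ℓ)
    [NumberField (clsM F ζ)] [IsGalois ℚ (clsM F ζ)]
    (σ : F ≃ₐ[ℚ] F) (τ : GalQ) (hτ : resF F τ = σ) (t : ℕ) (hτζ : τ ζ = ζ ^ t)
    (hord : ∀ j : ℕ, ((t : ZMod ℓ)) ^ j = 1 → σ ^ j = 1) :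
    IsCyclZ (resF (clsM F ζ) τ) ℓ (⟨ζ, cls_mem_M F ζ⟩ : clsM F ζ) := by
  refine ⟨hℓ, cls_isPrimitiveRoot_M hζ _, ?_⟩
  intro j hj
  rw [← map_pow] at hj ⊢
  have h1 : (τ ^ j) ζ = ζ := by
    rw [← resF_coe (clsM F ζ) (τ ^ j) ⟨ζ, cls_mem_M F ζ⟩, hj]
  have h2 : ((t : ZMod ℓ)) ^ j = 1 := by
    rw [cls_pow_zeta ζ τ t hτζ j] at h1
    have := cls_zmod_of_pow_eq_pow hℓ hζ (a := t ^ j) (b := 1) (by rw [h1, pow_one])
    simpa using this
  have h3 : resF F (τ ^ j) = 1 := by rw [map_pow, hτ]; exact hord j h2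
  have h4 : ∀ x ∈ clsM F ζ, (τ ^ j) x = x :=
    cls_fix_M F ζ (τ ^ j) (fixes_of_resF_eq_one F h3) h1
  rw [← map_one (resF (clsM F ζ))]
  apply resF_eq_of_agree
  intro x hx
  rw [h4 x hx]; rfl

/-- `Nat.card (ℤ ⧸ P.under ℤ) = p` when the prime number `p` lies in the prime ideal `P`. -/
theorem cls_card_under_int {F : Type} [Field F] [NumberField F] (P : Ideal (𝓞 F)) [P.IsPrime]
    (p : ℕ) (hp : p.Prime) (hpP : (p : 𝓞 F) ∈ P) : Nat.card (ℤ ⧸ P.under ℤ) = p := by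
  have hmem : (p : ℤ) ∈ P.under ℤ := by
    rw [Ideal.under_def, Ideal.mem_comap]
    simpa using hpP
  have hle : Ideal.span {(p : ℤ)} ≤ P.under ℤ := by
    rw [Ideal.span_le]
    intro x hx
    rw [Set.mem_singleton_iff] at hx
    rw [hx]
    exact hmem
  haveI : Fact p.Prime := ⟨hp⟩
  haveI : (Ideal.span {(p : ℤ)}).IsMaximal := Int.ideal_span_isMaximal_of_prime p
  have hne : P.under ℤ ≠ ⊤ := Ideal.IsPrime.ne_top inferInstance
  have heq : Ideal.span {(p : ℤ)} = P.under ℤ :=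
    Ideal.IsMaximal.eq_of_le inferInstance hne hle
  rw [← heq, Nat.card_congr (Int.quotientSpanNatEquivZMod p).toEquiv, Nat.card_zmod]

/-- two distinct prime numbers do not lie in the same prime ideal -/
theorem cls_not_mem_of_ne {F : Type} [Field F] [NumberField F] (P : Ideal (𝓞 F)) [P.IsPrime]
    {p ℓ : ℕ} (hp : p.Prime) (hℓ : ℓ.Prime) (hne : p ≠ ℓ) (hpP : (p : 𝓞 F) ∈ P) :
    (ℓ : 𝓞 F) ∉ P := by
  intro hℓP
  have hco : IsCoprime (p : ℤ) (ℓ : ℤ) :=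
    Nat.isCoprime_iff_coprime.mpr ((Nat.coprime_primes hp hℓ).mpr hne)
  obtain ⟨a, b, hab⟩ := hco
  have h1 : ((a : 𝓞 F) * (p : 𝓞 F) + (b : 𝓞 F) * (ℓ : 𝓞 F)) ∈ P :=
    P.add_mem (P.mul_mem_left _ hpP) (P.mul_mem_left _ hℓP)
  have h2 : ((a : 𝓞 F) * (p : 𝓞 F) + (b : 𝓞 F) * (ℓ : 𝓞 F)) = 1 := by
    have := congrArg (fun x : ℤ => (x : 𝓞 F)) hab
    simpa using this
  rw [h2] at h1
  exact (Ideal.IsPrime.ne_top inferInstance) ((Ideal.eq_top_iff_one P).mpr h1)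

/-- a Frobenius element at `p ≠ ℓ` raises the `ℓ`-th roots of unity to the power `p` -/
theorem cls_frob_zmod {M : Type} [Field M] [NumberField M] [IsGalois ℚ M]
    {ℓ : ℕ} (hℓ : ℓ.Prime) {ζ : M} (hζ : IsPrimitiveRoot ζ ℓ)
    (z : M ≃ₐ[ℚ] M) (t : ℕ) (hz : z ζ = ζ ^ t) (p : ℕ) (hp : p.Prime) (hpℓ : p ≠ ℓ)
    (hF : FrobAt M z p) : (p : ZMod ℓ) = (t : ZMod ℓ) := by
  obtain ⟨𝔓, h𝔓, hp𝔓, hfrob⟩ := hF
  haveI := h𝔓
  haveI : NeZero ℓ := ⟨hℓ.ne_zero⟩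
  have hcard := cls_card_under_int 𝔓 p hp hp𝔓
  have hℓ𝔓 := cls_not_mem_of_ne 𝔓 hp hℓ hpℓ hp𝔓
  have hζO : (hζ.toInteger) ^ ℓ = 1 := by
    apply RingOfIntegers.ext
    show ζ ^ ℓ = 1
    exact hζ.pow_eq_one
  have h1 := AlgHom.IsArithFrobAt.apply_of_pow_eq_one hfrob hζO hℓ𝔓
  rw [hcard] at h1
  have h2 : z ζ = ζ ^ p := by
    have h := congrArg (fun x : 𝓞 M => (x : M)) h1
    have e1 : ((MulSemiringAction.toAlgHom ℤ (𝓞 M) z) hζ.toInteger : M) = z ζ := rfl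
    have e2 : ((hζ.toInteger ^ p : 𝓞 M) : M) = ζ ^ p := rfl
    rw [← e1, ← e2]
    exact h
  rw [hz] at h2
  -- `ζ ^ t = ζ ^ p`
  rw [ZMod.natCast_eq_natCast_iff]
  have h3 : ζ ^ (p % ℓ) = ζ ^ (t % ℓ) := by
    have e : ℓ = orderOf ζ := hζ.eq_orderOf
    rw [e, pow_mod_orderOf, pow_mod_orderOf]; exact h2.symm
  exact hζ.pow_inj (Nat.mod_lt _ hℓ.pos) (Nat.mod_lt _ hℓ.pos) h3

/-- restriction `Gal(M/ℚ) → Gal(F/ℚ)` for `F ≤ M` -/
theorem cls_exists_res (F M : IntermediateField ℚ (AlgebraicClosure ℚ)) [IsGalois ℚ F]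
    [IsGalois ℚ M] (hFM : F ≤ M) :
    ∃ ρ : (M ≃ₐ[ℚ] M) →* (F ≃ₐ[ℚ] F), ∀ σ : GalQ, ρ (resF M σ) = resF F σ := by
  apply exists_factor M (resF F)
  intro σ hσ
  rw [← map_one (resF F)]
  apply resF_eq_of_agree
  intro x hx
  rw [hσ x (hFM hx)]; rfl

/-- two elements of `G_ℚ` with the same restriction to `F` and the same value at `ζ` have the
same restriction to `F(ζ)` -/
theorem cls_resM_eq (F : IntermediateField ℚ (AlgebraicClosure ℚ)) [IsGalois ℚ F]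
    (ζ : AlgebraicClosure ℚ) [IsGalois ℚ (clsM F ζ)] (a b : GalQ)
    (h1 : resF F a = resF F b) (h2 : a ζ = b ζ) :
    resF (clsM F ζ) a = resF (clsM F ζ) b := by
  have h3 : ∀ x ∈ F, (b⁻¹ * a) x = x := by
    intro x hx
    have e1 := resF_coe F a ⟨x, hx⟩
    have e2 := resF_coe F b ⟨x, hx⟩
    rw [h1] at e1
    have e3 : a x = b x := by rw [← e1, ← e2]
    rw [AlgEquiv.mul_apply, e3]
    exact b.symm_apply_apply x
  have h4 : (b⁻¹ * a) ζ = ζ := by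
    rw [AlgEquiv.mul_apply, h2]
    exact b.symm_apply_apply ζ
  have h5 := cls_fix_M F ζ (b⁻¹ * a) h3 h4
  apply resF_eq_of_agree
  intro x hx
  have h6 := h5 x hx
  rw [AlgEquiv.mul_apply] at h6
  have h7 := congrArg b h6
  rw [← h7]
  exact (b.apply_symm_apply (a x)).symm

/-- the centralizer of `z = τ|M` is at most `ℓ - 1` times as big as that of `σ = τ|F` -/
theorem cls_card_centralizer_le (F : IntermediateField ℚ (AlgebraicClosure ℚ)) [NumberField F]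
    [IsGalois ℚ F] {ℓ : ℕ} (hℓ : ℓ.Prime) {ζ : AlgebraicClosure ℚ} (hζ : IsPrimitiveRoot ζ ℓ)
    [NumberField (clsM F ζ)] [IsGalois ℚ (clsM F ζ)] (τ : GalQ) :
    Nat.card (Subgroup.centralizer {resF (clsM F ζ) τ}) ≤
      Nat.card (Subgroup.centralizer {resF F τ}) * (ℓ - 1) := by
  classical
  haveI : NeZero ℓ := ⟨hℓ.ne_zero⟩
  obtain ⟨ρ, hρ⟩ := cls_exists_res F (clsM F ζ) (cls_le_M F ζ)
  set ζM : clsM F ζ := ⟨ζ, cls_mem_M F ζ⟩ with hζM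
  have hζM' : IsPrimitiveRoot ζM ℓ := cls_isPrimitiveRoot_M hζ _
  let f : Subgroup.centralizer {resF (clsM F ζ) τ} →
      Subgroup.centralizer {resF F τ} × (primitiveRoots ℓ (clsM F ζ)) := fun g =>
    (⟨ρ g.1, by
        rw [Subgroup.mem_centralizer_iff]
        intro h hh
        rw [Set.mem_singleton_iff] at hh
        subst hh
        have h1 := (Subgroup.mem_centralizer_iff.mp g.2) _ (Set.mem_singleton _)
        have h2 := congrArg ρ h1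
        rw [map_mul, map_mul, hρ] at h2
        exact h2⟩,
     ⟨g.1 ζM, by
        rw [mem_primitiveRoots hℓ.pos]
        exact hζM'.map_of_injective (f := (g.1 : clsM F ζ →ₐ[ℚ] clsM F ζ)) g.1.injective⟩)
  have hf : Function.Injective f := by
    intro g g' hgg
    have e1 : ρ g.1 = ρ g'.1 := congrArg (fun x => (x.1 : F ≃ₐ[ℚ] F)) hgg
    have e2 : g.1 ζM = g'.1 ζM := congrArg (fun x => (x.2 : clsM F ζ)) hgg
    obtain ⟨a, ha⟩ := resF_surjective (clsM F ζ) g.1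
    obtain ⟨b, hb⟩ := resF_surjective (clsM F ζ) g'.1
    rw [← ha, ← hb, hρ, hρ] at e1
    rw [← ha, ← hb] at e2
    have e3 : a ζ = b ζ := by
      have := congrArg (fun x : clsM F ζ => (x : AlgebraicClosure ℚ)) e2
      rw [← resF_coe (clsM F ζ) a ζM, ← resF_coe (clsM F ζ) b ζM]
      exact this
    apply Subtype.ext
    rw [← ha, ← hb]
    exact cls_resM_eq F ζ a b e1 e3
  haveI : Finite (clsM F ζ ≃ₐ[ℚ] clsM F ζ) := inferInstance
  haveI : Finite (F ≃ₐ[ℚ] F) := inferInstance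
  have h1 := Nat.card_le_card_of_injective f hf
  rw [Nat.card_prod] at h1
  have h2 : Nat.card (primitiveRoots ℓ (clsM F ζ)) = ℓ - 1 := by
    rw [Nat.card_eq_finsetCard, hζM'.card_primitiveRoots, Nat.totient_prime hℓ]
  rw [h2] at h1
  exact h1

/-- conjugacy in `Gal(M/ℚ)` restricts to conjugacy in `Gal(F/ℚ)` -/
theorem cls_conj_res (F M : IntermediateField ℚ (AlgebraicClosure ℚ)) [IsGalois ℚ F]
    [IsGalois ℚ M] (hFM : F ≤ M) (τ τ' : GalQ)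
    (h : ∃ g : M ≃ₐ[ℚ] M, AlgEquiv.restrictNormal τ' M = g * resF M τ * g⁻¹) :
    ∃ g : F ≃ₐ[ℚ] F, AlgEquiv.restrictNormal τ' F = g * resF F τ * g⁻¹ := by
  obtain ⟨ρ, hρ⟩ := cls_exists_res F M hFM
  obtain ⟨g, hg⟩ := h
  refine ⟨ρ g, ?_⟩
  have h1 := congrArg ρ hg
  rw [← resF_apply, hρ, map_mul, map_mul, map_inv, hρ] at h1
  exact h1

theorem cls_log_nonneg {s : ℝ} (hs1 : 1 < s) (hs2 : s < 2) : 0 ≤ Real.log (1 / (s - 1)) := by
  apply Real.log_nonneg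
  rw [le_div_iff₀ (by linarith)]
  linarith

/-- the lower bound for the primes `≡ t mod ℓ` with Frobenius class `σ` -/
theorem cls_per_t (hCyc : StmtChebCycT) (hGlue : StmtGlueConj)
    (F : IntermediateField ℚ (AlgebraicClosure ℚ)) [NumberField F] [IsGalois ℚ F]
    (S : Finset ℕ) (σ : F ≃ₐ[ℚ] F) {ℓ : ℕ} (hℓ : ℓ.Prime) {ζ : AlgebraicClosure ℚ}
    (hζ : IsPrimitiveRoot ζ ℓ) (hL : ClsLift F ℓ ζ) (t : ℕ) (ht : ¬ ℓ ∣ t)
    (hord : ∀ j : ℕ, (t : ZMod ℓ) ^ j = 1 → σ ^ j = 1) :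
    ∃ C : ℝ, ∀ s : ℝ, 1 < s → s < 2 →
      ∃ P : Finset ℕ,
        (∀ p ∈ P, p.Prime ∧ p ∉ S ∧ (p : ZMod ℓ) = (t : ZMod ℓ) ∧
          ∀ A : ValuationSubring (AlgebraicClosure ℚ), A.LiesOverPrime p →
            ∀ τ : GalQ, A.IsFrobeniusAt τ p →
              ∃ g : F ≃ₐ[ℚ] F, AlgEquiv.restrictNormal τ F = g * σ * g⁻¹) ∧
        1 / ((Nat.card (Subgroup.centralizer {σ}) : ℝ) * ((ℓ : ℝ) - 1)) *
            Real.log (1 / (s - 1)) - C ≤ ∑ p ∈ P, (p : ℝ) ^ (-s) := by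
  obtain ⟨τ, hτσ, hτζ⟩ := cls_exists_lift F hℓ hζ hL σ t ht
  haveI := cls_M_numberField F ζ
  haveI := cls_M_isGalois F hℓ hζ
  have hcyc := cls_isCyclZ F hℓ hζ σ τ hτσ t hτζ hord
  have hζM : IsPrimitiveRoot (⟨ζ, cls_mem_M F ζ⟩ : clsM F ζ) ℓ := cls_isPrimitiveRoot_M hζ _
  have hz : resF (clsM F ζ) τ ⟨ζ, cls_mem_M F ζ⟩ = (⟨ζ, cls_mem_M F ζ⟩ : clsM F ζ) ^ t := by
    apply Subtype.ext
    rw [resF_coe]
    exact hτζ
  obtain ⟨C, hC⟩ := hCyc (clsM F ζ) (resF (clsM F ζ) τ) ℓ ⟨ζ, cls_mem_M F ζ⟩ hcyc (insert ℓ S)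
  refine ⟨C, fun s hs1 hs2 => ?_⟩
  obtain ⟨P, hP, hsum⟩ := hC s hs1 hs2
  refine ⟨P, ?_, ?_⟩
  · intro p hpP
    obtain ⟨hp, hpS, hunr, hfrob⟩ := hP p hpP
    have hpℓ : p ≠ ℓ := fun h => hpS (h ▸ Finset.mem_insert_self _ _)
    have hpS' : p ∉ S := fun h => hpS (Finset.mem_insert_of_mem h)
    refine ⟨hp, hpS', ?_, ?_⟩
    · exact cls_frob_zmod hℓ hζM (resF (clsM F ζ) τ) t hz p hp hpℓ hfrob
    · intro A hA τ' hτ'
      have h1 := hGlue (clsM F ζ) (resF (clsM F ζ) τ) p hp hunr hfrob A hA τ' hτ'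
      have h2 := cls_conj_res F (clsM F ζ) (cls_le_M F ζ) τ τ' h1
      rw [hτσ] at h2
      exact h2
  · have hcard := cls_card_centralizer_le F hℓ hζ τ
    rw [hτσ] at hcard
    have hpos : 0 < Nat.card (Subgroup.centralizer {resF (clsM F ζ) τ}) := Nat.card_pos
    have hcardR : (Nat.card (Subgroup.centralizer {resF (clsM F ζ) τ}) : ℝ) ≤
        (Nat.card (Subgroup.centralizer {σ}) : ℝ) * ((ℓ : ℝ) - 1) := by
      have : ((ℓ - 1 : ℕ) : ℝ) = (ℓ : ℝ) - 1 := by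
        rw [Nat.cast_sub hℓ.one_le]; simp
      rw [← this]
      exact_mod_cast hcard
    have hposR : (0 : ℝ) < Nat.card (Subgroup.centralizer {resF (clsM F ζ) τ}) := by
      exact_mod_cast hpos
    have hle : 1 / ((Nat.card (Subgroup.centralizer {σ}) : ℝ) * ((ℓ : ℝ) - 1)) ≤
        1 / (Nat.card (Subgroup.centralizer {resF (clsM F ζ) τ}) : ℝ) :=
      one_div_le_one_div_of_le hposR hcardR
    have hL := cls_log_nonneg hs1 hs2
    have := mul_le_mul_of_nonneg_right hle hL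
    linarith

theorem cls_exists_k (n : ℕ) {δ : ℝ} (hδ : 0 < δ) : ∃ k : ℕ, (n : ℝ) / 2 ^ k ≤ δ / 2 := by
  have h1 : (0 : ℝ) < δ / (2 * ((n : ℝ) + 1)) := by positivity
  obtain ⟨k, hk⟩ := exists_pow_lt_of_lt_one h1 (by norm_num : (1 / 2 : ℝ) < 1)
  refine ⟨k, ?_⟩
  have h2 : (0 : ℝ) < 2 ^ k := by positivity
  rw [div_le_iff₀ h2]
  rw [one_div, inv_pow, lt_div_iff₀ (by positivity)] at hk
  have h3 : (2 ^ k : ℝ)⁻¹ * (2 ^ k) = 1 := inv_mul_cancel₀ h2.ne'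
  have h4 : (n : ℝ) ≤ (n : ℝ) + 1 := by linarith
  have h5 : (0 : ℝ) ≤ n := Nat.cast_nonneg n
  nlinarith

/-- the arithmetic of the final estimate -/
theorem cls_arith {c m B T n δ L Ctot Sm p2 : ℝ} (hc : 1 ≤ c) (hm : 1 ≤ m) (hB : 0 ≤ B)
    (hT : T = m - B) (hp2 : 0 < p2) (hcnt : B * p2 ≤ n * m) (hk : n / p2 ≤ δ / 2) (hL : 0 ≤ L)
    (hC : Ctot ≤ δ / 2 * L) (hsum : T * (1 / (c * m) * L) - Ctot ≤ Sm) :
    (1 / c - δ) * L ≤ Sm := by
  have hcm : 0 < c * m := by positivity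
  have h1 : B / m ≤ n / p2 := by
    rw [div_le_div_iff₀ (by linarith) hp2]
    exact hcnt
  have h2 : B / (c * m) ≤ B / m := by
    apply div_le_div_of_nonneg_left hB (by linarith)
    nlinarith
  have h3 : T * (1 / (c * m)) = 1 / c - B / (c * m) := by
    rw [hT]
    field_simp
  have h4 : 1 / c - δ / 2 ≤ T * (1 / (c * m)) := by
    rw [h3]; linarith
  have h5 : (1 / c - δ / 2) * L ≤ T * (1 / (c * m)) * L := mul_le_mul_of_nonneg_right h4 hL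
  have h6 : T * (1 / (c * m) * L) = T * (1 / (c * m)) * L := by ring
  rw [h6] at hsum
  have h7 : (1 / c - δ) * L = (1 / c - δ / 2) * L - δ / 2 * L := by ring
  rw [h7]
  linarith

theorem cls_log_ge {s δ Ctot : ℝ} (hδ : 0 < δ) (hs1 : 1 < s)
    (hs : s < 1 + Real.exp (-(2 * Ctot / δ))) : Ctot ≤ δ / 2 * Real.log (1 / (s - 1)) := by
  have h1 : 0 < s - 1 := by linarith
  have h2 : s - 1 < Real.exp (-(2 * Ctot / δ)) := by linarith
  have h3 : Real.log (s - 1) < -(2 * Ctot / δ) := by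
    rw [Real.log_lt_iff_lt_exp h1]; exact h2
  have h4 : Real.log (1 / (s - 1)) = - Real.log (s - 1) := by
    rw [one_div, Real.log_inv]
  rw [h4]
  have h5 : 2 * Ctot / δ < - Real.log (s - 1) := by linarith
  have h6 : 2 * Ctot < - Real.log (s - 1) * δ := by
    rwa [div_lt_iff₀ hδ] at h5
  nlinarith

/-- (CLS) Chebotarev, lower density, for one conjugacy class. -/
theorem stmtChebClass_of (hCyc : StmtChebCycT) (hGlue : StmtGlueConj) (hLift : StmtCycLift)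
    (hCnt : StmtGoodCount) : StmtChebClass := by
  intro F _ _ S σ δ hδ
  classical
  haveI : Finite (F ≃ₐ[ℚ] F) := inferInstance
  set n := orderOf σ with hn
  have hn0 : 0 < n := orderOf_pos σ
  obtain ⟨k, hk⟩ := cls_exists_k n hδ
  obtain ⟨N₀, hN₀⟩ := hLift F
  obtain ⟨ℓ, hℓ, hℓN, hℓmod⟩ :=
    Nat.exists_prime_gt_modEq_one (k := n ^ k) N₀ (pow_ne_zero _ hn0.ne')
  haveI : Fact ℓ.Prime := ⟨hℓ⟩
  haveI : NeZero ℓ := ⟨hℓ.ne_zero⟩
  obtain ⟨ζ, hζ⟩ : ∃ ζ : AlgebraicClosure ℚ, IsPrimitiveRoot ζ ℓ :=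
    HasEnoughRootsOfUnity.exists_primitiveRoot (AlgebraicClosure ℚ) ℓ
  have hL : ClsLift F ℓ ζ := hN₀ ℓ hℓ hℓN ζ hζ
  -- the classes `t`
  have hper : ∀ t : (ZMod ℓ)ˣ, ∃ C : ℝ, ∀ s : ℝ, 1 < s → s < 2 →
      ∃ P : Finset ℕ,
        (∀ p ∈ P, p.Prime ∧ p ∉ S ∧ (p : ZMod ℓ) = (t : ZMod ℓ) ∧
          ∀ A : ValuationSubring (AlgebraicClosure ℚ), A.LiesOverPrime p →
            ∀ τ : GalQ, A.IsFrobeniusAt τ p →
              ∃ g : F ≃ₐ[ℚ] F, AlgEquiv.restrictNormal τ F = g * σ * g⁻¹) ∧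
        (n ∣ orderOf t →
          1 / ((Nat.card (Subgroup.centralizer {σ}) : ℝ) * ((ℓ : ℝ) - 1)) *
            Real.log (1 / (s - 1)) - C ≤ ∑ p ∈ P, (p : ℝ) ^ (-s)) := by
    intro t
    by_cases hgood : n ∣ orderOf t
    · have ht0 : ((t : ZMod ℓ).val : ZMod ℓ) = (t : ZMod ℓ) := ZMod.natCast_zmod_val _
      have ht : ¬ ℓ ∣ (t : ZMod ℓ).val := by
        intro hdvd
        have h0 : ((t : ZMod ℓ).val : ZMod ℓ) = 0 := (ZMod.natCast_eq_zero_iff _ ℓ).mpr hdvd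
        rw [ht0] at h0
        exact t.ne_zero h0
      have hord : ∀ j : ℕ, (((t : ZMod ℓ).val : ℕ) : ZMod ℓ) ^ j = 1 → σ ^ j = 1 := by
        intro j hj
        rw [ht0] at hj
        have h1 : t ^ j = 1 := by
          apply Units.ext
          rw [Units.val_pow_eq_pow_val, hj]; rfl
        have h2 : orderOf t ∣ j := orderOf_dvd_of_pow_eq_one h1
        exact orderOf_dvd_iff_pow_eq_one.mp (hgood.trans h2)
      obtain ⟨C, hC⟩ := cls_per_t hCyc hGlue F S σ hℓ hζ hL (t : ZMod ℓ).val ht hord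
      refine ⟨C, fun s hs1 hs2 => ?_⟩
      obtain ⟨P, hP, hsum⟩ := hC s hs1 hs2
      refine ⟨P, fun p hp => ?_, fun _ => hsum⟩
      obtain ⟨h1, h2, h3, h4⟩ := hP p hp
      exact ⟨h1, h2, h3.trans ht0, h4⟩
    · exact ⟨0, fun s _ _ => ⟨∅, fun p hp => absurd hp (Finset.notMem_empty p),
        fun h => absurd h hgood⟩⟩
  choose C hC using hper
  set T : Finset (ZMod ℓ)ˣ := Finset.univ.filter (fun t => n ∣ orderOf t) with hT
  set Ctot : ℝ := ∑ t ∈ T, C t with hCtot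
  refine ⟨min 2 (1 + Real.exp (-(2 * Ctot / δ))), ?_, ?_⟩
  · apply lt_min (by norm_num)
    have := Real.exp_pos (-(2 * Ctot / δ))
    linarith
  intro s hs1 hs0
  have hs2 : s < 2 := lt_of_lt_of_le hs0 (min_le_left _ _)
  have hs3 : s < 1 + Real.exp (-(2 * Ctot / δ)) := lt_of_lt_of_le hs0 (min_le_right _ _)
  choose P hP using fun t => hC t s hs1 hs2
  refine ⟨Finset.univ.biUnion P, ?_, ?_⟩
  · intro p hp
    rw [Finset.mem_biUnion] at hp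
    obtain ⟨t, -, hpt⟩ := hp
    obtain ⟨h1, h2, -, h4⟩ := (hP t).1 p hpt
    exact ⟨h1, h2, h4⟩
  -- the sum
  have hdisj : ∀ t ∈ (Finset.univ : Finset (ZMod ℓ)ˣ), ∀ t' ∈ (Finset.univ : Finset (ZMod ℓ)ˣ),
      t ≠ t' → Disjoint (P t) (P t') := by
    intro t _ t' _ htt
    rw [Finset.disjoint_left]
    intro p hp hp'
    have h1 := ((hP t).1 p hp).2.2.1
    have h2 := ((hP t').1 p hp').2.2.1
    exact htt (Units.ext (h1.symm.trans h2))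
  have hsum1 : ∑ p ∈ Finset.univ.biUnion P, (p : ℝ) ^ (-s) =
      ∑ t : (ZMod ℓ)ˣ, ∑ p ∈ P t, (p : ℝ) ^ (-s) :=
    Finset.sum_biUnion hdisj
  have hnn : ∀ t : (ZMod ℓ)ˣ, 0 ≤ ∑ p ∈ P t, (p : ℝ) ^ (-s) := fun t =>
    Finset.sum_nonneg fun p _ => Real.rpow_nonneg (Nat.cast_nonneg p) _
  set a : ℝ := 1 / ((Nat.card (Subgroup.centralizer {σ}) : ℝ) * ((ℓ : ℝ) - 1)) *
      Real.log (1 / (s - 1)) with ha
  have hsum2 : ∑ t ∈ T, (a - C t) ≤ ∑ t : (ZMod ℓ)ˣ, ∑ p ∈ P t, (p : ℝ) ^ (-s) := by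
    calc ∑ t ∈ T, (a - C t) ≤ ∑ t ∈ T, ∑ p ∈ P t, (p : ℝ) ^ (-s) := by
          apply Finset.sum_le_sum
          intro t ht
          rw [hT, Finset.mem_filter] at ht
          exact (hP t).2 ht.2
      _ ≤ ∑ t : (ZMod ℓ)ˣ, ∑ p ∈ P t, (p : ℝ) ^ (-s) :=
          Finset.sum_le_sum_of_subset_of_nonneg (Finset.subset_univ T) fun t _ _ => hnn t
  have hsum3 : ∑ t ∈ T, (a - C t) = (T.card : ℝ) * a - Ctot := by
    rw [Finset.sum_sub_distrib, Finset.sum_const, nsmul_eq_mul]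
  -- the count
  have hcnt := hCnt n k ℓ hn0 hℓ hℓmod
  have hB : Nat.card {t : (ZMod ℓ)ˣ // ¬ n ∣ orderOf t} =
      (Finset.univ.filter (fun t : (ZMod ℓ)ˣ => ¬ n ∣ orderOf t)).card := by
    rw [Nat.card_eq_fintype_card, Fintype.card_subtype]
  have hTB : T.card + (Finset.univ.filter (fun t : (ZMod ℓ)ˣ => ¬ n ∣ orderOf t)).card =
      ℓ - 1 := by
    rw [hT, Finset.card_filter_add_card_filter_not, Finset.card_univ, ZMod.card_units]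
  have hc1 : 1 ≤ Nat.card (Subgroup.centralizer {σ}) := Nat.card_pos
  rw [hsum1]
  refine cls_arith (c := (Nat.card (Subgroup.centralizer {σ}) : ℝ)) (m := (ℓ : ℝ) - 1)
    (B := (Nat.card {t : (ZMod ℓ)ˣ // ¬ n ∣ orderOf t} : ℝ)) (T := (T.card : ℝ)) (n := (n : ℝ))
    (δ := δ) (L := Real.log (1 / (s - 1))) (Ctot := Ctot) (p2 := (2 : ℝ) ^ k)
    (by exact_mod_cast hc1) ?_ (Nat.cast_nonneg _) ?_ (by positivity) ?_ hk
    (cls_log_nonneg hs1 hs2) (cls_log_ge hδ hs1 hs3) ?_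
  · have : (2 : ℝ) ≤ ℓ := by exact_mod_cast hℓ.two_le
    linarith
  · have h1 : ((ℓ - 1 : ℕ) : ℝ) = (ℓ : ℝ) - 1 := by
      rw [Nat.cast_sub hℓ.one_le]; simp
    rw [← h1, ← hTB, hB]
    push_cast
    ring
  · have h1 : ((ℓ - 1 : ℕ) : ℝ) = (ℓ : ℝ) - 1 := by
      rw [Nat.cast_sub hℓ.one_le]; simp
    rw [← h1]
    exact_mod_cast hcnt
  · rw [← hsum3]
    exact hsum2

end Fermat.Agent.S48.CD
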