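/-
S48/CD, piece CYC-T (helper24): Chebotarev, lower bound with `O(1)` error, for an element `z` of
cyclotomic type.

`stmtChebCycT_of : StmtDirichletE → StmtFrobTransfer → StmtFiberCount → StmtChebCycT`.

`E = M^⟨z⟩`, `z ζ = ζ ^ t`.  By (DIRE) the primes `v` of `E` with `N v ≡ t mod ℓ` have density
`1/[M:E] = 1/ord z`; removing the primes of degree `≥ 2` (density `0`, `Cheb.stmtPrimeSum`) and the
finitely many primes with norm in `S` or dividing the discriminant of `M` leaves a set `G` of the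
same density.  For `v ∈ G`, `p = N v`: `z` is a Frobenius element at every prime of `M` above `v`
(DEU-1), and at most `|Z(z)|/ord z` primes `v` of `E` lie above the same `p` (DEU-2).  A finite
part `G₀ ⊆ G` carries the sum up to `1`, and `P = N(G₀)`:
`ord z · ∑_{v ∈ G₀} N v^{-s} ≤ |Z(z)| · ∑_{p ∈ P} p^{-s}`.
-/
import Fermat.Agent.S48.CD.Plan
import Fermat.Agent.Cheb.PrimeSum
import Fermat.Agent.Cheb.Cyclic

set_option autoImplicit false
set_option linter.unusedSectionVars false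

namespace Fermat.Agent.S48.CD

open NumberField IsDedekindDomain
open Fermat.Agent.Cheb

section

variable {M : Type} [Field M] [NumberField M] [IsGalois ℚ M] (z : M ≃ₐ[ℚ] M)

theorem cyct_mem_fixing : z ∈ (fixZ z).fixingSubgroup := by
  rw [fixZ, IntermediateField.fixingSubgroup_fixedField]
  exact Subgroup.mem_zpowers z

/-- `z` as an element of `Gal(M/E)`, `E = M^⟨z⟩` -/
noncomputable def cyctZE : M ≃ₐ[fixZ z] M :=
  IntermediateField.fixingSubgroupEquiv (fixZ z) ⟨z, cyct_mem_fixing z⟩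

theorem cyctZE_apply (x : M) : cyctZE z x = z x := rfl

theorem cyct_finrank : Module.finrank (fixZ z) M = orderOf z := by
  rw [fixZ, IntermediateField.finrank_fixedField_eq_card, Nat.card_zpowers]

theorem cyct_isCycl {ℓ : ℕ} {ζ : M} (h : IsCyclZ z ℓ ζ) : IsCycl (fixZ z) M ℓ ζ := by
  obtain ⟨hℓ, hζ, hf⟩ := h
  refine ⟨hℓ, hζ, fun g hg => ?_⟩
  have hmem : g.restrictScalars ℚ ∈ (fixZ z).fixingSubgroup := by
    rw [IntermediateField.mem_fixingSubgroup_iff]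
    intro x hx
    exact g.commutes ⟨x, hx⟩
  rw [IntermediateField.fixingSubgroup_fixedField] at hmem
  have hfin : IsOfFinOrder z := isOfFinOrder_of_finite z
  rw [← hfin.mem_powers_iff_mem_zpowers] at hmem
  obtain ⟨j, hj⟩ := hmem
  replace hj : z ^ j = g.restrictScalars ℚ := hj
  have h1 : (z ^ j) ζ = ζ := by
    have : (z ^ j) ζ = (g.restrictScalars ℚ) ζ := by rw [hj]
    rw [this]
    exact hg
  have h2 := hf j h1
  ext x
  have h3 : (g.restrictScalars ℚ) x = (1 : M ≃ₐ[ℚ] M) x := by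
    rw [← h2]
    exact (congrArg (fun σ : M ≃ₐ[ℚ] M => σ x) hj).symm
  exact h3

theorem cyct_exists_t {ℓ : ℕ} {ζ : M} (h : IsCyclZ z ℓ ζ) : ∃ t : ℕ, z ζ = ζ ^ t := by
  obtain ⟨hℓ, hζ, -⟩ := h
  have : NeZero ℓ := ⟨hℓ.ne_zero⟩
  have h1 : (z ζ) ^ ℓ = 1 := by rw [← map_pow, hζ.pow_eq_one, map_one]
  obtain ⟨i, -, hi⟩ := hζ.eq_pow_of_pow_eq_one h1
  exact ⟨i, hi.symm⟩

/-- a prime of `M` above a prime of `E` -/
theorem cyct_exists_above (v : HeightOneSpectrum (𝓞 (fixZ z))) :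
    ∃ 𝔓 : Ideal (𝓞 M), 𝔓.IsPrime ∧ 𝔓.under (𝓞 (fixZ z)) = v.asIdeal := by
  obtain ⟨⟨𝔓, h1, h2⟩⟩ := Ideal.nonempty_primesOver (S := 𝓞 M) v.asIdeal
  exact ⟨𝔓, h1, h2.over.symm⟩

theorem cyct_natCast_mem (v : HeightOneSpectrum (𝓞 (fixZ z))) (𝔓 : Ideal (𝓞 M))
    (h : 𝔓.under (𝓞 (fixZ z)) = v.asIdeal) :
    ((Ideal.absNorm v.asIdeal : ℕ) : 𝓞 M) ∈ 𝔓 := by
  have h1 : ((Ideal.absNorm v.asIdeal : ℕ) : 𝓞 (fixZ z)) ∈ v.asIdeal := Ideal.absNorm_mem v.asIdeal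
  have : 𝔓.LiesOver v.asIdeal := ⟨h.symm⟩
  have h2 := (Ideal.mem_of_liesOver 𝔓 v.asIdeal _).mp h1
  rwa [map_natCast] at h2

theorem cyct_unramAt (p : ℕ) (hp : p.Prime) (hd : p ∉ (discr M).natAbs.primeFactors) :
    UnramAt M p := by
  have hnd : ¬ ((p : ℤ) ∣ discr M) := by
    intro hdvd
    apply hd
    rw [Nat.mem_primeFactors]
    exact ⟨hp, Int.natCast_dvd.mp hdvd, Int.natAbs_ne_zero.mpr (discr_ne_zero M)⟩
  intro 𝔓 h𝔓 hmem
  exact (not_dvd_discr_iff_forall_mem M (𝓞 M) (Nat.prime_iff_prime_int.mp hp)).mp hnd 𝔓 h𝔓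
    (by rw [Int.cast_natCast]; exact hmem)

end

/-- the good primes of `E = M^⟨z⟩` -/
def cyctGood {M : Type} [Field M] [NumberField M] (z : M ≃ₐ[ℚ] M) (ℓ t : ℕ) (T : Finset ℕ) :
    Set (HeightOneSpectrum (𝓞 (fixZ z))) :=
  {v | ((Ideal.absNorm v.asIdeal : ℕ) : ZMod ℓ) = (t : ZMod ℓ)} \
    ({v | ¬ (Ideal.absNorm v.asIdeal).Prime} ∪ {v | Ideal.absNorm v.asIdeal ∈ T})

theorem cyct_good_density (hD : StmtDirichletE) {M : Type} [Field M] [NumberField M]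
    [IsGalois ℚ M] (z : M ≃ₐ[ℚ] M) (ℓ : ℕ) (ζ : M) (h : IsCyclZ z ℓ ζ) (t : ℕ)
    (ht : z ζ = ζ ^ t) (T : Finset ℕ) :
    HasLogDensity (cyctGood z ℓ t T) (1 / (orderOf z : ℝ)) := by
  have hPS := stmtPrimeSum (fixZ z)
  have hE : PrimeSummable (fixZ z) := hPS.1
  have h1 := hD (fixZ z) M ℓ ζ (cyct_isCycl z h) (cyctZE z) t ht
  rw [cyct_finrank] at h1
  have h2 : HasLogDensity ({v : HeightOneSpectrum (𝓞 (fixZ z)) |
      ¬ (Ideal.absNorm v.asIdeal).Prime} ∪ {v | Ideal.absNorm v.asIdeal ∈ T}) 0 :=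
    HasLogDensity.union_zero hE hPS.2.2 (hasLogDensity_zero_of_finite (finite_setOf_absNorm_mem T))
  exact h1.diff_zero hE h2

theorem cyct_good_spec {M : Type} [Field M] [NumberField M] [IsGalois ℚ M]
    (hFT : StmtFrobTransfer) (z : M ≃ₐ[ℚ] M) (ℓ : ℕ) (ζ : M) (h : IsCyclZ z ℓ ζ) (t : ℕ)
    (ht : z ζ = ζ ^ t) (S : Finset ℕ) (v : HeightOneSpectrum (𝓞 (fixZ z)))
    (hv : v ∈ cyctGood z ℓ t (S ∪ (discr M).natAbs.primeFactors)) :
    (Ideal.absNorm v.asIdeal).Prime ∧ Ideal.absNorm v.asIdeal ∉ S ∧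
      UnramAt M (Ideal.absNorm v.asIdeal) ∧
      ∃ 𝔓 : Ideal (𝓞 M), 𝔓.IsPrime ∧ 𝔓.under (𝓞 (fixZ z)) = v.asIdeal ∧
        ((Ideal.absNorm v.asIdeal : ℕ) : 𝓞 M) ∈ 𝔓 ∧ IsArithFrobAt ℤ z 𝔓 := by
  obtain ⟨hv1, hv2⟩ := hv
  simp only [Set.mem_union, Set.mem_ofPred_eq, not_or, not_not, Finset.mem_union] at hv1 hv2
  obtain ⟨hp, hS, hd⟩ := hv2
  refine ⟨hp, hS, cyct_unramAt _ hp hd, ?_⟩
  obtain ⟨𝔓, h𝔓, hu⟩ := cyct_exists_above z v
  exact ⟨𝔓, h𝔓, hu, cyct_natCast_mem z v 𝔓 hu, hFT M z ℓ ζ t h ht v hp hv1 𝔓 h𝔓 hu⟩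

theorem cyct_fiber_le {M : Type} [Field M] [NumberField M] [IsGalois ℚ M]
    (hFT : StmtFrobTransfer) (hFC : StmtFiberCount) (z : M ≃ₐ[ℚ] M) (ℓ : ℕ) (ζ : M)
    (h : IsCyclZ z ℓ ζ) (t : ℕ) (ht : z ζ = ζ ^ t) (S : Finset ℕ)
    (G₀ : Finset (HeightOneSpectrum (𝓞 (fixZ z))))
    (hG₀ : ∀ v ∈ G₀, v ∈ cyctGood z ℓ t (S ∪ (discr M).natAbs.primeFactors))
    (p : ℕ) (w : HeightOneSpectrum (𝓞 (fixZ z))) (hw : w ∈ G₀)
    (hwp : Ideal.absNorm w.asIdeal = p) :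
    orderOf z * (G₀.filter (fun v => Ideal.absNorm v.asIdeal = p)).card ≤
      Nat.card (Subgroup.centralizer {z}) := by
  classical
  obtain ⟨hp, -, hur, -⟩ := cyct_good_spec hFT z ℓ ζ h t ht S w (hG₀ w hw)
  rw [hwp] at hp hur
  refine le_trans (Nat.mul_le_mul_left _ ?_) (hFC M z p hp hur)
  rw [← Set.ncard_coe_finset]
  refine Set.ncard_le_ncard ?_ ?_
  · intro v hv
    simp only [Finset.coe_filter, Set.mem_ofPred_eq] at hv
    obtain ⟨hv1, hv2⟩ := hv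
    obtain ⟨-, -, -, 𝔓, h𝔓, hu, -, hfr⟩ := cyct_good_spec hFT z ℓ ζ h t ht S v (hG₀ v hv1)
    exact ⟨hv2, 𝔓, h𝔓, hu, hfr⟩
  · refine (finite_setOf_absNorm_mem ({p} : Finset ℕ)).subset ?_
    intro v hv
    simp only [Set.mem_ofPred_eq, Finset.mem_singleton]
    exact hv.1

/-- piece CYC-T. -/
theorem stmtChebCycT_of (hD : StmtDirichletE) (hFT : StmtFrobTransfer) (hFC : StmtFiberCount) :
    StmtChebCycT := by
  intro M _ _ _ z ℓ ζ h S
  classical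
  obtain ⟨t, ht⟩ := cyct_exists_t z h
  obtain ⟨C₀, hC₀⟩ := cyct_good_density hD z ℓ ζ h t ht (S ∪ (discr M).natAbs.primeFactors)
  have hE : PrimeSummable (fixZ z) := (stmtPrimeSum (fixZ z)).1
  have hn : 0 < orderOf z := orderOf_pos z
  have hc : 0 < Nat.card (Subgroup.centralizer {z}) := Nat.card_pos
  have hnR : (0 : ℝ) < orderOf z := by exact_mod_cast hn
  have hcR : (0 : ℝ) < Nat.card (Subgroup.centralizer {z}) := by exact_mod_cast hc
  refine ⟨(orderOf z : ℝ) / Nat.card (Subgroup.centralizer {z}) * (C₀ + 1), fun s hs hs2 => ?_⟩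
  set G := cyctGood z ℓ t (S ∪ (discr M).natAbs.primeFactors) with hGdef
  -- a finite part of the sum
  have hsum : Summable (G.indicator (nrm (fixZ z) s)) := summable_indicator hE G hs
  have hlt : G.primeIdealZetaSum s - 1 < ∑' v, G.indicator (nrm (fixZ z) s) v := by
    rw [← primeIdealZetaSum_eq_tsum_indicator]
    linarith
  obtain ⟨F, hF⟩ := (hsum.hasSum.eventually (lt_mem_nhds hlt)).exists
  set G₀ : Finset (HeightOneSpectrum (𝓞 (fixZ z))) := F.filter (fun v => v ∈ G) with hG₀def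
  have hG₀ : ∀ v ∈ G₀, v ∈ G := fun v hv => (Finset.mem_filter.mp hv).2
  have hF' : G.primeIdealZetaSum s - 1 < ∑ v ∈ G₀, nrm (fixZ z) s v := by
    have e : ∑ v ∈ F, G.indicator (nrm (fixZ z) s) v = ∑ v ∈ G₀, nrm (fixZ z) s v := by
      rw [hG₀def, Finset.sum_filter]
      refine Finset.sum_congr rfl fun v _ => ?_
      by_cases hv : v ∈ G
      · rw [Set.indicator_of_mem hv, if_pos hv]
      · rw [Set.indicator_of_notMem hv, if_neg hv]
    rw [← e]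
    exact hF
  set P : Finset ℕ := G₀.image (fun v => Ideal.absNorm v.asIdeal) with hPdef
  refine ⟨P, fun p hp => ?_, ?_⟩
  · obtain ⟨v, hv, rfl⟩ := Finset.mem_image.mp hp
    obtain ⟨h1, h2, h3, 𝔓, h𝔓, -, hmem, hfr⟩ := cyct_good_spec hFT z ℓ ζ h t ht S v (hG₀ v hv)
    exact ⟨h1, h2, h3, 𝔓, h𝔓, hmem, hfr⟩
  · -- the counting inequality
    have key : (orderOf z : ℝ) * ∑ v ∈ G₀, nrm (fixZ z) s v ≤
        (Nat.card (Subgroup.centralizer {z}) : ℝ) * ∑ p ∈ P, (p : ℝ) ^ (-s) := by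
      have hmaps : ∀ v ∈ G₀, (fun v : HeightOneSpectrum (𝓞 (fixZ z)) =>
          Ideal.absNorm v.asIdeal) v ∈ P := fun v hv => Finset.mem_image_of_mem _ hv
      rw [← Finset.sum_fiberwise_of_maps_to hmaps, Finset.mul_sum, Finset.mul_sum]
      refine Finset.sum_le_sum fun p hp => ?_
      obtain ⟨w, hw, hwp⟩ := Finset.mem_image.mp hp
      have h1 : ∑ v ∈ G₀ with Ideal.absNorm v.asIdeal = p, nrm (fixZ z) s v =
          ((G₀.filter (fun v => Ideal.absNorm v.asIdeal = p)).card : ℝ) * (p : ℝ) ^ (-s) := by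
        rw [Finset.sum_congr rfl (g := fun _ => (p : ℝ) ^ (-s)), Finset.sum_const, nsmul_eq_mul]
        intro v hv
        rw [nrm, (Finset.mem_filter.mp hv).2]
      rw [h1, ← mul_assoc]
      refine mul_le_mul_of_nonneg_right ?_ (by positivity)
      exact_mod_cast cyct_fiber_le hFT hFC z ℓ ζ h t ht S G₀ hG₀ p w hw hwp
    have h2 := abs_le.mp (hC₀ s hs hs2)
    have h3 : (orderOf z : ℝ) * (1 / (orderOf z : ℝ) * Real.log (1 / (s - 1)) - C₀ - 1) ≤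
        (Nat.card (Subgroup.centralizer {z}) : ℝ) * ∑ p ∈ P, (p : ℝ) ^ (-s) := by
      refine le_trans (mul_le_mul_of_nonneg_left ?_ hnR.le) key
      linarith [h2.1]
    have h4 : (orderOf z : ℝ) * (1 / (orderOf z : ℝ) * Real.log (1 / (s - 1)) - C₀ - 1) =
        Real.log (1 / (s - 1)) - (orderOf z : ℝ) * (C₀ + 1) := by
      field_simp
      ring
    rw [h4] at h3
    have h5 : 1 / (Nat.card (Subgroup.centralizer {z}) : ℝ) * Real.log (1 / (s - 1)) -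
        (orderOf z : ℝ) / Nat.card (Subgroup.centralizer {z}) * (C₀ + 1) =
        (Real.log (1 / (s - 1)) - (orderOf z : ℝ) * (C₀ + 1)) /
          (Nat.card (Subgroup.centralizer {z}) : ℝ) := by
      field_simp
    rw [h5, div_le_iff₀ hcR]
    linarith [h3]

end Fermat.Agent.S48.CD
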