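/-
S48/CD piece DIRE (helper61): Dirichlet's theorem over a number field `E`, for the norms of the
primes modulo a prime `ℓ`, from the analytic and algebraic pieces of `S48/CD/Plan.lean`.
-/
import Fermat.Agent.S48.CD.Plan
import Fermat.Agent.Cheb.PrimeSum
import Fermat.Agent.Cheb.Density

set_option autoImplicit false

namespace Fermat.Agent.S48.CD

open NumberField IsDedekindDomain Filter Topology
open Fermat.Agent.Cheb

variable {E : Type} [Field E] [NumberField E]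

/-- the norm of `v` modulo `ℓ` -/
noncomputable def dirA (E : Type) [Field E] [NumberField E] (ℓ : ℕ)
    (v : HeightOneSpectrum (𝓞 E)) : ZMod ℓ :=
  ((Ideal.absNorm v.asIdeal : ℕ) : ZMod ℓ)

/-- the term of the prime sum with a character -/
noncomputable def dirTerm (E : Type) [Field E] [NumberField E] (ℓ : ℕ)
    (χ : DirichletCharacter ℂ ℓ) (s : ℝ) (v : HeightOneSpectrum (𝓞 E)) : ℂ :=
  (χ (dirA E ℓ v) : ℂ) * ((nrm E s v : ℝ) : ℂ)

theorem dire_primeSummable : PrimeSummable E := (stmtPrimeSum E).1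

theorem dire_primeL_eq (ℓ : ℕ) (χ : DirichletCharacter ℂ ℓ) (s : ℝ) :
    primeL E ℓ χ s = ∑' v, dirTerm E ℓ χ s v := rfl

theorem dire_norm_term_le (ℓ : ℕ) (χ : DirichletCharacter ℂ ℓ) (s : ℝ)
    (v : HeightOneSpectrum (𝓞 E)) : ‖dirTerm E ℓ χ s v‖ ≤ nrm E s v := by
  unfold dirTerm
  rw [norm_mul, Complex.norm_real, Real.norm_of_nonneg (nrm_nonneg s v)]
  calc ‖χ (dirA E ℓ v)‖ * nrm E s v ≤ 1 * nrm E s v :=
        mul_le_mul_of_nonneg_right (DirichletCharacter.norm_le_one χ _) (nrm_nonneg s v)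
    _ = nrm E s v := one_mul _

theorem dire_summable (ℓ : ℕ) (χ : DirichletCharacter ℂ ℓ) {s : ℝ} (hs : 1 < s) :
    Summable (dirTerm E ℓ χ s) :=
  Summable.of_norm_bounded (dire_primeSummable s hs) (dire_norm_term_le ℓ χ s)

/-- the density sum of a residue class, as a complex number -/
theorem dire_classSum (ℓ : ℕ) (b : ZMod ℓ) (s : ℝ) :
    (({v : HeightOneSpectrum (𝓞 E) | dirA E ℓ v = b}.primeIdealZetaSum s : ℝ) : ℂ) =
      ∑' v : HeightOneSpectrum (𝓞 E), if b = dirA E ℓ v then ((nrm E s v : ℝ) : ℂ) else 0 := by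
  rw [primeIdealZetaSum_eq_tsum_indicator, Complex.ofReal_tsum]
  refine tsum_congr fun v => ?_
  by_cases h : b = dirA E ℓ v
  · rw [if_pos h, Set.indicator_of_mem (by exact h.symm)]
  · rw [if_neg h, Set.indicator_of_notMem (by exact fun h' => h h'.symm)]
    simp

/-- orthogonality of the characters -/
theorem dire_orth (ℓ : ℕ) [NeZero ℓ] {t : ZMod ℓ} (ht : IsUnit t) {s : ℝ} (hs : 1 < s) :
    ∑ χ : DirichletCharacter ℂ ℓ, χ t⁻¹ * primeL E ℓ χ s =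
      (ℓ.totient : ℂ) *
        (({v : HeightOneSpectrum (𝓞 E) | dirA E ℓ v = t}.primeIdealZetaSum s : ℝ) : ℂ) := by
  rw [dire_classSum, ← tsum_mul_left]
  have h1 : ∀ χ : DirichletCharacter ℂ ℓ, χ t⁻¹ * primeL E ℓ χ s =
      ∑' v, χ t⁻¹ * dirTerm E ℓ χ s v := fun χ => by
    rw [dire_primeL_eq, tsum_mul_left]
  simp_rw [h1]
  rw [← Summable.tsum_finsetSum (fun χ _ => (dire_summable ℓ χ hs).mul_left _)]
  refine tsum_congr fun v => ?_
  have h2 := DirichletCharacter.sum_char_inv_mul_char_eq ℂ ht (dirA E ℓ v)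
  unfold dirTerm
  simp_rw [← mul_assoc]
  rw [← Finset.sum_mul, h2]
  split_ifs <;> simp

/-! ### The primes above `ℓ` -/

theorem dire_finite_zero (ℓ : ℕ) (hℓ : ℓ.Prime) :
    {v : HeightOneSpectrum (𝓞 E) | dirA E ℓ v = 0}.Finite := by
  have hne : Ideal.span {((ℓ : ℕ) : 𝓞 E)} ≠ 0 := by
    rw [Ne, Ideal.zero_eq_bot, Ideal.span_singleton_eq_bot]
    exact_mod_cast hℓ.ne_zero
  refine (Ideal.finite_factors hne).subset fun v hv => ?_
  have h1 : (ℓ : ℕ) ∣ Ideal.absNorm v.asIdeal := (ZMod.natCast_eq_zero_iff _ _).mp hv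
  haveI : v.asIdeal.IsMaximal := v.isMaximal
  obtain ⟨p, n, _, hp, hpp, hpn⟩ := Ideal.exists_prime_and_absNorm_eq_pow v.asIdeal
  rw [hpn] at h1
  have h2 : ℓ = p := (Nat.prime_dvd_prime_iff_eq hℓ hpp).mp (hℓ.dvd_of_dvd_pow h1)
  rw [Set.mem_setOf_eq, Ideal.dvd_iff_le, Ideal.span_singleton_le_iff_mem, h2]
  exact hp

theorem dire_density_nonzero (ℓ : ℕ) (hℓ : ℓ.Prime) :
    HasLogDensity {v : HeightOneSpectrum (𝓞 E) | dirA E ℓ v ≠ 0} 1 := by
  have h1 := (stmtPrimeSum E).2.1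
  have h2 := h1.diff_zero dire_primeSummable
    (hasLogDensity_zero_of_finite (dire_finite_zero (E := E) ℓ hℓ))
  have e : (Set.univ \ {v : HeightOneSpectrum (𝓞 E) | dirA E ℓ v = 0}) =
      {v : HeightOneSpectrum (𝓞 E) | dirA E ℓ v ≠ 0} := by
    ext v; simp
  rwa [e] at h2

/-- a character which is trivial on the norms: its prime sum is `log (1/(s-1)) + O(1)` -/
theorem dire_triv (ℓ : ℕ) (hℓ : ℓ.Prime) (χ : DirichletCharacter ℂ ℓ)
    (h : ∀ v : HeightOneSpectrum (𝓞 E), dirA E ℓ v ≠ 0 → χ (dirA E ℓ v) = 1) :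
    ∃ C : ℝ, ∀ s : ℝ, 1 < s → s < 2 →
      ‖primeL E ℓ χ s - ((Real.log (1 / (s - 1)) : ℝ) : ℂ)‖ ≤ C := by
  haveI : Fact (1 < ℓ) := ⟨hℓ.one_lt⟩
  obtain ⟨C, hC⟩ := dire_density_nonzero (E := E) ℓ hℓ
  refine ⟨C, fun s hs hs2 => ?_⟩
  have h1 : primeL E ℓ χ s =
      (({v : HeightOneSpectrum (𝓞 E) | dirA E ℓ v ≠ 0}.primeIdealZetaSum s : ℝ) : ℂ) := by
    rw [dire_primeL_eq, primeIdealZetaSum_eq_tsum_indicator, Complex.ofReal_tsum]
    refine tsum_congr fun v => ?_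
    unfold dirTerm
    by_cases hv : dirA E ℓ v = 0
    · rw [Set.indicator_of_notMem (by simpa using hv), hv, MulChar.map_zero]
      simp
    · rw [Set.indicator_of_mem (by exact hv), h v hv, one_mul]
  rw [h1, ← Complex.ofReal_sub, Complex.norm_real, Real.norm_eq_abs]
  simpa using hC s hs hs2

/-! ### The cyclotomic character of `Gal(M/E)` and the characters trivial on its image -/

section Gal

variable {M : Type} [Field M] [NumberField M] [Algebra E M] [IsGalois E M]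
variable {ℓ : ℕ} [NeZero ℓ] {ζ : M} (hζ : IsPrimitiveRoot ζ ℓ)

theorem dire_kappa_eq (g : M ≃ₐ[E] M) (a : ℕ) (h : g ζ = ζ ^ a) :
    ((hζ.autToPow E g : (ZMod ℓ)ˣ) : ZMod ℓ) = (a : ZMod ℓ) := by
  have h1 := hζ.autToPow_spec E g
  rw [h] at h1
  have hfin : IsOfFinOrder ζ := isOfFinOrder_iff_pow_eq_one.mpr ⟨ℓ, NeZero.pos ℓ, hζ.pow_eq_one⟩
  have h2 := hfin.pow_eq_pow_iff_modEq.mp h1
  rw [← hζ.eq_orderOf] at h2
  have h3 := (ZMod.natCast_eq_natCast_iff _ _ _).mpr h2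
  rwa [ZMod.natCast_zmod_val] at h3

theorem dire_kappa_injective (hfaith : ∀ g : M ≃ₐ[E] M, g ζ = ζ → g = 1) :
    Function.Injective (hζ.autToPow E) := by
  rw [injective_iff_map_eq_one]
  intro g hg
  apply hfaith
  have h1 := hζ.autToPow_spec E g
  rw [hg] at h1
  rw [← h1]
  rcases Nat.lt_or_ge 1 ℓ with h | h
  · haveI : Fact (1 < ℓ) := ⟨h⟩
    simp [ZMod.val_one]
  · have h0 : ℓ = 1 := le_antisymm h (NeZero.pos ℓ)
    have h2 : ζ = 1 := by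
      have := hζ.pow_eq_one
      rwa [h0, pow_one] at this
    rw [h2, one_pow]

/-- `χ` is trivial on the image of the cyclotomic character -/
def dirTriv (χ : DirichletCharacter ℂ ℓ) : Prop :=
  ∀ g : M ≃ₐ[E] M, χ ((hζ.autToPow E g : (ZMod ℓ)ˣ) : ZMod ℓ) = 1

theorem dire_sum_gal (χ : DirichletCharacter ℂ ℓ) [Decidable (dirTriv (E := E) hζ χ)] :
    ∑ g : M ≃ₐ[E] M, χ ((hζ.autToPow E g : (ZMod ℓ)ˣ) : ZMod ℓ) =
      if dirTriv (E := E) hζ χ then (Nat.card (M ≃ₐ[E] M) : ℂ) else 0 := by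
  split_ifs with h
  · rw [Finset.sum_congr rfl fun g _ => h g]
    simp [Nat.card_eq_fintype_card]
  · unfold dirTriv at h
    push Not at h
    obtain ⟨g₀, hg₀⟩ := h
    refine eq_zero_of_mul_eq_self_left hg₀ ?_
    rw [Finset.mul_sum]
    refine Fintype.sum_bijective (fun g => g₀ * g) (Group.mulLeft_bijective g₀) _ _ fun g => ?_
    rw [map_mul, Units.val_mul, map_mul]

open Classical in
theorem dire_count (hinj : Function.Injective (hζ.autToPow E)) :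
    ((Finset.univ.filter fun χ : DirichletCharacter ℂ ℓ => dirTriv (E := E) hζ χ).card : ℂ) *
      (Nat.card (M ≃ₐ[E] M) : ℂ) = (ℓ.totient : ℂ) := by
  have h1 : ∑ χ : DirichletCharacter ℂ ℓ,
      ∑ g : M ≃ₐ[E] M, χ ((hζ.autToPow E g : (ZMod ℓ)ˣ) : ZMod ℓ) =
      ((Finset.univ.filter fun χ : DirichletCharacter ℂ ℓ => dirTriv (E := E) hζ χ).card : ℂ) *
        (Nat.card (M ≃ₐ[E] M) : ℂ) := by
    simp_rw [dire_sum_gal]
    rw [← Finset.sum_filter, Finset.sum_const, nsmul_eq_mul]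
  rw [← h1, Finset.sum_comm]
  simp_rw [DirichletCharacter.sum_characters_eq]
  rw [Finset.sum_eq_single (1 : M ≃ₐ[E] M)]
  · simp
  · intro g _ hg
    rw [if_neg]
    intro h
    apply hg
    apply hinj
    rw [map_one]
    exact Units.ext h
  · intro h
    exact absurd (Finset.mem_univ _) h

end Gal

/-! ### The abstract comparison of the characters -/

open Classical in
/-- lower bound for the real part of the prime sum of a character outside `T` -/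
theorem dire_lower {X : Type} [Fintype X] (P : X → ℝ → ℂ) (T : X → Prop) (L D : ℝ → ℝ)
    (n φ : ℕ) (hn : 0 < n) (hcard : (Finset.univ.filter T).card * n = φ)
    (h1 : ∀ χ, T χ → ∃ C : ℝ, ∀ s : ℝ, 1 < s → s < 2 → ‖P χ s - ((L s : ℝ) : ℂ)‖ ≤ C)
    (h2 : ∀ χ, ¬ T χ → ∃ C : ℝ, ∀ s : ℝ, 1 < s → s < 2 → (P χ s).re ≤ C)
    (h3 : ∃ C : ℝ, ∀ s : ℝ, 1 < s → s < 2 → |D s - 1 / (n : ℝ) * L s| ≤ C)
    (h4 : ∀ s : ℝ, 1 < s → s < 2 → ∑ χ, P χ s = ((φ : ℝ) : ℂ) * ((D s : ℝ) : ℂ))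
    (χ₁ : X) (hχ₁ : ¬ T χ₁) :
    ∃ C : ℝ, ∀ s : ℝ, 1 < s → s < 2 → -C ≤ (P χ₁ s).re := by
  -- uniform upper bounds
  have hup : ∀ χ, ∃ c : ℝ, ∀ s : ℝ, 1 < s → s < 2 →
      (P χ s).re ≤ (if T χ then L s else 0) + c := by
    intro χ
    by_cases hT : T χ
    · obtain ⟨C, hC⟩ := h1 χ hT
      refine ⟨C, fun s hs hs2 => ?_⟩
      rw [if_pos hT]
      have h5 := (Complex.abs_re_le_norm _).trans (hC s hs hs2)
      rw [Complex.sub_re, Complex.ofReal_re] at h5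
      linarith [(abs_le.mp h5).2]
    · obtain ⟨C, hC⟩ := h2 χ hT
      refine ⟨C, fun s hs hs2 => ?_⟩
      rw [if_neg hT, zero_add]
      exact hC s hs hs2
  choose c hc using hup
  obtain ⟨C3, hC3⟩ := h3
  refine ⟨φ * C3 + ∑ χ ∈ Finset.univ.erase χ₁, c χ, fun s hs hs2 => ?_⟩
  have h5 : ∑ χ, (P χ s).re = φ * D s := by
    have := congrArg Complex.re (h4 s hs hs2)
    rw [Complex.re_sum] at this
    rw [this, ← Complex.ofReal_mul, Complex.ofReal_re]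
  have h6 : (P χ₁ s).re + ∑ χ ∈ Finset.univ.erase χ₁, (P χ s).re = φ * D s := by
    rw [Finset.add_sum_erase Finset.univ (fun χ => (P χ s).re) (Finset.mem_univ χ₁)]
    exact h5
  have h7 : ∑ χ ∈ Finset.univ.erase χ₁, (P χ s).re ≤
      ∑ χ ∈ Finset.univ.erase χ₁, ((if T χ then L s else 0) + c χ) :=
    Finset.sum_le_sum fun χ _ => hc χ s hs hs2
  have h8 : ∑ χ ∈ Finset.univ.erase χ₁, (if T χ then L s else 0) =
      ((Finset.univ.filter T).card : ℝ) * L s := by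
    have h9 : ∑ χ ∈ Finset.univ.erase χ₁, (if T χ then L s else 0) =
        ∑ χ : X, (if T χ then L s else 0) := by
      rw [← Finset.add_sum_erase Finset.univ (fun χ => if T χ then L s else 0)
        (Finset.mem_univ χ₁), if_neg hχ₁, zero_add]
    rw [h9, ← Finset.sum_filter, Finset.sum_const, nsmul_eq_mul]
  rw [Finset.sum_add_distrib, h8] at h7
  have h10 := (abs_le.mp (hC3 s hs hs2)).1
  have h11 : (φ : ℝ) * (1 / (n : ℝ) * L s) = ((Finset.univ.filter T).card : ℝ) * L s := by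
    rw [← hcard]
    push_cast
    field_simp
  have h12 : (φ : ℝ) * (D s - 1 / (n : ℝ) * L s) ≥ φ * (-C3) :=
    mul_le_mul_of_nonneg_left h10 (Nat.cast_nonneg φ)
  nlinarith [h6, h7, h11, h12]

/-! ### The analytic input for one character -/

/-- upper bound of the real part of the prime sum -/
theorem dire_re_le {Λ R P : ℝ → ℂ} (hΛc : ContinuousOn Λ (Set.Icc 1 2)) (CR : ℝ)
    (hCR : ∀ s : ℝ, 1 < s → s ≤ 2 → ‖R s‖ ≤ CR)
    (hexp : ∀ s : ℝ, 1 < s → s ≤ 2 → Λ s = Complex.exp (P s + R s)) :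
    ∃ C : ℝ, ∀ s : ℝ, 1 < s → s < 2 → (P s).re ≤ C := by
  obtain ⟨K, hK⟩ := isCompact_Icc.exists_bound_of_continuousOn hΛc
  refine ⟨Real.log (max K 1) + CR, fun s hs hs2 => ?_⟩
  have h1 : ‖Λ s‖ ≤ max K 1 := (hK s ⟨hs.le, hs2.le⟩).trans (le_max_left _ _)
  rw [hexp s hs hs2.le, Complex.norm_exp] at h1
  have h2 : (P s + R s).re ≤ Real.log (max K 1) :=
    (Real.le_log_iff_exp_le (lt_of_lt_of_le one_pos (le_max_right _ _))).mpr h1
  have h3 : -(R s).re ≤ CR :=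
    (neg_le_abs _).trans ((Complex.abs_re_le_norm _).trans (hCR s hs hs2.le))
  rw [Complex.add_re] at h2
  linarith

/-- nonvanishing at `1`, and boundedness of the prime sum -/
theorem dire_bounded (hArg : StmtArgBounded) {Λ R P : ℝ → ℂ}
    (hΛc : ContinuousOn Λ (Set.Icc 1 2)) (hRc : ContinuousOn R (Set.Ioc 1 2))
    (hPc : ContinuousOn P (Set.Ioc 1 2)) (CR : ℝ)
    (hCR : ∀ s : ℝ, 1 < s → s ≤ 2 → ‖R s‖ ≤ CR)
    (hexp : ∀ s : ℝ, 1 < s → s ≤ 2 → Λ s = Complex.exp (P s + R s))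
    (C : ℝ) (hlow : ∀ s : ℝ, 1 < s → s < 2 → -C ≤ (P s).re) :
    ∃ C' : ℝ, ∀ s : ℝ, 1 < s → s < 2 → ‖P s‖ ≤ C' := by
  have hge : ∀ s : ℝ, 1 < s → s < 2 → Real.exp (-C - CR) ≤ ‖Λ s‖ := by
    intro s hs hs2
    rw [hexp s hs hs2.le, Complex.norm_exp, Real.exp_le_exp, Complex.add_re]
    have h3 : -(R s).re ≤ CR :=
      (neg_le_abs _).trans ((Complex.abs_re_le_norm _).trans (hCR s hs hs2.le))
    linarith [hlow s hs hs2]
  have h1 : Λ 1 ≠ 0 := by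
    have hcont : ContinuousWithinAt Λ (Set.Icc 1 2) 1 :=
      hΛc 1 ⟨le_refl _, by norm_num⟩
    have hmono : ContinuousWithinAt Λ (Set.Ioo 1 2) 1 :=
      hcont.mono Set.Ioo_subset_Icc_self
    have ht : Tendsto (fun s => ‖Λ s‖) (𝓝[Set.Ioo 1 2] (1 : ℝ)) (𝓝 ‖Λ 1‖) :=
      (continuous_norm.tendsto _).comp hmono
    haveI : (𝓝[Set.Ioo 1 2] (1 : ℝ)).NeBot := by
      rw [← mem_closure_iff_nhdsWithin_neBot, closure_Ioo (by norm_num)]
      exact ⟨le_refl _, by norm_num⟩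
    have h2 : Real.exp (-C - CR) ≤ ‖Λ 1‖ := by
      refine ge_of_tendsto ht ?_
      filter_upwards [self_mem_nhdsWithin] with s hs
      exact hge s hs.1 hs.2
    intro h0
    rw [h0, norm_zero] at h2
    exact absurd h2 (not_le.mpr (Real.exp_pos _))
  obtain ⟨C', hC'⟩ := hArg (fun s => P s + R s) Λ (hPc.add hRc) hΛc h1 hexp
  refine ⟨C' + CR, fun s hs hs2 => ?_⟩
  have h2 := hC' s hs hs2.le
  have h3 := hCR s hs hs2.le
  calc ‖P s‖ = ‖(P s + R s) - R s‖ := by rw [add_sub_cancel_right]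
    _ ≤ ‖P s + R s‖ + ‖R s‖ := norm_sub_le _ _
    _ ≤ C' + CR := add_le_add h2 h3

/-! ### The theorem -/

open Classical in
theorem stmtDirichletE (hL : StmtNormL) (hEu : StmtEulerLog) (hArg : StmtArgBounded)
    (hSp : StmtSplitOne) (hNR : StmtNormRange) (hNG : StmtNormGen) : StmtDirichletE := by
  intro E M _ _ _ _ _ _ ℓ ζ hcyc z t hz
  have hcyc' := hcyc
  obtain ⟨hℓ, hζ, hfaith⟩ := hcyc
  haveI : NeZero ℓ := ⟨hℓ.ne_zero⟩
  haveI : Fact (1 < ℓ) := ⟨hℓ.one_lt⟩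
  haveI : Fact ℓ.Prime := ⟨hℓ⟩
  have hκinj := dire_kappa_injective (E := E) hζ hfaith
  set L : ℝ → ℝ := fun s => Real.log (1 / (s - 1)) with hLdef
  -- characters trivial on the image
  have hB1 : ∀ χ : DirichletCharacter ℂ ℓ, dirTriv (E := E) hζ χ →
      ∃ C : ℝ, ∀ s : ℝ, 1 < s → s < 2 → ‖primeL E ℓ χ s - ((L s : ℝ) : ℂ)‖ ≤ C := by
    intro χ hχ
    refine dire_triv ℓ hℓ χ fun v hv => ?_
    obtain ⟨g, hg⟩ := hNR E M ℓ ζ hcyc' v hv
    have h1 := dire_kappa_eq (E := E) hζ g _ hg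
    have h2 := hχ g
    rw [h1] at h2
    exact h2
  -- the analytic data of the other characters
  have hdata : ∀ χ : DirichletCharacter ℂ ℓ, ¬ dirTriv (E := E) hζ χ →
      ∃ Λ R : ℝ → ℂ, ContinuousOn Λ (Set.Icc 1 2) ∧ ContinuousOn R (Set.Ioc 1 2) ∧
        ContinuousOn (primeL E ℓ χ) (Set.Ioc 1 2) ∧
        (∃ CR : ℝ, ∀ s : ℝ, 1 < s → s ≤ 2 → ‖R s‖ ≤ CR) ∧
        ∀ s : ℝ, 1 < s → s ≤ 2 → Λ s = Complex.exp (primeL E ℓ χ s + R s) := by
    intro χ hχ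
    unfold dirTriv at hχ
    push Not at hχ
    obtain ⟨g₀, hg₀⟩ := hχ
    obtain ⟨v₀, hv₀, hgen⟩ := hNG E M ℓ ζ hcyc'
    obtain ⟨j, hj⟩ := hgen g₀
    have h1 := dire_kappa_eq (E := E) hζ g₀ _ hj
    rw [h1, Nat.cast_pow, map_pow] at hg₀
    have h2 : χ ((Ideal.absNorm v₀.asIdeal : ℕ) : ZMod ℓ) ≠ 1 := by
      intro h
      rw [h, one_pow] at hg₀
      exact hg₀ rfl
    have h3 : χ ((Ideal.absNorm v₀.asIdeal : ℕ) : ZMod ℓ) ≠ 0 := by
      have hu : IsUnit ((Ideal.absNorm v₀.asIdeal : ℕ) : ZMod ℓ) := isUnit_iff_ne_zero.mpr hv₀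
      exact (hu.map χ).ne_zero
    obtain ⟨Λ, hΛc, hΛ⟩ := hL E ℓ χ
      ⟨⟨v₀.asIdeal, mem_nonZeroDivisors_of_ne_zero v₀.ne_bot⟩, h3, h2⟩
    obtain ⟨R, hRc, hCR, hPc, hexp⟩ := hEu E ℓ χ
    exact ⟨Λ, R, hΛc, hRc, hPc, hCR, fun s hs hs2 => (hΛ s hs hs2).trans (hexp s hs hs2)⟩
  have hB2up : ∀ χ : DirichletCharacter ℂ ℓ, ¬ dirTriv (E := E) hζ χ →
      ∃ C : ℝ, ∀ s : ℝ, 1 < s → s < 2 → (primeL E ℓ χ s).re ≤ C := by
    intro χ hχ
    obtain ⟨Λ, R, hΛc, -, -, ⟨CR, hCR⟩, hexp⟩ := hdata χ hχ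
    exact dire_re_le hΛc CR hCR hexp
  -- the class of `1`
  have hD1 := hSp E M ℓ ζ hcyc'
  have hn : 0 < Module.finrank E M := Module.finrank_pos
  have hcard : (Finset.univ.filter fun χ : DirichletCharacter ℂ ℓ =>
      dirTriv (E := E) hζ χ).card * Module.finrank E M = ℓ.totient := by
    have h1 := dire_count (E := E) hζ hκinj
    rw [IsGalois.card_aut_eq_finrank] at h1
    exact_mod_cast h1
  have horth1 : ∀ s : ℝ, 1 < s → s < 2 → ∑ χ : DirichletCharacter ℂ ℓ, primeL E ℓ χ s =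
      ((ℓ.totient : ℝ) : ℂ) *
        (({v : HeightOneSpectrum (𝓞 E) | dirA E ℓ v = 1}.primeIdealZetaSum s : ℝ) : ℂ) := by
    intro s hs _
    have h1 := dire_orth (E := E) ℓ (t := 1) isUnit_one hs
    simp only [inv_one, map_one, one_mul] at h1
    rw [h1]
    norm_cast
  have hB2low : ∀ χ : DirichletCharacter ℂ ℓ, ¬ dirTriv (E := E) hζ χ →
      ∃ C : ℝ, ∀ s : ℝ, 1 < s → s < 2 → -C ≤ (primeL E ℓ χ s).re :=
    dire_lower (fun χ s => primeL E ℓ χ s) _ L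
      (fun s => {v : HeightOneSpectrum (𝓞 E) | dirA E ℓ v = 1}.primeIdealZetaSum s)
      (Module.finrank E M) ℓ.totient hn hcard hB1 hB2up hD1 horth1
  have hB2 : ∀ χ : DirichletCharacter ℂ ℓ, ¬ dirTriv (E := E) hζ χ →
      ∃ C : ℝ, ∀ s : ℝ, 1 < s → s < 2 → ‖primeL E ℓ χ s‖ ≤ C := by
    intro χ hχ
    obtain ⟨Λ, R, hΛc, hRc, hPc, ⟨CR, hCR⟩, hexp⟩ := hdata χ hχ
    obtain ⟨C, hC⟩ := hB2low χ hχ
    exact dire_bounded hArg hΛc hRc hPc CR hCR hexp C hC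
  -- the class of `t`
  have ht : ((hζ.autToPow E z : (ZMod ℓ)ˣ) : ZMod ℓ) = (t : ZMod ℓ) := dire_kappa_eq hζ z t hz
  have htu : IsUnit (t : ZMod ℓ) := ht ▸ Units.isUnit _
  have hall : ∀ χ : DirichletCharacter ℂ ℓ, ∃ C : ℝ, ∀ s : ℝ, 1 < s → s < 2 →
      ‖(χ (t : ZMod ℓ)⁻¹ - 1) * primeL E ℓ χ s‖ ≤ C := by
    intro χ
    by_cases hχ : dirTriv (E := E) hζ χ
    · refine ⟨0, fun s _ _ => ?_⟩
      have h1 : χ (t : ZMod ℓ)⁻¹ = 1 := by
        have h2 := hχ z⁻¹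
        rw [map_inv, ← ht] at *
        rwa [Units.val_inv_eq_inv_val] at h2
      rw [h1, sub_self, zero_mul, norm_zero]
    · obtain ⟨C, hC⟩ := hB2 χ hχ
      refine ⟨2 * C, fun s hs hs2 => ?_⟩
      rw [norm_mul]
      have h1 : ‖χ (t : ZMod ℓ)⁻¹ - 1‖ ≤ 2 := by
        calc ‖χ (t : ZMod ℓ)⁻¹ - 1‖ ≤ ‖χ (t : ZMod ℓ)⁻¹‖ + ‖(1 : ℂ)‖ := norm_sub_le _ _
          _ ≤ 1 + 1 := add_le_add (DirichletCharacter.norm_le_one χ _) (by simp)
          _ = 2 := by norm_num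
      exact mul_le_mul h1 (hC s hs hs2) (norm_nonneg _) (by norm_num)
  choose c hc using hall
  obtain ⟨C1, hC1⟩ := hD1
  have hφ : (0 : ℝ) < ℓ.totient := by exact_mod_cast Nat.totient_pos.mpr hℓ.pos
  refine ⟨C1 + (∑ χ : DirichletCharacter ℂ ℓ, c χ) / ℓ.totient, fun s hs hs2 => ?_⟩
  have h1 := dire_orth (E := E) ℓ htu hs
  have h2 := dire_orth (E := E) ℓ (t := 1) isUnit_one hs
  simp only [inv_one, map_one, one_mul] at h2
  have h3 : ∑ χ : DirichletCharacter ℂ ℓ, (χ (t : ZMod ℓ)⁻¹ - 1) * primeL E ℓ χ s =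
      (ℓ.totient : ℂ) *
        ((({v : HeightOneSpectrum (𝓞 E) | dirA E ℓ v = (t : ZMod ℓ)}.primeIdealZetaSum s -
          {v : HeightOneSpectrum (𝓞 E) | dirA E ℓ v = 1}.primeIdealZetaSum s : ℝ)) : ℂ) := by
    simp_rw [sub_mul, one_mul]
    rw [Finset.sum_sub_distrib, h1, h2]
    push_cast
    ring
  have h4 : ‖∑ χ : DirichletCharacter ℂ ℓ, (χ (t : ZMod ℓ)⁻¹ - 1) * primeL E ℓ χ s‖ ≤
      ∑ χ : DirichletCharacter ℂ ℓ, c χ :=
    (norm_sum_le _ _).trans (Finset.sum_le_sum fun χ _ => hc χ s hs hs2)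
  rw [h3, norm_mul, Complex.norm_natCast, Complex.norm_real, Real.norm_eq_abs] at h4
  have h5 : |{v : HeightOneSpectrum (𝓞 E) | dirA E ℓ v = (t : ZMod ℓ)}.primeIdealZetaSum s -
      {v : HeightOneSpectrum (𝓞 E) | dirA E ℓ v = 1}.primeIdealZetaSum s| ≤
      (∑ χ : DirichletCharacter ℂ ℓ, c χ) / ℓ.totient := by
    rw [le_div_iff₀ hφ, mul_comm]
    exact h4
  have h6 := hC1 s hs hs2
  have e : {v : HeightOneSpectrum (𝓞 E) |
      ((Ideal.absNorm v.asIdeal : ℕ) : ZMod ℓ) = (t : ZMod ℓ)}.primeIdealZetaSum s -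
      1 / (Module.finrank E M : ℝ) * Real.log (1 / (s - 1)) =
      ({v : HeightOneSpectrum (𝓞 E) | dirA E ℓ v = (t : ZMod ℓ)}.primeIdealZetaSum s -
        {v : HeightOneSpectrum (𝓞 E) | dirA E ℓ v = 1}.primeIdealZetaSum s) +
      ({v : HeightOneSpectrum (𝓞 E) | dirA E ℓ v = 1}.primeIdealZetaSum s -
        1 / (Module.finrank E M : ℝ) * Real.log (1 / (s - 1))) := by
    unfold dirA
    ring
  rw [e]
  calc _ ≤ _ + _ := abs_add_le _ _
    _ ≤ (∑ χ : DirichletCharacter ℂ ℓ, c χ) / ℓ.totient + C1 := add_le_add h5 h6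
    _ = _ := add_comm _ _

end Fermat.Agent.S48.CD
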