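import Mathlib
import Fermat.Agent.S48.CD.Plan
import Fermat.Agent.S14.Euler

/-!
# S48/CD, piece EUL: the Euler product of `L(s, χ ∘ N)` in logarithmic form

`L(s, χ ∘ N) = exp (∑_v χ(N v) N v^{-s} + R(s))` on `(1, 2]`, with `R` continuous and bounded and
the prime sum continuous.  (`R(s) = ∑_v (log (1 - w_v)⁻¹ - w_v)`, `w_v = χ(N v) N v^{-s}`.)
-/

set_option autoImplicit false
set_option linter.unusedSectionVars false

noncomputable section

namespace Fermat.Agent.S48.CD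

open NumberField IsDedekindDomain Filter Topology

variable (E : Type) [Field E] [NumberField E] (m : ℕ) [NeZero m] (χ : DirichletCharacter ℂ m)

/-- the multiplicative function `I ↦ χ(N I) N I^{-s}` -/
def eulTerm (s : ℝ) : nonZeroDivisors (Ideal (𝓞 E)) →* ℂ where
  toFun I := (χ ((Ideal.absNorm (I : Ideal (𝓞 E)) : ℕ) : ZMod m) : ℂ) *
    (((Ideal.absNorm (I : Ideal (𝓞 E)) : ℝ) ^ (-s) : ℝ) : ℂ)
  map_one' := by simp
  map_mul' I J := by
    simp only [Submonoid.coe_mul, map_mul, Nat.cast_mul]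
    rw [Real.mul_rpow (Nat.cast_nonneg _) (Nat.cast_nonneg _)]
    push_cast
    ring

/-- the local term `w_v(s) = χ(N v) N v^{-s}` -/
def eulW (v : HeightOneSpectrum (𝓞 E)) (s : ℝ) : ℂ :=
  (χ ((Ideal.absNorm v.asIdeal : ℕ) : ZMod m) : ℂ) *
    (((Ideal.absNorm v.asIdeal : ℝ) ^ (-s) : ℝ) : ℂ)

theorem eulTerm_prime (s : ℝ) (v : HeightOneSpectrum (𝓞 E)) :
    eulTerm E m χ s (Fermat.Agent.S14.primeIdeal₀ v) = eulW E m χ v s := rfl

theorem eul_norm_term_le (s : ℝ) (I : nonZeroDivisors (Ideal (𝓞 E))) :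
    ‖eulTerm E m χ s I‖ ≤ (Ideal.absNorm (I : Ideal (𝓞 E)) : ℝ) ^ (-s) := by
  have h0 : 0 ≤ (Ideal.absNorm (I : Ideal (𝓞 E)) : ℝ) ^ (-s) :=
    Real.rpow_nonneg (Nat.cast_nonneg _) _
  simp only [eulTerm, MonoidHom.coe_mk, OneHom.coe_mk, norm_mul, Complex.norm_real,
    Real.norm_eq_abs, abs_of_nonneg h0]
  calc ‖χ ((Ideal.absNorm (I : Ideal (𝓞 E)) : ℕ) : ZMod m)‖ *
        (Ideal.absNorm (I : Ideal (𝓞 E)) : ℝ) ^ (-s)
      ≤ 1 * (Ideal.absNorm (I : Ideal (𝓞 E)) : ℝ) ^ (-s) :=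
        mul_le_mul_of_nonneg_right (DirichletCharacter.norm_le_one χ _) h0
    _ = _ := one_mul _

theorem eul_norm_W_le (v : HeightOneSpectrum (𝓞 E)) (s : ℝ) :
    ‖eulW E m χ v s‖ ≤ (Ideal.absNorm v.asIdeal : ℝ) ^ (-s) :=
  eul_norm_term_le E m χ s (Fermat.Agent.S14.primeIdeal₀ v)

theorem eul_primeIdeal₀_injective :
    Function.Injective
      (Fermat.Agent.S14.primeIdeal₀ : HeightOneSpectrum (𝓞 E) → nonZeroDivisors (Ideal (𝓞 E))) := by
  intro v w h
  have h1 : v.asIdeal = w.asIdeal :=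
    congrArg (fun I : nonZeroDivisors (Ideal (𝓞 E)) => (I : Ideal (𝓞 E))) h
  exact HeightOneSpectrum.ext h1

/-- `∑_v N v^{-s}` converges for `s > 1` -/
theorem eul_summable_prime {s : ℝ} (hs : 1 < s) :
    Summable fun v : HeightOneSpectrum (𝓞 E) => (Ideal.absNorm v.asIdeal : ℝ) ^ (-s) := by
  have h := (Fermat.Agent.S14.summable_absNorm_rpow E hs).comp_injective
    (eul_primeIdeal₀_injective E)
  refine h.congr ?_
  intro v
  rfl

theorem eul_rpow_anti (v : HeightOneSpectrum (𝓞 E)) {s t : ℝ} (hst : s ≤ t) :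
    (Ideal.absNorm v.asIdeal : ℝ) ^ (-t) ≤ (Ideal.absNorm v.asIdeal : ℝ) ^ (-s) := by
  have h1 : (1 : ℝ) ≤ (Ideal.absNorm v.asIdeal : ℝ) := by
    have := Fermat.Agent.S14.two_le_absNorm E v
    exact_mod_cast (by omega : 1 ≤ Ideal.absNorm v.asIdeal)
  exact Real.rpow_le_rpow_of_exponent_le h1 (by linarith)

theorem eul_rpow_le_half (v : HeightOneSpectrum (𝓞 E)) {s : ℝ} (hs : 1 ≤ s) :
    (Ideal.absNorm v.asIdeal : ℝ) ^ (-s) ≤ 1 / 2 := by
  have h2 : (2 : ℝ) ≤ (Ideal.absNorm v.asIdeal : ℝ) := by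
    exact_mod_cast Fermat.Agent.S14.two_le_absNorm E v
  have h3 := eul_rpow_anti E v hs
  have h4 : (Ideal.absNorm v.asIdeal : ℝ) ^ (-(1 : ℝ)) ≤ 1 / 2 := by
    rw [Real.rpow_neg_one, one_div]
    exact inv_anti₀ (by norm_num) h2
  linarith

theorem eul_norm_W_le_half (v : HeightOneSpectrum (𝓞 E)) {s : ℝ} (hs : 1 ≤ s) :
    ‖eulW E m χ v s‖ ≤ 1 / 2 :=
  (eul_norm_W_le E m χ v s).trans (eul_rpow_le_half E v hs)

theorem eul_continuous_W (v : HeightOneSpectrum (𝓞 E)) : Continuous (eulW E m χ v) := by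
  unfold eulW
  have h2 : (0 : ℝ) < (Ideal.absNorm v.asIdeal : ℝ) := by
    have := Fermat.Agent.S14.two_le_absNorm E v
    exact_mod_cast (by omega : 0 < Ideal.absNorm v.asIdeal)
  refine continuous_const.mul (Complex.continuous_ofReal.comp ?_)
  exact (Real.continuous_const_rpow h2.ne').comp continuous_neg

/-- the remainder term `r_v(s) = log (1 - w_v)⁻¹ - w_v` -/
def eulR (v : HeightOneSpectrum (𝓞 E)) (s : ℝ) : ℂ :=
  Complex.log (1 - eulW E m χ v s)⁻¹ - eulW E m χ v s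

theorem eul_norm_R_le (v : HeightOneSpectrum (𝓞 E)) {s : ℝ} (hs : 1 ≤ s) :
    ‖eulR E m χ v s‖ ≤ (Ideal.absNorm v.asIdeal : ℝ) ^ (-(2 : ℝ)) := by
  have hw := eul_norm_W_le_half E m χ v hs
  have hw1 : ‖eulW E m χ v s‖ < 1 := lt_of_le_of_lt hw (by norm_num)
  have h1 := Complex.norm_log_one_sub_inv_sub_self_le hw1
  have h2 : (1 - ‖eulW E m χ v s‖)⁻¹ ≤ 2 := by
    rw [inv_le_comm₀ (by linarith) (by norm_num)]
    linarith
  have h3 : ‖eulW E m χ v s‖ ^ 2 * (1 - ‖eulW E m χ v s‖)⁻¹ / 2 ≤ ‖eulW E m χ v s‖ ^ 2 := by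
    have h0 : 0 ≤ ‖eulW E m χ v s‖ ^ 2 := by positivity
    nlinarith
  have h4 : ‖eulW E m χ v s‖ ^ 2 ≤ ((Ideal.absNorm v.asIdeal : ℝ) ^ (-s)) ^ 2 :=
    pow_le_pow_left₀ (norm_nonneg _) (eul_norm_W_le E m χ v s) 2
  have h5 : ((Ideal.absNorm v.asIdeal : ℝ) ^ (-s)) ^ 2 ≤
      (Ideal.absNorm v.asIdeal : ℝ) ^ (-(2 : ℝ)) := by
    rw [← Real.rpow_natCast, ← Real.rpow_mul (Nat.cast_nonneg _)]
    have h1' : (1 : ℝ) ≤ (Ideal.absNorm v.asIdeal : ℝ) := by
      have := Fermat.Agent.S14.two_le_absNorm E v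
      exact_mod_cast (by omega : 1 ≤ Ideal.absNorm v.asIdeal)
    apply Real.rpow_le_rpow_of_exponent_le h1'
    push_cast
    linarith
  exact h1.trans (h3.trans (h4.trans h5))

theorem eul_continuousOn_R (v : HeightOneSpectrum (𝓞 E)) :
    ContinuousOn (eulR E m χ v) (Set.Ici 1) := by
  unfold eulR
  refine ContinuousOn.sub ?_ (eul_continuous_W E m χ v).continuousOn
  refine ContinuousOn.clog ?_ ?_
  · refine ContinuousOn.inv₀ (continuous_const.sub (eul_continuous_W E m χ v)).continuousOn ?_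
    intro s hs h0
    have hw := eul_norm_W_le_half E m χ v (Set.mem_Ici.1 hs)
    have h1 : eulW E m χ v s = 1 := by
      rw [sub_eq_zero] at h0
      exact h0.symm
    rw [h1, norm_one] at hw
    norm_num at hw
  · intro s hs
    have hw := eul_norm_W_le_half E m χ v (Set.mem_Ici.1 hs)
    have hw1 : ‖-eulW E m χ v s‖ < 1 := by
      rw [norm_neg]
      exact lt_of_le_of_lt hw (by norm_num)
    have h1 := Complex.mem_slitPlane_of_norm_lt_one hw1
    rw [← sub_eq_add_neg] at h1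
    rw [Complex.mem_slitPlane_iff_arg] at h1 ⊢
    refine ⟨?_, inv_ne_zero h1.2⟩
    rw [Complex.arg_inv, if_neg h1.1]
    intro h2
    have h3 := Complex.neg_pi_lt_arg (1 - eulW E m χ v s)
    have h4 : (1 - eulW E m χ v s).arg = -Real.pi := by linarith [neg_eq_iff_eq_neg.1 h2]
    linarith

theorem eul_summable_two : Summable fun v : HeightOneSpectrum (𝓞 E) =>
    (Ideal.absNorm v.asIdeal : ℝ) ^ (-(2 : ℝ)) := eul_summable_prime E (by norm_num)

/-- the majorant `N v ^ (-t)` -/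
def eulU (t : ℝ) (v : HeightOneSpectrum (𝓞 E)) : ℝ := (Ideal.absNorm v.asIdeal : ℝ) ^ (-t)

/-- the majorant `N v ^ (-2)` -/
def eulU2 (v : HeightOneSpectrum (𝓞 E)) : ℝ := (Ideal.absNorm v.asIdeal : ℝ) ^ (-(2 : ℝ))

theorem eul_summable_U {t : ℝ} (ht : 1 < t) : Summable (eulU E t) := eul_summable_prime E ht

theorem eul_summable_U2 : Summable (eulU2 E) := eul_summable_two E

/-- the remainder `R(s) = ∑_v r_v(s)` -/
def eulRsum (s : ℝ) : ℂ := ∑' v : HeightOneSpectrum (𝓞 E), eulR E m χ v s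

theorem eul_continuousOn_Rsum : ContinuousOn (eulRsum E m χ) (Set.Ioc 1 2) := by
  have h1 : ∀ v : HeightOneSpectrum (𝓞 E), ContinuousOn (eulR E m χ v) (Set.Ici (1 : ℝ)) :=
    fun v => eul_continuousOn_R E m χ v
  have h2 : ∀ (v : HeightOneSpectrum (𝓞 E)) (s : ℝ), s ∈ Set.Ici (1 : ℝ) →
      ‖eulR E m χ v s‖ ≤ eulU2 E v :=
    fun v s hs => eul_norm_R_le E m χ v (Set.mem_Ici.1 hs)
  have h : ContinuousOn (fun s => ∑' v : HeightOneSpectrum (𝓞 E), eulR E m χ v s)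
      (Set.Ici (1 : ℝ)) := continuousOn_tsum h1 (eul_summable_U2 E) h2
  exact h.mono fun s hs => Set.mem_Ici.2 hs.1.le

theorem eul_summable_R {s : ℝ} (hs : 1 ≤ s) :
    Summable fun v : HeightOneSpectrum (𝓞 E) => eulR E m χ v s :=
  Summable.of_norm_bounded (eul_summable_two E) (fun v => eul_norm_R_le E m χ v hs)

theorem eul_summable_W {s : ℝ} (hs : 1 < s) :
    Summable fun v : HeightOneSpectrum (𝓞 E) => eulW E m χ v s :=
  Summable.of_norm_bounded (eul_summable_prime E hs) (fun v => eul_norm_W_le E m χ v s)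

theorem eul_norm_Rsum_le {s : ℝ} (hs : 1 ≤ s) :
    ‖eulRsum E m χ s‖ ≤
      ∑' v : HeightOneSpectrum (𝓞 E), (Ideal.absNorm v.asIdeal : ℝ) ^ (-(2 : ℝ)) := by
  have hle : ∀ v, ‖eulR E m χ v s‖ ≤ (Ideal.absNorm v.asIdeal : ℝ) ^ (-(2 : ℝ)) :=
    fun v => eul_norm_R_le E m χ v hs
  have hsn : Summable fun v => ‖eulR E m χ v s‖ :=
    Summable.of_nonneg_of_le (fun _ => norm_nonneg _) hle (eul_summable_two E)
  exact (norm_tsum_le_tsum_norm hsn).trans (hsn.tsum_le_tsum hle (eul_summable_two E))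

theorem eul_primeL_eq (s : ℝ) :
    primeL E m χ s = ∑' v : HeightOneSpectrum (𝓞 E), eulW E m χ v s := rfl

theorem eul_idealL_eq (s : ℝ) :
    idealL E m χ s = ∑' I : nonZeroDivisors (Ideal (𝓞 E)), eulTerm E m χ s I := rfl

theorem eul_continuousOn_primeL : ContinuousOn (primeL E m χ) (Set.Ioc 1 2) := by
  intro s₀ hs₀
  have hεpos : 0 < (s₀ - 1) / 2 := by linarith [hs₀.1]
  have h1 : ∀ v : HeightOneSpectrum (𝓞 E),
      ContinuousOn (eulW E m χ v) (Set.Ici (1 + (s₀ - 1) / 2)) :=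
    fun v => (eul_continuous_W E m χ v).continuousOn
  have h3 : ∀ (v : HeightOneSpectrum (𝓞 E)) (s : ℝ), s ∈ Set.Ici (1 + (s₀ - 1) / 2) →
      ‖eulW E m χ v s‖ ≤ eulU E (1 + (s₀ - 1) / 2) v :=
    fun v s hs => (eul_norm_W_le E m χ v s).trans (eul_rpow_anti E v (Set.mem_Ici.1 hs))
  have hc : ContinuousOn (fun s => ∑' v : HeightOneSpectrum (𝓞 E), eulW E m χ v s)
      (Set.Ici (1 + (s₀ - 1) / 2)) :=
    continuousOn_tsum h1 (eul_summable_U E (by linarith)) h3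
  have hmem : Set.Ici (1 + (s₀ - 1) / 2) ∈ 𝓝 s₀ := Ici_mem_nhds (by linarith [hs₀.1])
  have h2 : ContinuousAt (fun s => ∑' v : HeightOneSpectrum (𝓞 E), eulW E m χ v s) s₀ :=
    hc.continuousAt hmem
  exact h2.continuousWithinAt

theorem eul_W_ne_one (v : HeightOneSpectrum (𝓞 E)) {s : ℝ} (hs : 1 ≤ s) :
    (1 - eulW E m χ v s) ≠ 0 := by
  intro h0
  have hw := eul_norm_W_le_half E m χ v hs
  have h1 : eulW E m χ v s = 1 := by
    rw [sub_eq_zero] at h0
    exact h0.symm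
  rw [h1, norm_one] at hw
  norm_num at hw

theorem eul_hasProd {s : ℝ} (hs : 1 < s) :
    HasProd (fun v : HeightOneSpectrum (𝓞 E) => (1 - eulW E m χ v s)⁻¹) (idealL E m χ s) := by
  have hsum : Summable fun I : nonZeroDivisors (Ideal (𝓞 E)) => ‖eulTerm E m χ s I‖ :=
    Summable.of_nonneg_of_le (fun _ => norm_nonneg _) (eul_norm_term_le E m χ s)
      (Fermat.Agent.S14.summable_absNorm_rpow E hs)
  have hlt : ∀ v : HeightOneSpectrum (𝓞 E),
      ‖eulTerm E m χ s (Fermat.Agent.S14.primeIdeal₀ v)‖ < 1 := fun v =>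
    lt_of_le_of_lt (eul_norm_W_le_half E m χ v hs.le) (by norm_num)
  exact Fermat.Agent.S14.eulerHasProd (eulTerm E m χ s) hsum hlt

theorem eul_hasSum_log {s : ℝ} (hs : 1 < s) :
    HasSum (fun v : HeightOneSpectrum (𝓞 E) => Complex.log (1 - eulW E m χ v s)⁻¹)
      (primeL E m χ s + eulRsum E m χ s) := by
  have h := (eul_summable_W E m χ hs).hasSum.add (eul_summable_R E m χ hs.le).hasSum
  have hfun : (fun v : HeightOneSpectrum (𝓞 E) => eulW E m χ v s + eulR E m χ v s) =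
      fun v => Complex.log (1 - eulW E m χ v s)⁻¹ := by
    funext v
    unfold eulR
    ring
  rw [hfun] at h
  exact h

theorem eul_identity {s : ℝ} (hs : 1 < s) :
    idealL E m χ s = Complex.exp (primeL E m χ s + eulRsum E m χ s) := by
  have hexp := (eul_hasSum_log E m χ hs).cexp
  have hfun2 : (Complex.exp ∘ fun v : HeightOneSpectrum (𝓞 E) =>
      Complex.log (1 - eulW E m χ v s)⁻¹) = fun v => (1 - eulW E m χ v s)⁻¹ := by
    funext v
    simp only [Function.comp]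
    rw [Complex.exp_log (inv_ne_zero (eul_W_ne_one E m χ v hs.le))]
  rw [hfun2] at hexp
  exact (eul_hasProd E m χ hs).unique hexp

/-- **piece EUL** -/
theorem stmtEulerLog : StmtEulerLog := by
  intro E _ _ m _ χ
  exact ⟨eulRsum E m χ, eul_continuousOn_Rsum E m χ,
    ⟨_, fun s hs _ => eul_norm_Rsum_le E m χ hs.le⟩, eul_continuousOn_primeL E m χ,
    fun s hs _ => eul_identity E m χ hs⟩

end Fermat.Agent.S48.CD
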