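/-
S48/CD — piece **DEU-2** (helper19): above an unramified `p` there are at most `|Z(z)| / ord z`
primes `v` of `E = M^⟨z⟩` of norm `p` lying below a prime of `M` with Frobenius element `z`.

Proof.  Let `𝔓₀` be one prime of `M` above `p` with Frobenius `z`.  Every other such prime is
`g • 𝔓₀` (transitivity), and `g z g⁻¹ = z` by uniqueness of the Frobenius element at an unramified
prime, so `g ∈ Z(z)`.  Choose such a `g_v` for every `v`; then `(v, z^j) ↦ g_v z^j` is injective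
into `Z(z)` because `z` stabilises `𝔓₀` and `𝔓` determines `v = 𝔓 ∩ 𝓞 E`.
-/
import Fermat.Agent.S48.CD.Plan

set_option autoImplicit false
set_option linter.style.haveILetI false

namespace Fermat.Agent.S48.CD

open NumberField IsDedekindDomain
open scoped Pointwise

/-- An element of `Gal(M/ℚ)` is determined by its action on `𝓞 M`. -/
theorem fbc_algEquiv_eq {M : Type} [Field M] [NumberField M] (φ ψ : M ≃ₐ[ℚ] M)
    (h : MulSemiringAction.toAlgHom ℤ (𝓞 M) φ = MulSemiringAction.toAlgHom ℤ (𝓞 M) ψ) :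
    φ = ψ := by
  ext x
  obtain ⟨a, b, hb, rfl⟩ := IsFractionRing.div_surjective (A := 𝓞 M) x
  have ha' : φ (a : M) = ψ (a : M) := by
    have := congrArg (fun f => ((f a : 𝓞 M) : M)) h
    exact this
  have hb' : φ (b : M) = ψ (b : M) := by
    have := congrArg (fun f => ((f b : 𝓞 M) : M)) h
    exact this
  rw [map_div₀, map_div₀, ha', hb']

/-- uniqueness of the Frobenius element at an unramified prime. -/
theorem fbc_frob_unique {M : Type} [Field M] [NumberField M]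
    (𝔓 : Ideal (𝓞 M)) [𝔓.IsPrime] [Algebra.IsUnramifiedAt ℤ 𝔓]
    {σ τ : M ≃ₐ[ℚ] M} (hσ : IsArithFrobAt ℤ σ 𝔓) (hτ : IsArithFrobAt ℤ τ 𝔓) : σ = τ := by
  have h2 := AlgHom.IsArithFrobAt.eq_of_isUnramifiedAt hσ hτ
    (by
      intro x hx
      rw [mem_nonZeroDivisors_iff_ne_zero]
      rintro rfl
      exact hx (Ideal.zero_mem _))
  exact fbc_algEquiv_eq _ _ h2

/-- a prime of `𝓞 M` containing the prime number `p` lies over `(p)`. -/
theorem fbc_under_int {M : Type} [Field M] [NumberField M] (p : ℕ) (hp : p.Prime)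
    (𝔓 : Ideal (𝓞 M)) [h𝔓 : 𝔓.IsPrime] (hmem : (p : 𝓞 M) ∈ 𝔓) :
    𝔓.under ℤ = Ideal.span {(p : ℤ)} := by
  have hle : Ideal.span {(p : ℤ)} ≤ 𝔓.under ℤ := by
    rw [Ideal.span_singleton_le_iff_mem, Ideal.under_def, Ideal.mem_comap]
    simpa using hmem
  have hmax : (Ideal.span {(p : ℤ)}).IsMaximal :=
    PrincipalIdealRing.isMaximal_of_irreducible
      (Nat.prime_iff_prime_int.mp hp).irreducible
  have hne : 𝔓.under ℤ ≠ ⊤ := (inferInstance : (𝔓.under ℤ).IsPrime).ne_top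
  exact (hmax.eq_of_le hne hle).symm

/-- **DEU-2**. -/
theorem stmtFiberCount : StmtFiberCount := by
  intro M _ _ _ z p hp hunr
  classical
  set V : Set (HeightOneSpectrum (𝓞 (fixZ z))) :=
    {v | Ideal.absNorm v.asIdeal = p ∧
      ∃ 𝔓 : Ideal (𝓞 M), 𝔓.IsPrime ∧ 𝔓.under (𝓞 (fixZ z)) = v.asIdeal ∧
        IsArithFrobAt ℤ z 𝔓} with hVdef
  -- membership of `p`
  have hpmem : ∀ (v : HeightOneSpectrum (𝓞 (fixZ z))) (𝔓 : Ideal (𝓞 M)),
      Ideal.absNorm v.asIdeal = p → 𝔓.under (𝓞 (fixZ z)) = v.asIdeal → (p : 𝓞 M) ∈ 𝔓 := by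
    intro v 𝔓 hN hu
    have h1 : ((Ideal.absNorm v.asIdeal : ℕ) : 𝓞 (fixZ z)) ∈ v.asIdeal := by
      have := Ideal.absNorm_mem v.asIdeal
      exact_mod_cast this
    rw [hN, ← hu, Ideal.under_def, Ideal.mem_comap, map_natCast] at h1
    exact h1
  by_cases hne : V.Nonempty
  swap
  · rw [Set.not_nonempty_iff_eq_empty] at hne
    rw [hne]
    simp
  obtain ⟨v₀, hv₀N, 𝔓₀, h𝔓₀p, h𝔓₀u, h𝔓₀f⟩ := hne
  haveI := h𝔓₀p
  have h𝔓₀mem : (p : 𝓞 M) ∈ 𝔓₀ := hpmem v₀ 𝔓₀ hv₀N h𝔓₀u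
  have hstab : z • 𝔓₀ = 𝔓₀ := MulAction.mem_stabilizer_iff.mp h𝔓₀f.mem_stabilizer
  have hstabpow : ∀ y ∈ Subgroup.zpowers z, y • 𝔓₀ = 𝔓₀ := by
    intro y hy
    have : Subgroup.zpowers z ≤ MulAction.stabilizer (M ≃ₐ[ℚ] M) 𝔓₀ := by
      rw [Subgroup.zpowers_le]
      exact MulAction.mem_stabilizer_iff.mpr hstab
    exact MulAction.mem_stabilizer_iff.mp (this hy)
  -- for every `v ∈ V` an element of the centraliser moving `𝔓₀` above `v`
  have key : ∀ v : V, ∃ g : Subgroup.centralizer ({z} : Set (M ≃ₐ[ℚ] M)),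
      ((g : M ≃ₐ[ℚ] M) • 𝔓₀).under (𝓞 (fixZ z)) = v.1.asIdeal := by
    rintro ⟨v, hvN, 𝔓, h𝔓p, h𝔓u, h𝔓f⟩
    haveI := h𝔓p
    have h𝔓mem : (p : 𝓞 M) ∈ 𝔓 := hpmem v 𝔓 hvN h𝔓u
    have hunder : 𝔓₀.under ℤ = 𝔓.under ℤ := by
      rw [fbc_under_int p hp 𝔓₀ h𝔓₀mem, fbc_under_int p hp 𝔓 h𝔓mem]
    obtain ⟨g, hg⟩ :=
      Algebra.IsInvariant.exists_smul_of_under_eq ℤ (𝓞 M) (M ≃ₐ[ℚ] M) 𝔓₀ 𝔓 hunder
    haveI : Algebra.IsUnramifiedAt ℤ 𝔓 := hunr 𝔓 h𝔓mem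
    have hconj : IsArithFrobAt ℤ (g * z * g⁻¹) 𝔓 := by
      have := h𝔓₀f.conj g
      rwa [← hg] at this
    have heq : g * z * g⁻¹ = z := fbc_frob_unique 𝔓 hconj h𝔓f
    have hgc : g ∈ Subgroup.centralizer ({z} : Set (M ≃ₐ[ℚ] M)) := by
      rw [Subgroup.mem_centralizer_iff]
      intro h hh
      rw [Set.mem_singleton_iff] at hh
      subst hh
      calc h * g = g * h * g⁻¹ * g := by rw [heq]
        _ = g * h := by group
    refine ⟨⟨g, hgc⟩, ?_⟩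
    show (g • 𝔓₀).under (𝓞 (fixZ z)) = v.asIdeal
    rw [← hg, h𝔓u]
  choose g hg using key
  have hzc : ∀ y ∈ Subgroup.zpowers z, y ∈ Subgroup.centralizer ({z} : Set (M ≃ₐ[ℚ] M)) := by
    intro y hy
    have : Subgroup.zpowers z ≤ Subgroup.centralizer ({z} : Set (M ≃ₐ[ℚ] M)) := by
      rw [Subgroup.zpowers_le, Subgroup.mem_centralizer_iff]
      intro h hh
      rw [Set.mem_singleton_iff] at hh
      rw [hh]
    exact this hy
  let f : V × Subgroup.zpowers z → Subgroup.centralizer ({z} : Set (M ≃ₐ[ℚ] M)) :=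
    fun x => g x.1 * ⟨x.2.1, hzc x.2.1 x.2.2⟩
  have hf : Function.Injective f := by
    rintro ⟨v, y⟩ ⟨w, y'⟩ hvw
    have h1 : ((g v : M ≃ₐ[ℚ] M) * (y : M ≃ₐ[ℚ] M)) = (g w : M ≃ₐ[ℚ] M) * (y' : M ≃ₐ[ℚ] M) := by
      have := congrArg (fun t : Subgroup.centralizer ({z} : Set (M ≃ₐ[ℚ] M)) =>
        (t : M ≃ₐ[ℚ] M)) hvw
      exact this
    have h2 : (g v : M ≃ₐ[ℚ] M) • 𝔓₀ = (g w : M ≃ₐ[ℚ] M) • 𝔓₀ := by
      have := congrArg (fun t : M ≃ₐ[ℚ] M => t • 𝔓₀) h1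
      simp only [mul_smul] at this
      rwa [hstabpow _ y.2, hstabpow _ y'.2] at this
    have h3 : v.1.asIdeal = w.1.asIdeal := by
      rw [← hg v, ← hg w, h2]
    have h4 : v = w := Subtype.ext (HeightOneSpectrum.ext h3)
    subst h4
    have h5 : (y : M ≃ₐ[ℚ] M) = (y' : M ≃ₐ[ℚ] M) := mul_left_cancel h1
    rw [Subtype.ext h5]
  have hcard := Nat.card_le_card_of_injective f hf
  rw [Nat.card_prod, Nat.card_zpowers] at hcard
  have hV : Nat.card V = V.ncard := Nat.card_coe_set_eq V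
  rw [hV, mul_comm] at hcard
  exact hcard

end Fermat.Agent.S48.CD
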