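/-
S48/CD piece FIN (helper61): Chebotarev's density theorem (lower density) for conjugation stable
sets, from the theorem for one conjugacy class.
-/
import Fermat.Agent.S48.CD.Plan
import Fermat.Agent.Common.FrobExists

set_option autoImplicit false

namespace Fermat.Agent.S48.CD

open NumberField

/-! ### Counting a conjugation stable set by its classes -/

section Group

variable {G : Type} [Group G] [Finite G]

theorem fin_card_class_mul (σ : G) :
    Nat.card {τ : G // IsConj τ σ} * Nat.card (Subgroup.centralizer {σ}) = Nat.card G := by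
  have h1 := (MulAction.stabilizer (ConjAct G) σ).index_mul_card
  have h2 : Nat.card (ConjAct G) = Nat.card G := rfl
  rw [Subgroup.nat_card_centralizer_nat_card_stabilizer, ← h2, ← h1, MulAction.index_stabilizer]
  congr 1
  rw [ConjAct.orbit_eq_carrier_conjClasses, ← Nat.card_coe_set_eq]
  refine Nat.card_congr (Equiv.subtypeEquivRight fun τ => ?_)
  rw [ConjClasses.mem_carrier_iff_mk_eq, ConjClasses.mk_eq_mk_iff_isConj]

open Classical in
/-- a system of representatives of the classes in a conjugation stable set -/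
theorem fin_card_class (C : Set G) (hC : ∀ g σ : G, σ ∈ C → g * σ * g⁻¹ ∈ C) :
    ∃ ι : Finset G, (∀ σ ∈ ι, σ ∈ C) ∧ (∀ σ ∈ ι, ∀ σ' ∈ ι, IsConj σ σ' → σ = σ') ∧
      (C.ncard : ℝ) / (Nat.card G : ℝ) =
        ∑ σ ∈ ι, 1 / (Nat.card (Subgroup.centralizer {σ}) : ℝ) := by
  haveI := Fintype.ofFinite G
  have hconj : ∀ {σ τ : G}, IsConj σ τ → σ ∈ C → τ ∈ C := by
    intro σ τ h hσ
    obtain ⟨c, hc⟩ := isConj_iff.mp h
    rw [← hc]
    exact hC c σ hσ
  set r : G → G := fun τ => (ConjClasses.mk τ).out with hr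
  have hr1 : ∀ τ : G, IsConj (r τ) τ := fun τ =>
    ConjClasses.mk_eq_mk_iff_isConj.mp (Quotient.out_eq (ConjClasses.mk τ))
  have hr2 : ∀ {σ τ : G}, IsConj σ τ → r σ = r τ := fun h => by
    simp only [hr]
    rw [ConjClasses.mk_eq_mk_iff_isConj.mpr h]
  set ι : Finset G := Finset.univ.filter fun σ => σ ∈ C ∧ r σ = σ with hι
  refine ⟨ι, fun σ hσ => ((Finset.mem_filter.mp hσ).2).1, ?_, ?_⟩
  · intro σ hσ σ' hσ' h
    rw [← ((Finset.mem_filter.mp hσ).2).2, ← ((Finset.mem_filter.mp hσ').2).2]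
    exact hr2 h
  · have hG : (0 : ℝ) < Nat.card G := by exact_mod_cast Nat.card_pos
    have h1 : C.ncard = ∑ σ ∈ ι, Nat.card {τ : G // IsConj τ σ} := by
      rw [Set.ncard_eq_toFinset_card', Finset.card_eq_sum_card_fiberwise (f := r) (t := ι)]
      · refine Finset.sum_congr rfl fun σ hσ => ?_
        obtain ⟨-, hσC, hσr⟩ := Finset.mem_filter.mp hσ
        rw [Nat.card_eq_fintype_card, Fintype.card_subtype]
        congr 1
        ext τ
        simp only [Finset.mem_filter, Set.mem_toFinset, Finset.mem_univ, true_and]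
        constructor
        · rintro ⟨-, h⟩
          rw [← h]
          exact (hr1 τ).symm
        · intro h
          exact ⟨hconj h.symm hσC, (hr2 h).trans hσr⟩
      · intro τ hτ
        have hτ' : τ ∈ C := by simpa using hτ
        exact Finset.mem_coe.mpr
          (Finset.mem_filter.mpr ⟨Finset.mem_univ _, hconj (hr1 τ).symm hτ', hr2 (hr1 τ)⟩)
    rw [h1, Nat.cast_sum, Finset.sum_div]
    refine Finset.sum_congr rfl fun σ _ => ?_
    have h2 := fin_card_class_mul σ
    have h3 : (0 : ℝ) < Nat.card (Subgroup.centralizer {σ}) := by exact_mod_cast Nat.card_pos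
    rw [div_eq_div_iff hG.ne' h3.ne', one_mul]
    exact_mod_cast h2

end Group

theorem fin_exists_min {ι : Type} (T : Finset ι) (s₀ : ι → ℝ) (h : ∀ i ∈ T, 1 < s₀ i) :
    ∃ s₁ : ℝ, 1 < s₁ ∧ s₁ ≤ 2 ∧ ∀ i ∈ T, s₁ ≤ s₀ i := by
  classical
  induction T using Finset.induction_on with
  | empty => exact ⟨2, by norm_num, le_refl _, fun i hi => absurd hi (Finset.notMem_empty i)⟩
  | insert a T _ ih =>
    obtain ⟨s₁, h1, h2, h3⟩ := ih fun i hi => h i (Finset.mem_insert_of_mem hi)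
    refine ⟨min s₁ (s₀ a), lt_min h1 (h a (Finset.mem_insert_self a T)),
      (min_le_left _ _).trans h2, fun i hi => ?_⟩
    rcases Finset.mem_insert.mp hi with rfl | hi
    · exact min_le_right _ _
    · exact (min_le_left _ _).trans (h3 i hi)

/-- **Chebotarev's density theorem** (lower density, conjugation stable sets), from the theorem
for one class. -/
theorem stmtChebDensity_of (hCls : StmtChebClass) : StmtChebDensity := by
  classical
  intro F _ _ S C hC δ hδ
  have hNF : NumberField F := ⟨⟩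
  obtain ⟨ι, hιC, hιconj, hcount⟩ := fin_card_class C hC
  have hcard : (0 : ℝ) < (ι.card : ℝ) + 1 := by positivity
  have hδ' : 0 < δ / ((ι.card : ℝ) + 1) := div_pos hδ hcard
  have h := fun σ : F ≃ₐ[ℚ] F => hCls F S σ (δ / ((ι.card : ℝ) + 1)) hδ'
  choose s₀ hs₀ hP using h
  obtain ⟨s₁, hs₁, hs₁2, hs₁le⟩ := fin_exists_min ι s₀ fun σ _ => hs₀ σ
  refine ⟨s₁, hs₁, fun s hs hss => ?_⟩
  have hP' := fun σ (hσ : σ ∈ ι) => hP σ s hs (lt_of_lt_of_le hss (hs₁le σ hσ))
  choose! P hPprop hPsum using hP'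
  have hL : 0 ≤ Real.log (1 / (s - 1)) := by
    apply Real.log_nonneg
    rw [le_div_iff₀ (by linarith)]
    linarith
  refine ⟨ι.biUnion P, ?_, ?_⟩
  · intro p hp
    obtain ⟨σ, hσ, hpσ⟩ := Finset.mem_biUnion.mp hp
    obtain ⟨hpp, hpS, hfrob⟩ := hPprop σ hσ p hpσ
    refine ⟨hpp, hpS, fun A hA τ hτ => ?_⟩
    obtain ⟨g, hg⟩ := hfrob A hA τ hτ
    rw [hg]
    exact hC g σ (hιC σ hσ)
  · have hdisj : (ι : Set (F ≃ₐ[ℚ] F)).PairwiseDisjoint P := by
      intro σ hσ σ' hσ' hne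
      rw [Function.onFun, Finset.disjoint_left]
      intro p hp hp'
      obtain ⟨hpp, -, hfrob⟩ := hPprop σ hσ p hp
      obtain ⟨-, -, hfrob'⟩ := hPprop σ' hσ' p hp'
      obtain ⟨A, τ, hA, hτ⟩ := Fermat.Agent.Common.exists_isFrobeniusAt p hpp
      obtain ⟨g, hg⟩ := hfrob A hA τ hτ
      obtain ⟨g', hg'⟩ := hfrob' A hA τ hτ
      apply hne
      apply hιconj σ hσ σ' hσ'
      rw [isConj_iff]
      refine ⟨g'⁻¹ * g, ?_⟩
      have h1 : g * σ * g⁻¹ = g' * σ' * g'⁻¹ := hg.symm.trans hg'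
      calc g'⁻¹ * g * σ * (g'⁻¹ * g)⁻¹ = g'⁻¹ * (g * σ * g⁻¹) * g' := by group
        _ = g'⁻¹ * (g' * σ' * g'⁻¹) * g' := by rw [h1]
        _ = σ' := by group
    rw [Finset.sum_biUnion hdisj]
    have h1 : ∑ σ ∈ ι, (1 / (Nat.card (Subgroup.centralizer {σ}) : ℝ) - δ / ((ι.card : ℝ) + 1)) *
        Real.log (1 / (s - 1)) ≤ ∑ σ ∈ ι, ∑ p ∈ P σ, (p : ℝ) ^ (-s) :=
      Finset.sum_le_sum fun σ hσ => hPsum σ hσ
    refine le_trans ?_ h1
    rw [← Finset.sum_mul, Finset.sum_sub_distrib, ← hcount, Finset.sum_const, nsmul_eq_mul]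
    apply mul_le_mul_of_nonneg_right _ hL
    have h2 : (ι.card : ℝ) * (δ / ((ι.card : ℝ) + 1)) ≤ δ := by
      rw [← mul_div_assoc, div_le_iff₀ hcard]
      nlinarith
    linarith

end Fermat.Agent.S48.CD
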