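/-
S48/CD, piece **DEU-1** (helper87): `stmtFrobTransfer : StmtFrobTransfer`.

`M/ℚ` Galois, `z ∈ Gal(M/ℚ)` of cyclotomic type (`z ζ = ζ ^ t`, faithful on `ζ`), `E = M^⟨z⟩`,
`v` a prime of degree one of `E` with `N v ≡ t mod ℓ`, `𝔓 ∣ v` a prime of `M`.
A Frobenius `ψ ∈ Gal(M/E) = ⟨z⟩` of `𝔓` over `𝓞 E` satisfies `ψ ζ = ζ ^ (N v) = ζ ^ t = z ζ`, hence
`ψ = z`; as `N v = p` is prime, `ψ` is also a Frobenius over `ℤ`.
-/
import Fermat.Agent.S48.CD.Plan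
import Fermat.Agent.Cheb.Strong

set_option autoImplicit false
set_option linter.style.haveILetI false
set_option linter.unusedSectionVars false

namespace Fermat.Agent.S48.CD

open NumberField IsDedekindDomain
open Fermat.Agent.Cheb

/-- An element of `⟨z⟩` which acts on `ζ` as `z` does is `z`, if `z` is of cyclotomic type. -/
theorem frobT_eq_of_apply_eq {M : Type} [Field M] [NumberField M] (z : M ≃ₐ[ℚ] M) (ℓ : ℕ) (ζ : M)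
    (hcyc : IsCyclZ z ℓ ζ) (ψ : M ≃ₐ[ℚ] M) (hψ : ψ ∈ Subgroup.zpowers z) (h : ψ ζ = z ζ) :
    ψ = z := by
  haveI : Finite (M ≃ₐ[ℚ] M) := inferInstance
  rw [← mem_powers_iff_mem_zpowers, Submonoid.mem_powers_iff] at hψ
  obtain ⟨j, rfl⟩ := hψ
  have hn : 0 < orderOf z := orderOf_pos z
  have h1 : (z ^ (orderOf z - 1 + j)) ζ = ζ := by
    rw [pow_add, AlgEquiv.mul_apply, h, ← AlgEquiv.mul_apply, ← pow_succ,
      Nat.sub_add_cancel hn, pow_orderOf_eq_one, AlgEquiv.one_apply]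
  have h2 := hcyc.2.2 _ h1
  have h3 : z ^ (orderOf z - 1) * z = 1 := by
    rw [← pow_succ, Nat.sub_add_cancel hn, pow_orderOf_eq_one]
  rw [pow_add] at h2
  exact mul_left_cancel (h2.trans h3.symm)

/-- **DEU-1**. -/
theorem stmtFrobTransfer : StmtFrobTransfer := by
  intro M _ _ _ z ℓ ζ t hcyc hzt v hvp hvt 𝔓 h𝔓 hunder
  haveI := h𝔓
  have hℓ := hcyc.1
  have hζ := hcyc.2.1
  obtain ⟨p, hp⟩ : ∃ p : ℕ, p = Ideal.absNorm v.asIdeal := ⟨_, rfl⟩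
  rw [← hp] at hvp hvt
  -- `𝔓 ≠ ⊥`
  have h𝔓0 : 𝔓 ≠ ⊥ := by
    intro h0
    apply v.ne_bot
    rw [← hunder, h0]
    exact Ideal.under_bot _ _
  haveI : Finite (𝓞 M ⧸ 𝔓) := Ideal.finiteQuotientOfFreeOfNeBot 𝔓 h𝔓0
  -- `p ∈ 𝔓`
  have hpv : ((p : ℕ) : 𝓞 (fixZ z)) ∈ v.asIdeal := by rw [hp]; exact Ideal.absNorm_mem v.asIdeal
  have hp𝔓 : ((p : ℕ) : 𝓞 M) ∈ 𝔓 := by
    have h1 : ((p : ℕ) : 𝓞 (fixZ z)) ∈ 𝔓.under (𝓞 (fixZ z)) := by rw [hunder]; exact hpv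
    rw [Ideal.under_def, Ideal.mem_comap, map_natCast] at h1
    exact h1
  have hcardZ : Nat.card (ℤ ⧸ 𝔓.under ℤ) = p := Strong.card_under_int 𝔓 p hvp hp𝔓
  have hcardE : Nat.card (𝓞 (fixZ z) ⧸ 𝔓.under (𝓞 (fixZ z))) = p := by
    rw [hunder, hp, Ideal.absNorm_apply, Submodule.cardQuot_apply]
  -- `ℓ ≠ p`
  have hζ1 : ζ ≠ 1 := hζ.ne_one hℓ.one_lt
  have hℓt : ¬ ℓ ∣ t := by
    intro hdvd
    obtain ⟨c, rfl⟩ := hdvd
    rw [pow_mul, hζ.pow_eq_one, one_pow] at hzt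
    apply hζ1
    apply z.injective
    rw [hzt, map_one]
  have hℓp : ℓ ≠ p := by
    intro h
    apply hℓt
    rw [← ZMod.natCast_eq_zero_iff, ← hvt, ← h]
    exact ZMod.natCast_self ℓ
  have hℓ𝔓 : ((ℓ : ℕ) : 𝓞 M) ∉ 𝔓 := by
    intro h
    have hcop : Nat.Coprime ℓ p := (Nat.coprime_primes hℓ hvp).mpr hℓp
    have h1 : ((Nat.gcd ℓ p : ℕ) : ℤ) = ℓ * Nat.gcdA ℓ p + p * Nat.gcdB ℓ p := Nat.gcd_eq_gcd_ab ℓ p
    rw [hcop] at h1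
    have h2 : (1 : 𝓞 M) = (ℓ : 𝓞 M) * ((Nat.gcdA ℓ p : ℤ) : 𝓞 M) +
        (p : 𝓞 M) * ((Nat.gcdB ℓ p : ℤ) : 𝓞 M) := by
      have := congrArg (fun n : ℤ => (n : 𝓞 M)) h1
      simpa using this
    apply Ideal.IsPrime.ne_top h𝔓
    rw [Ideal.eq_top_iff_one, h2]
    exact 𝔓.add_mem (𝔓.mul_mem_right _ h) (𝔓.mul_mem_right _ hp𝔓)
  -- a Frobenius of `M/E` at `𝔓`
  obtain ⟨ψ, hψ⟩ := IsArithFrobAt.exists_of_isInvariant (𝓞 (fixZ z)) (M ≃ₐ[fixZ z] M) 𝔓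
  have hψ' : IsArithFrobAt ℤ (ψ.restrictScalars ℚ) 𝔓 := by
    intro x
    have h := hψ x
    rw [hcardE] at h
    rw [hcardZ]
    have e : (MulSemiringAction.toAlgHom ℤ (𝓞 M) (ψ.restrictScalars ℚ)) x =
        (MulSemiringAction.toAlgHom (𝓞 (fixZ z)) (𝓞 M) ψ) x :=
      Strong.restrictScalars_smul (fixZ z) ψ x
    rw [e]
    exact h
  -- its action on `ζ`
  let ζ' : 𝓞 M := ⟨ζ, (hζ.isIntegral hℓ.pos)⟩
  have hζ' : ζ' ^ ℓ = 1 := by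
    apply RingOfIntegers.ext
    show ζ ^ ℓ = 1
    exact hζ.pow_eq_one
  have h1 := AlgHom.IsArithFrobAt.apply_of_pow_eq_one hψ' hζ' hℓ𝔓
  rw [hcardZ] at h1
  have h2 : (ψ.restrictScalars ℚ) ζ = ζ ^ p := by
    have := congrArg (fun y : 𝓞 M => (y : M)) h1
    exact this
  have h3 : ζ ^ p = ζ ^ t := by
    have hmod : p % ℓ = t % ℓ := (ZMod.natCast_eq_natCast_iff _ _ _).mp hvt
    have ho : orderOf ζ = ℓ := hζ.eq_orderOf.symm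
    rw [← pow_mod_orderOf ζ p, ← pow_mod_orderOf ζ t, ho, hmod]
  have hmem : ψ.restrictScalars ℚ ∈ Subgroup.zpowers z := by
    have h4 : ψ.restrictScalars ℚ ∈ (fixZ z).fixingSubgroup := fun x => ψ.commutes x
    have h5 : (fixZ z).fixingSubgroup = Subgroup.zpowers z :=
      IntermediateField.fixingSubgroup_fixedField (Subgroup.zpowers z)
    rwa [h5] at h4
  have heq : ψ.restrictScalars ℚ = z :=
    frobT_eq_of_apply_eq z ℓ ζ hcyc _ hmem (by rw [h2, h3, hzt])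
  rw [← heq]
  exact hψ'

end Fermat.Agent.S48.CD
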