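import Mathlib
import Fermat.Agent.S48.CD.Plan
import Fermat.Agent.Cheb.Glue

/-!
# S48/CD, piece GLUE: Frobenius elements of `G_ℚ` restrict to one conjugacy class

`F ⊆ ℚ̄` finite Galois over `ℚ`, `p` unramified in `F`, `φ` a Frobenius element at one prime of
`𝓞 F` above `p`.  Then for every valuation subring `A` of `ℚ̄` over `p` and every Frobenius
element `τ` at `A`, the restriction `τ|F` is conjugate to `φ`.
-/

set_option autoImplicit false

open NumberField

namespace Fermat.Agent.S48.CD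

open Fermat.Agent.Cheb
open scoped Pointwise

/-- `𝓞 F → A`, the inclusion of the integers of `F ⊆ ℚ̄` into a valuation subring of `ℚ̄`. -/
noncomputable def glc_hom (F : IntermediateField ℚ (AlgebraicClosure ℚ))
    (A : ValuationSubring (AlgebraicClosure ℚ)) : 𝓞 F →+* A :=
  (intEmb F).codRestrict A.toSubring (intEmb_mem F A)

theorem glc_hom_coe (F : IntermediateField ℚ (AlgebraicClosure ℚ))
    (A : ValuationSubring (AlgebraicClosure ℚ)) (x : 𝓞 F) :
    ((glc_hom F A x : A) : AlgebraicClosure ℚ) = intEmb F x := rfl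

/-- the prime of `𝓞 F` below the valuation subring `A` of `ℚ̄` -/
noncomputable def glc_under (F : IntermediateField ℚ (AlgebraicClosure ℚ))
    (A : ValuationSubring (AlgebraicClosure ℚ)) : Ideal (𝓞 F) :=
  Ideal.comap (glc_hom F A) (IsLocalRing.maximalIdeal A)

instance glc_under_isPrime (F : IntermediateField ℚ (AlgebraicClosure ℚ))
    (A : ValuationSubring (AlgebraicClosure ℚ)) : (glc_under F A).IsPrime :=
  Ideal.comap_isPrime _ _

theorem glc_mem_under (F : IntermediateField ℚ (AlgebraicClosure ℚ))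
    (A : ValuationSubring (AlgebraicClosure ℚ)) (x : 𝓞 F) :
    x ∈ glc_under F A ↔ intEmb F x ∈ A.nonunits := by
  rw [glc_under, Ideal.mem_comap, ← ValuationSubring.coe_mem_nonunits_iff, glc_hom_coe]

theorem glc_natCast_mem_under (F : IntermediateField ℚ (AlgebraicClosure ℚ))
    (A : ValuationSubring (AlgebraicClosure ℚ)) (p : ℕ) (hA : A.LiesOverPrime p) :
    (p : 𝓞 F) ∈ glc_under F A := by
  rw [glc_mem_under, map_natCast]
  exact hA

/-- a prime of `𝓞 F` containing the prime number `p` lies over `(p)` -/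
theorem glc_under_int (F : IntermediateField ℚ (AlgebraicClosure ℚ)) (p : ℕ) (hp : p.Prime)
    (𝔓 : Ideal (𝓞 F)) [𝔓.IsPrime] (hp𝔓 : (p : 𝓞 F) ∈ 𝔓) :
    𝔓.under ℤ = Ideal.span {(p : ℤ)} := by
  have hmax : (Ideal.span {(p : ℤ)}).IsMaximal :=
    (Ideal.span_singleton_prime (by exact_mod_cast hp.ne_zero)).mpr
      (Nat.prime_iff_prime_int.mp hp) |>.isMaximal (by simpa using hp.ne_zero)
  have hle : Ideal.span {(p : ℤ)} ≤ 𝔓.under ℤ := by
    rw [Ideal.span_singleton_le_iff_mem, Ideal.under_def, Ideal.mem_comap]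
    simpa using hp𝔓
  have hne : 𝔓.under ℤ ≠ ⊤ := (Ideal.IsPrime.under ℤ 𝔓).ne_top
  exact (hmax.eq_of_le hne hle).symm

/-- **GLUE**, explicit form. -/
theorem glc_main (F : IntermediateField ℚ (AlgebraicClosure ℚ)) [NumberField F] [IsGalois ℚ F]
    (φ : F ≃ₐ[ℚ] F) (p : ℕ) (hp : p.Prime) (hunr : UnramAt F p) (hφ : FrobAt F φ p)
    (A : ValuationSubring (AlgebraicClosure ℚ)) (hA : A.LiesOverPrime p)
    (τ : GalQ) (hτ : A.IsFrobeniusAt τ p) :
    ∃ g : F ≃ₐ[ℚ] F, AlgEquiv.restrictNormal τ F = g * φ * g⁻¹ := by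
  obtain ⟨𝔓₀, h𝔓₀, hp𝔓₀, hfrob₀⟩ := hφ
  have := h𝔓₀
  -- the prime below `A`
  have hp𝔓 : (p : 𝓞 F) ∈ glc_under F A := glc_natCast_mem_under F A p hA
  have hne : glc_under F A ≠ ⊥ := by
    intro h
    rw [h, Ideal.mem_bot] at hp𝔓
    exact hp.ne_zero (by exact_mod_cast hp𝔓)
  have hmax : (glc_under F A).IsMaximal := Ideal.IsPrime.isMaximal inferInstance hne
  have h1 : IsArithFrobAt ℤ (AlgEquiv.restrictNormal τ F) (glc_under F A) :=
    restrictNormal_isArithFrobAt F A p hp (glc_under F A) hmax hp𝔓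
      (fun x hx => (glc_mem_under F A x).mp hx) τ hτ
  -- transitivity
  have hunder : 𝔓₀.under ℤ = (glc_under F A).under ℤ := by
    rw [glc_under_int F p hp 𝔓₀ hp𝔓₀, glc_under_int F p hp (glc_under F A) hp𝔓]
  obtain ⟨g, hg⟩ := Algebra.IsInvariant.exists_smul_of_under_eq ℤ (𝓞 F) (F ≃ₐ[ℚ] F) 𝔓₀
    (glc_under F A) hunder
  have h2 : IsArithFrobAt ℤ (g * φ * g⁻¹) (glc_under F A) := by
    rw [hg]
    exact hfrob₀.conj g
  -- uniqueness at an unramified prime
  have : Algebra.IsUnramifiedAt ℤ (glc_under F A) := hunr (glc_under F A) hp𝔓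
  have h3 := AlgHom.IsArithFrobAt.eq_of_isUnramifiedAt h1 h2
    (by
      intro x hx
      rw [mem_nonZeroDivisors_iff_ne_zero]
      rintro rfl
      exact hx (Ideal.zero_mem _))
  exact ⟨g, algEquiv_eq_of_toAlgHom_eq F _ _ h3⟩

/-- **Piece GLUE** of S48/CD. -/
theorem stmtGlueConj : StmtGlueConj := by
  intro F _ _ φ p hp hunr hφ A hA τ hτ
  exact glc_main F φ p hp hunr hφ A hA τ hτ

end Fermat.Agent.S48.CD
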