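import Mathlib
import Fermat.Agent.S48.CD.Plan

/-!
# S48/CD, piece CNT: most elements of `(ℤ/ℓ)ˣ` have order divisible by `n` when `ℓ ≡ 1 mod n ^ k`

`stmtGoodCount : StmtGoodCount`.  If `n ∤ ord t` there is a prime `q ∣ n`, `q ^ e ∥ n`, with
`q ^ e ∤ ord t`; as `q ^ (e k) ∣ ℓ - 1` the order of `t` divides `d_q = (ℓ - 1) / q ^ (e (k - 1) + 1)`,
and a cyclic group has at most `d_q ≤ (ℓ - 1) / 2 ^ k` such elements.  Union bound over the (at most
`n`) primes `q ∣ n`.
-/

set_option autoImplicit false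
set_option linter.style.haveILetI false

namespace Fermat.Agent.S48.CD

/-- arithmetic core -/
theorem gcnt_dvd {q e n k m a : ℕ} (hq : q.Prime) (hk : 1 ≤ k) (hqn : q ^ e ∣ n)
    (hnm : n ^ k ∣ m) (ham : a ∣ m) (ha0 : a ≠ 0) (hqa : ¬ q ^ e ∣ a) :
    a * q ^ (e * (k - 1) + 1) ∣ m := by
  obtain ⟨j, u, hu, rfl⟩ := Nat.exists_eq_pow_mul_and_not_dvd ha0 q hq.ne_one
  have hje : j < e := by
    by_contra hcon
    rw [not_lt] at hcon
    exact hqa (Dvd.dvd.mul_right (pow_dvd_pow q hcon) u)
  have hqm : q ^ (e * k) ∣ m := by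
    rw [pow_mul]
    exact (pow_dvd_pow_of_dvd hqn k).trans hnm
  have hum : u ∣ m := (Dvd.intro_left _ rfl).trans ham
  have hcop : Nat.Coprime u (q ^ (e * k)) :=
    Nat.Coprime.pow_right _ ((Nat.Prime.coprime_iff_not_dvd hq).mpr hu).symm
  have h1 : u * q ^ (e * k) ∣ m := Nat.Coprime.mul_dvd_of_dvd_of_dvd hcop hum hqm
  have hexp : j + (e * (k - 1) + 1) ≤ e * k := by
    obtain ⟨k', rfl⟩ : ∃ k', k = k' + 1 := ⟨k - 1, by omega⟩
    rw [Nat.add_sub_cancel, mul_add, mul_one]
    omega
  have h2 : q ^ j * u * q ^ (e * (k - 1) + 1) ∣ u * q ^ (e * k) := by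
    have : q ^ j * u * q ^ (e * (k - 1) + 1) = u * q ^ (j + (e * (k - 1) + 1)) := by
      rw [pow_add]
      ring
    rw [this]
    exact Nat.mul_dvd_mul_left u (pow_dvd_pow q hexp)
  exact h2.trans h1

/-- (CNT) -/
theorem stmtGoodCount : StmtGoodCount := by
  intro n k ℓ hn hℓ hmod
  classical
  haveI : Fact ℓ.Prime := ⟨hℓ⟩
  have hcard : Fintype.card (ZMod ℓ)ˣ = ℓ - 1 := ZMod.card_units ℓ
  have hm0 : 0 < ℓ - 1 := Nat.sub_pos_of_lt hℓ.one_lt
  have hnk : n ^ k ∣ ℓ - 1 := (Nat.modEq_iff_dvd' hℓ.one_lt.le).mp hmod.symm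
  rw [Nat.card_eq_fintype_card, Fintype.card_subtype]
  set bad : Finset (ZMod ℓ)ˣ := Finset.univ.filter (fun t => ¬ n ∣ orderOf t) with hbad
  rcases Nat.eq_zero_or_pos k with hk0 | hk
  · subst hk0
    rw [pow_zero, mul_one]
    calc bad.card ≤ (Finset.univ : Finset (ZMod ℓ)ˣ).card := Finset.card_le_card (Finset.subset_univ _)
      _ = ℓ - 1 := by rw [Finset.card_univ, hcard]
      _ ≤ n * (ℓ - 1) := Nat.le_mul_of_pos_left _ hn
  · set d : ℕ → ℕ := fun q => (ℓ - 1) / q ^ (n.factorization q * (k - 1) + 1) with hd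
    have hsub : bad ⊆ n.primeFactors.biUnion
        (fun q => Finset.univ.filter (fun t : (ZMod ℓ)ˣ => t ^ d q = 1)) := by
      intro t ht
      rw [hbad, Finset.mem_filter] at ht
      have ha0 : orderOf t ≠ 0 := (orderOf_pos t).ne'
      have ham : orderOf t ∣ ℓ - 1 := by
        rw [← hcard]
        exact orderOf_dvd_card
      have hfac : ¬ n.factorization ≤ (orderOf t).factorization := fun h =>
        ht.2 ((Nat.factorization_le_iff_dvd hn.ne' ha0).mp h)
      rw [Finsupp.le_def, not_forall] at hfac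
      obtain ⟨q, hq⟩ := hfac
      rw [not_le] at hq
      have he : 0 < n.factorization q := lt_of_le_of_lt (Nat.zero_le _) hq
      have hqmem : q ∈ n.primeFactors := by
        rw [← Nat.support_factorization, Finsupp.mem_support_iff]
        exact he.ne'
      have hqp : q.Prime := Nat.prime_of_mem_primeFactors hqmem
      have hqn : q ^ n.factorization q ∣ n := Nat.ordProj_dvd n q
      have hqa : ¬ q ^ n.factorization q ∣ orderOf t := by
        rw [hqp.pow_dvd_iff_le_factorization ha0, not_le]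
        exact hq
      have hdvd := gcnt_dvd hqp hk hqn hnk ham ha0 hqa
      rw [Finset.mem_biUnion]
      refine ⟨q, hqmem, ?_⟩
      rw [Finset.mem_filter]
      refine ⟨Finset.mem_univ _, ?_⟩
      rw [← orderOf_dvd_iff_pow_eq_one]
      have hqpow : q ^ (n.factorization q * (k - 1) + 1) ∣ ℓ - 1 :=
        (Dvd.intro_left _ rfl).trans hdvd
      exact (Nat.dvd_div_iff_mul_dvd hqpow).mpr (by rwa [mul_comm] at hdvd)
    have hterm : ∀ q ∈ n.primeFactors,
        (Finset.univ.filter (fun t : (ZMod ℓ)ˣ => t ^ d q = 1)).card * 2 ^ k ≤ ℓ - 1 := by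
      intro q hq
      have hqp : q.Prime := Nat.prime_of_mem_primeFactors hq
      have he : 1 ≤ n.factorization q := by
        have : q ∈ n.factorization.support := by rwa [Nat.support_factorization]
        exact Nat.one_le_iff_ne_zero.mpr (Finsupp.mem_support_iff.mp this)
      have hqn : q ^ n.factorization q ∣ n := Nat.ordProj_dvd n q
      have hqpow : q ^ (n.factorization q * (k - 1) + 1) ∣ ℓ - 1 := by
        have h1 : q ^ (n.factorization q * k) ∣ ℓ - 1 := by
          rw [pow_mul]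
          exact (pow_dvd_pow_of_dvd hqn k).trans hnk
        refine (pow_dvd_pow q ?_).trans h1
        obtain ⟨k', rfl⟩ : ∃ k', k = k' + 1 := ⟨k - 1, by omega⟩
        rw [Nat.add_sub_cancel, mul_add, mul_one]
        omega
      have hd0 : 0 < d q := Nat.div_pos (Nat.le_of_dvd hm0 hqpow) (pow_pos hqp.pos _)
      have h1 : (Finset.univ.filter (fun t : (ZMod ℓ)ˣ => t ^ d q = 1)).card ≤ d q :=
        IsCyclic.card_pow_eq_one_le hd0
      have h2 : 2 ^ k ≤ q ^ (n.factorization q * (k - 1) + 1) := by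
        calc 2 ^ k ≤ q ^ k := Nat.pow_le_pow_left hqp.two_le k
          _ ≤ q ^ (n.factorization q * (k - 1) + 1) := by
            apply Nat.pow_le_pow_right hqp.pos
            obtain ⟨k', rfl⟩ : ∃ k', k = k' + 1 := ⟨k - 1, by omega⟩
            rw [Nat.add_sub_cancel]
            nlinarith
      calc (Finset.univ.filter (fun t : (ZMod ℓ)ˣ => t ^ d q = 1)).card * 2 ^ k
          ≤ d q * q ^ (n.factorization q * (k - 1) + 1) := Nat.mul_le_mul h1 h2
        _ = ℓ - 1 := Nat.div_mul_cancel hqpow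
    calc bad.card * 2 ^ k
        ≤ (n.primeFactors.biUnion
            (fun q => Finset.univ.filter (fun t : (ZMod ℓ)ˣ => t ^ d q = 1))).card * 2 ^ k :=
          Nat.mul_le_mul_right _ (Finset.card_le_card hsub)
      _ ≤ (∑ q ∈ n.primeFactors,
            (Finset.univ.filter (fun t : (ZMod ℓ)ˣ => t ^ d q = 1)).card) * 2 ^ k :=
          Nat.mul_le_mul_right _ Finset.card_biUnion_le
      _ = ∑ q ∈ n.primeFactors,
            (Finset.univ.filter (fun t : (ZMod ℓ)ˣ => t ^ d q = 1)).card * 2 ^ k :=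
          Finset.sum_mul _ _ _
      _ ≤ ∑ _q ∈ n.primeFactors, (ℓ - 1) := Finset.sum_le_sum hterm
      _ = n.primeFactors.card * (ℓ - 1) := by rw [Finset.sum_const, smul_eq_mul]
      _ ≤ n * (ℓ - 1) := by
          apply Nat.mul_le_mul_right
          calc n.primeFactors.card ≤ (Finset.Icc 1 n).card := by
                apply Finset.card_le_card
                intro q hq
                rw [Finset.mem_Icc]
                exact ⟨(Nat.prime_of_mem_primeFactors hq).one_le,
                  Nat.le_of_dvd hn (Nat.dvd_of_mem_primeFactors hq)⟩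
            _ = n := by simp

end Fermat.Agent.S48.CD
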