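/-
S48/CD — piece **NR** (helper32): the norm of a prime `v` of `E` not above `ℓ` is the cyclotomic
character of an element of `Gal(M/E)`: a Frobenius element `φ` at a prime `𝔓 ∣ v` of `M` satisfies
`φ ζ = ζ ^ N v`  (`IsArithFrobAt.exists_of_isInvariant`, `apply_of_pow_eq_one`).
-/
import Fermat.Agent.S48.CD.Plan

set_option autoImplicit false
set_option linter.style.haveILetI false

namespace Fermat.Agent.S48.CD

open NumberField IsDedekindDomain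

/-- a prime number `ℓ` not dividing `N v` does not lie in `v` -/
lemma nrng_natCast_not_mem {E : Type} [Field E] [NumberField E] (v : HeightOneSpectrum (𝓞 E))
    (ℓ : ℕ) (hℓ : ℓ.Prime) (hv : ((Ideal.absNorm v.asIdeal : ℕ) : ZMod ℓ) ≠ 0) :
    (ℓ : 𝓞 E) ∉ v.asIdeal := by
  intro hmem
  have hnd : ¬ ℓ ∣ Ideal.absNorm v.asIdeal := by
    intro hd
    exact hv ((ZMod.natCast_eq_zero_iff _ _).2 hd)
  have hcop : Nat.Coprime ℓ (Ideal.absNorm v.asIdeal) :=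
    (Nat.Prime.coprime_iff_not_dvd hℓ).2 hnd
  have hN : ((Ideal.absNorm v.asIdeal : ℕ) : 𝓞 E) ∈ v.asIdeal := by
    have := Ideal.absNorm_mem v.asIdeal
    exact_mod_cast this
  have h1 : ((Nat.gcd ℓ (Ideal.absNorm v.asIdeal) : ℕ) : ℤ) =
      (ℓ : ℤ) * Nat.gcdA ℓ (Ideal.absNorm v.asIdeal) +
        (Ideal.absNorm v.asIdeal : ℤ) * Nat.gcdB ℓ (Ideal.absNorm v.asIdeal) :=
    Nat.gcd_eq_gcd_ab _ _
  rw [hcop.gcd_eq_one] at h1
  have h2 : (1 : 𝓞 E) = (ℓ : 𝓞 E) * ((Nat.gcdA ℓ (Ideal.absNorm v.asIdeal) : ℤ) : 𝓞 E) +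
      ((Ideal.absNorm v.asIdeal : ℕ) : 𝓞 E) *
        ((Nat.gcdB ℓ (Ideal.absNorm v.asIdeal) : ℤ) : 𝓞 E) := by
    have := congrArg (fun z : ℤ => (z : 𝓞 E)) h1
    simpa using this
  have h3 : (1 : 𝓞 E) ∈ v.asIdeal := by
    rw [h2]
    exact v.asIdeal.add_mem (v.asIdeal.mul_mem_right _ hmem) (v.asIdeal.mul_mem_right _ hN)
  exact v.isPrime.ne_top ((Ideal.eq_top_iff_one _).2 h3)

/-- **NR**. -/
theorem stmtNormRange : StmtNormRange := by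
  intro E M _ _ _ _ _ _ ℓ ζ hcyc v hv
  obtain ⟨hℓ, hζ, -⟩ := hcyc
  haveI := v.isPrime
  obtain ⟨⟨𝔓, h𝔓p, h𝔓over⟩⟩ := v.asIdeal.nonempty_primesOver (S := 𝓞 M)
  haveI := h𝔓p
  have h𝔓0 : 𝔓 ≠ ⊥ := by
    rintro rfl
    apply v.ne_bot
    rw [h𝔓over.over, Ideal.under, eq_bot_iff]
    intro x hx
    rw [Ideal.mem_comap, Ideal.mem_bot] at hx
    rw [Ideal.mem_bot]
    exact FaithfulSMul.algebraMap_injective (𝓞 E) (𝓞 M) (hx.trans (map_zero _).symm)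
  haveI : Finite (𝓞 M ⧸ 𝔓) := Ideal.finiteQuotientOfFreeOfNeBot 𝔓 h𝔓0
  obtain ⟨φ, hφ⟩ := IsArithFrobAt.exists_of_isInvariant (𝓞 E) (M ≃ₐ[E] M) 𝔓
  have hint : IsIntegral ℤ ζ := hζ.isIntegral hℓ.pos
  set ζ' : 𝓞 M := ⟨ζ, hint⟩ with hζ'
  have h1 : ζ' ^ ℓ = 1 := by
    apply RingOfIntegers.ext
    show ζ ^ ℓ = 1
    exact hζ.pow_eq_one
  have h2 : ((ℓ : ℕ) : 𝓞 M) ∉ 𝔓 := by
    intro hmem
    apply nrng_natCast_not_mem v ℓ hℓ hv
    rw [h𝔓over.over, Ideal.under_def, Ideal.mem_comap, map_natCast]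
    exact hmem
  have h3 := AlgHom.IsArithFrobAt.apply_of_pow_eq_one hφ h1 h2
  have hcard : Nat.card (𝓞 E ⧸ 𝔓.under (𝓞 E)) = Ideal.absNorm v.asIdeal := by
    rw [← h𝔓over.over, Ideal.absNorm_apply, Submodule.cardQuot_apply]
  rw [hcard] at h3
  refine ⟨φ, ?_⟩
  have h4 := congrArg (fun x : 𝓞 M => (x : M)) h3
  exact h4

end Fermat.Agent.S48.CD
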