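/-
S48/CD — piece **NG** (helper32): there is a prime `v` of `E`, not above `ℓ`, such that every
element of `Gal(M/E)` acts on `ζ` as a power of `N v`.

`Gal(M/E) ↪ (ℤ/ℓ)ˣ` is cyclic; `Cheb.stmtCyclic` (with `S = {ℓ}`) gives a prime `v` of degree one,
`N v ≠ ℓ`, with a unique prime `𝔓` of `M` above it.  Every `g` stabilises `𝔓` and acts on the
residue field as a power of the Frobenius `x ↦ x ^ N v`; since `ℓ ∉ 𝔓` the `ℓ`-th roots of unity
are distinct modulo `𝔓`, so `g ζ = ζ ^ (N v ^ j)`.  (No ramification hypothesis is needed.)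
-/
import Fermat.Agent.S48.CD.Plan
import Fermat.Agent.S48.CD.NormRange
import Fermat.Agent.Cheb.Cyclic
import Fermat.Agent.Cheb.CyclicSplit
import Fermat.Agent.Cheb.PrimeSum
import Fermat.Agent.Cheb.Split

set_option autoImplicit false
set_option linter.style.haveILetI false

namespace Fermat.Agent.S48.CD

open NumberField IsDedekindDomain
open scoped Pointwise

/-- an `ℓ`-th root of unity congruent to `1` modulo an ideal not containing `ℓ` is `1` -/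
lemma ngen_eq_one_of_sub_mem {S : Type*} [CommRing S] [IsDomain S] (Q : Ideal S) (ℓ : ℕ)
    (hℓQ : (ℓ : S) ∉ Q) (η : S) (hη : η ^ ℓ = 1) (hmem : η - 1 ∈ Q) : η = 1 := by
  by_contra hne
  have hsum : ∑ i ∈ Finset.range ℓ, η ^ i = 0 := by
    have h := geom_sum_mul η ℓ
    rw [hη, sub_self] at h
    exact (mul_eq_zero.1 h).resolve_right (sub_ne_zero.2 hne)
  apply hℓQ
  have h1 : (ℓ : S) = - ∑ i ∈ Finset.range ℓ, (η ^ i - 1) := by
    rw [Finset.sum_sub_distrib, hsum]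
    simp
  rw [h1]
  apply Q.neg_mem
  apply Q.sum_mem
  intro i _
  exact Ideal.mem_of_dvd Q (sub_one_dvd_pow_sub_one η i) hmem

/-- two `ℓ`-th roots of unity which are congruent modulo an ideal not containing `ℓ` are equal -/
lemma ngen_root_eq {S : Type*} [CommRing S] [IsDomain S] (Q : Ideal S) (ℓ : ℕ) (hℓ0 : ℓ ≠ 0)
    (hℓQ : (ℓ : S) ∉ Q) (x y : S) (hx : x ^ ℓ = 1) (hy : y ^ ℓ = 1) (hmem : x - y ∈ Q) :
    x = y := by
  have hyy : y ^ (ℓ - 1) * y = 1 := by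
    rw [← pow_succ, Nat.sub_add_cancel (Nat.pos_of_ne_zero hℓ0), hy]
  have h1 : x * y ^ (ℓ - 1) = 1 := by
    apply ngen_eq_one_of_sub_mem Q ℓ hℓQ
    · rw [mul_pow, hx, one_mul, ← pow_mul, mul_comm, pow_mul, hy, one_pow]
    · have h2 : x * y ^ (ℓ - 1) - 1 = y ^ (ℓ - 1) * (x - y) := by
        rw [mul_sub, hyy]
        ring
      rw [h2]
      exact Q.mul_mem_left _ hmem
  calc x = x * (y ^ (ℓ - 1) * y) := by rw [hyy, mul_one]
    _ = (x * y ^ (ℓ - 1)) * y := by ring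
    _ = y := by rw [h1, one_mul]

/-- `Gal(M/E)` is cyclic when it acts faithfully on a primitive `ℓ`-th root of unity -/
lemma ngen_isCyclic {E M : Type} [Field E] [Field M] [Algebra E M] {ℓ : ℕ} {ζ : M}
    (hcyc : IsCycl E M ℓ ζ) : IsCyclic (M ≃ₐ[E] M) := by
  obtain ⟨hℓ, hζ, hfaith⟩ := hcyc
  haveI : Fact ℓ.Prime := ⟨hℓ⟩
  haveI : NeZero ℓ := ⟨hℓ.ne_zero⟩
  have hinj : Function.Injective (hζ.autToPow E) := by
    rw [injective_iff_map_eq_one]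
    intro g hg
    apply hfaith
    have h1 := hζ.autToPow_spec E g
    rw [hg] at h1
    have h2 : ((1 : (ZMod ℓ)ˣ) : ZMod ℓ).val = 1 := by
      rw [Units.val_one]
      exact ZMod.val_one ℓ
    rw [h2, pow_one] at h1
    exact h1.symm
  exact isCyclic_of_injective (hζ.autToPow E) hinj

attribute [local instance] Ideal.Quotient.field in
/-- **NG**. -/
theorem stmtNormGen : StmtNormGen := by
  intro E M _ _ _ _ _ _ ℓ ζ hcyc
  haveI := ngen_isCyclic hcyc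
  obtain ⟨hℓ, hζ, hfaith⟩ := hcyc
  obtain ⟨v, hvp, hvS, hone⟩ := Fermat.Agent.Cheb.stmtCyclic Fermat.Agent.Cheb.stmtPrimeSum
    (Fermat.Agent.Cheb.stmtSplit Fermat.Agent.Cheb.stmtPrimeSum)
    Fermat.Agent.Cheb.stmtCyclicSplit E M {ℓ}
  have hv : ((Ideal.absNorm v.asIdeal : ℕ) : ZMod ℓ) ≠ 0 := by
    rw [Ne, ZMod.natCast_eq_zero_iff]
    intro hd
    have := (Nat.prime_dvd_prime_iff_eq hℓ hvp).1 hd
    exact hvS (by simp [this])
  refine ⟨v, hv, fun g => ?_⟩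
  haveI := v.isPrime
  obtain ⟨𝔓, h𝔓⟩ := Set.ncard_eq_one.1 hone
  have h𝔓mem : 𝔓 ∈ Ideal.primesOver v.asIdeal (𝓞 M) := by
    rw [h𝔓]
    exact Set.mem_singleton _
  haveI h𝔓p : 𝔓.IsPrime := h𝔓mem.1
  haveI h𝔓over : 𝔓.LiesOver v.asIdeal := h𝔓mem.2
  have hg : g • 𝔓 = 𝔓 := by
    have h1 : g • 𝔓 ∈ Ideal.primesOver v.asIdeal (𝓞 M) := ⟨inferInstance, inferInstance⟩
    rw [h𝔓] at h1
    exact h1
  have h𝔓0 : 𝔓 ≠ ⊥ := by
    rintro rfl
    apply v.ne_bot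
    rw [h𝔓over.over, Ideal.under, eq_bot_iff]
    intro x hx
    rw [Ideal.mem_comap, Ideal.mem_bot] at hx
    rw [Ideal.mem_bot]
    exact FaithfulSMul.algebraMap_injective (𝓞 E) (𝓞 M) (hx.trans (map_zero _).symm)
  haveI : Finite (𝓞 M ⧸ 𝔓) := Ideal.finiteQuotientOfFreeOfNeBot 𝔓 h𝔓0
  haveI hvmax : v.asIdeal.IsMaximal := v.isMaximal
  haveI h𝔓max : 𝔓.IsMaximal := Ideal.IsPrime.isMaximal inferInstance h𝔓0
  haveI : Finite (𝓞 E ⧸ v.asIdeal) := Ideal.finiteQuotientOfFreeOfNeBot v.asIdeal v.ne_bot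
  letI : Fintype (𝓞 E ⧸ v.asIdeal) := Fintype.ofFinite _
  obtain ⟨n, hn⟩ := (FiniteField.bijective_frobeniusAlgEquivOfAlgebraic_pow
    (𝓞 E ⧸ v.asIdeal) (𝓞 M ⧸ 𝔓)).2
    (Ideal.Quotient.stabilizerHom 𝔓 v.asIdeal (M ≃ₐ[E] M) ⟨g, hg⟩)
  have hcard : Nat.card (𝓞 E ⧸ v.asIdeal) = Ideal.absNorm v.asIdeal := by
    rw [Ideal.absNorm_apply, Submodule.cardQuot_apply]
  have h2 : ∀ x : 𝓞 M, g • x - x ^ (Ideal.absNorm v.asIdeal ^ (n : ℕ)) ∈ 𝔓 := by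
    intro x
    have h := congrArg (fun f : (𝓞 M ⧸ 𝔓) ≃ₐ[𝓞 E ⧸ v.asIdeal] (𝓞 M ⧸ 𝔓) =>
      f (Ideal.Quotient.mk 𝔓 x)) hn
    simp only [AlgEquiv.coe_pow, FiniteField.coe_frobeniusAlgEquivOfAlgebraic_iterate,
      Ideal.Quotient.stabilizerHom_apply] at h
    rw [← Ideal.Quotient.eq, map_pow, ← hcard, Nat.card_eq_fintype_card]
    exact h.symm
  have hint : IsIntegral ℤ ζ := hζ.isIntegral hℓ.pos
  set ζ' : 𝓞 M := ⟨ζ, hint⟩ with hζ'
  have h1 : ζ' ^ ℓ = 1 := by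
    apply RingOfIntegers.ext
    show ζ ^ ℓ = 1
    exact hζ.pow_eq_one
  have hℓ𝔓 : ((ℓ : ℕ) : 𝓞 M) ∉ 𝔓 := by
    intro hmem
    apply nrng_natCast_not_mem v ℓ hℓ hv
    rw [h𝔓over.over, Ideal.under_def, Ideal.mem_comap, map_natCast]
    exact hmem
  have h3 : g • ζ' = ζ' ^ (Ideal.absNorm v.asIdeal ^ (n : ℕ)) := by
    apply ngen_root_eq 𝔓 ℓ hℓ.ne_zero hℓ𝔓
    · rw [← smul_pow', h1, smul_one]
    · rw [← pow_mul, mul_comm, pow_mul, h1, one_pow]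
    · exact h2 ζ'
  refine ⟨n, ?_⟩
  have h4 := congrArg (fun x : 𝓞 M => (x : M)) h3
  exact h4

end Fermat.Agent.S48.CD
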