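import Fermat.Agent.S48.CD.NormLShift
import Fermat.Agent.PT.G2.OrbitWeighted
import Fermat.Agent.PT.G2.ResidueSum
import Fermat.Agent.PT.G2.RayStructure
import Fermat.Agent.S48.CD.Plan

/-!
# S48/CD-L: `L(s, χ ∘ N)` extends continuously to `[1, 2]`

For a number field `K`, a Dirichlet character `χ` modulo `m` and an ideal `𝔟` with
`χ (N 𝔟) ∉ {0, 1}`, the series `L(s) = ∑_I χ (N I) N(I)^(-s)` (`s > 1`) agrees on `(1, 2]` with a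
function which is continuous on `[1, 2]` (`normL_continuous`); in particular it is bounded
(`normL_bounded`) and has a limit for `s → 1⁺` (`normL_tendsto`).

Route (helper87's `𝔟`-trick on top of the S14 shift method): with `S₀(s) = ∑_{x ∈ 𝓞} F_s x` and
`𝔞` coprime to `m`, representatives of `𝓞 / 𝔞` in `m 𝓞` give
`S₀(s) = χ(N𝔞) N𝔞^(1-s) L_{[𝔞]⁻¹}(s) + E_𝔞(s)` with `E_𝔞` continuous on `[1, 2]`.  Comparing `𝔞`
and `𝔟 𝔞` and summing over the classes: `(1 - χ(N𝔟) N𝔟^(1-s)) L(s)` is continuous on `[1, 2]`.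
-/

set_option autoImplicit false
set_option linter.unusedSectionVars false
set_option linter.unusedVariables false
set_option linter.style.haveILetI false

open NumberField
open scoped nonZeroDivisors
open Fermat.Agent.S14 Fermat.Agent.PT.G2

namespace Fermat.Agent.S48.CD

variable {K : Type} [Field K] [NumberField K] {m : ℕ}

/-! ### Coprimality -/

/-- An ideal coprime to `(m)` has absolute norm coprime to `m`. -/
theorem normL_coprime_absNorm (𝔞 : Ideal (𝓞 K)) (h𝔞 : 𝔞 ≠ ⊥)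
    (hcop : IsCoprime 𝔞 (Ideal.span {((m : ℕ) : 𝓞 K)})) : Nat.Coprime (Ideal.absNorm 𝔞) m := by
  rw [Nat.coprime_iff_gcd_eq_one]
  by_contra hne
  obtain ⟨p, hp, hpd⟩ := Nat.exists_prime_and_dvd hne
  have hpN : p ∣ Ideal.absNorm 𝔞 := hpd.trans (Nat.gcd_dvd_left _ _)
  have hpm : p ∣ m := hpd.trans (Nat.gcd_dvd_right _ _)
  haveI : Fact p.Prime := ⟨hp⟩
  haveI : Finite (𝓞 K ⧸ 𝔞) := Ideal.finiteQuotientOfFreeOfNeBot 𝔞 h𝔞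
  have hcard : Nat.card (𝓞 K ⧸ 𝔞) = Ideal.absNorm 𝔞 := by
    rw [Ideal.absNorm_apply, Submodule.cardQuot_apply]
  have hpc : p ∣ Nat.card (𝓞 K ⧸ 𝔞) := by rw [hcard]; exact hpN
  obtain ⟨g, hg⟩ := exists_prime_addOrderOf_dvd_card' p hpc
  obtain ⟨y, rfl⟩ := Ideal.Quotient.mk_surjective g
  have hpy : (p : 𝓞 K) * y ∈ 𝔞 := by
    have h1 : p • (Ideal.Quotient.mk 𝔞 y) = 0 := by
      rw [← hg]; exact addOrderOf_nsmul_eq_zero _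
    rw [← map_nsmul, Ideal.Quotient.eq_zero_iff_mem, nsmul_eq_mul] at h1
    exact h1
  -- `1 = a + p z`
  obtain ⟨a, ha, b, hb, hab⟩ := Submodule.mem_sup.mp
    (show (1 : 𝓞 K) ∈ 𝔞 ⊔ Ideal.span {((m : ℕ) : 𝓞 K)} by
      rw [Ideal.isCoprime_iff_sup_eq.mp hcop]; exact Submodule.mem_top)
  obtain ⟨z, rfl⟩ := Ideal.mem_span_singleton'.mp hb
  obtain ⟨k, rfl⟩ := hpm
  have hy : y ∈ 𝔞 := by
    have e : y = a * y + z * ((k : 𝓞 K)) * ((p : 𝓞 K) * y) := by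
      have : a + z * (((p * k : ℕ)) : 𝓞 K) = 1 := hab
      push_cast at this
      calc y = (a + z * ((p : 𝓞 K) * (k : 𝓞 K))) * y := by rw [this, one_mul]
        _ = _ := by ring
    rw [e]
    exact 𝔞.add_mem (𝔞.mul_mem_right _ ha) (𝔞.mul_mem_left _ hpy)
  have h0 : Ideal.Quotient.mk 𝔞 y = 0 := Ideal.Quotient.eq_zero_iff_mem.mpr hy
  rw [h0, addOrderOf_zero] at hg
  exact hp.one_lt.ne hg

/-- An ideal with absolute norm coprime to `m` is coprime to `(m)`. -/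
theorem normL_isCoprime_of_absNorm (𝔟 : Ideal (𝓞 K)) (h : Nat.Coprime (Ideal.absNorm 𝔟) m) :
    IsCoprime 𝔟 (Ideal.span {((m : ℕ) : 𝓞 K)}) := by
  rw [Ideal.isCoprime_iff_exists]
  have h1 : IsCoprime ((Ideal.absNorm 𝔟 : ℕ) : ℤ) ((m : ℕ) : ℤ) := Nat.isCoprime_iff_coprime.mpr h
  obtain ⟨u, v, huv⟩ := h1
  refine ⟨(u : 𝓞 K) * ((Ideal.absNorm 𝔟 : ℕ) : 𝓞 K), 𝔟.mul_mem_left _ (Ideal.absNorm_mem 𝔟),
    (v : 𝓞 K) * ((m : ℕ) : 𝓞 K), Ideal.mul_mem_left _ _ (Ideal.mem_span_singleton_self _), ?_⟩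
  have := congrArg (fun t : ℤ => (t : 𝓞 K)) huv
  simpa using this

theorem normChar_ne_zero_iff (χ : DirichletCharacter ℂ m) (I : Ideal (𝓞 K)) :
    normChar χ I ≠ 0 ↔ Nat.Coprime (Ideal.absNorm I) m := by
  unfold normChar
  rw [← ZMod.isUnit_iff_coprime]
  constructor
  · intro h
    by_contra hu
    exact h (MulChar.map_nonunit χ hu)
  · intro hu
    exact (IsUnit.map χ hu).ne_zero

/-! ### The class parts -/

/-- The term `χ (N I) N(I)^(-s)`. -/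
noncomputable def normLTerm (χ : DirichletCharacter ℂ m) (s : ℝ) (I : (Ideal (𝓞 K))⁰) : ℂ :=
  normChar χ (I : Ideal (𝓞 K)) * (((Ideal.absNorm (I : Ideal (𝓞 K)) : ℝ) ^ (-s) : ℝ) : ℂ)

/-- The series `L(s, χ ∘ N)`. -/
noncomputable def normL (K : Type) [Field K] [NumberField K] (χ : DirichletCharacter ℂ m)
    (s : ℝ) : ℂ :=
  ∑' I : (Ideal (𝓞 K))⁰, normLTerm χ s I

/-- The part of `L(s, χ ∘ N)` in an ideal class. -/
noncomputable def normLClass (K : Type) [Field K] [NumberField K] (χ : DirichletCharacter ℂ m)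
    (s : ℝ) (c : ClassGroup (𝓞 K)) : ℂ :=
  ∑' I : {I : (Ideal (𝓞 K))⁰ // ClassGroup.mk0 I = c}, normLTerm χ s (I : (Ideal (𝓞 K))⁰)

theorem norm_normLTerm_le (χ : DirichletCharacter ℂ m) (s : ℝ) (I : (Ideal (𝓞 K))⁰) :
    ‖normLTerm χ s I‖ ≤ (Ideal.absNorm (I : Ideal (𝓞 K)) : ℝ) ^ (-s) := by
  have h0 : (0 : ℝ) ≤ (Ideal.absNorm (I : Ideal (𝓞 K)) : ℝ) ^ (-s) :=
    Real.rpow_nonneg (Nat.cast_nonneg _) _
  unfold normLTerm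
  rw [norm_mul, Complex.norm_real, Real.norm_of_nonneg h0]
  exact mul_le_of_le_one_left h0 (norm_normChar_le χ _)

/-- **Summability** of `L(s, χ ∘ N)` for `s > 1`. -/
theorem normL_summable (χ : DirichletCharacter ℂ m) {s : ℝ} (hs : 1 < s) :
    Summable (normLTerm (K := K) χ s) :=
  Summable.of_norm_bounded (summable_absNorm_rpow K hs) (fun I => norm_normLTerm_le χ s I)

theorem normL_eq_sum (χ : DirichletCharacter ℂ m) {s : ℝ} (hs : 1 < s) :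
    normL K χ s = ∑ c : ClassGroup (𝓞 K), normLClass K χ s c := by
  have h1 := (normL_summable (K := K) χ hs).hasSum.tsum_fiberwise
    (fun I : (Ideal (𝓞 K))⁰ => ClassGroup.mk0 I)
  rw [normL, ← h1.tsum_eq, tsum_fintype]
  rfl

/-! ### The orbit formula -/

/-- Complex version of `hasSum_ideal_of_hasSum_ne_zero`. -/
theorem normL_hasSum_ideal_of_ne_zero (𝔠 : Ideal (𝓞 K)) (F : 𝓞 K → ℂ) (hF0 : F 0 = 0) {a : ℂ}
    (h : HasSum (fun x : {x : 𝓞 K // x ∈ 𝔠 ∧ x ≠ 0} => F (x : 𝓞 K)) a) :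
    HasSum (fun x : 𝔠 => F (x : 𝓞 K)) a := by
  have h1 : HasSum (Set.indicator {x : 𝓞 K | x ∈ 𝔠 ∧ x ≠ 0} F) a :=
    (hasSum_subtype_iff_indicator (s := {x : 𝓞 K | x ∈ 𝔠 ∧ x ≠ 0}) (f := F)).mp h
  have h2 : Set.indicator {x : 𝓞 K | x ∈ 𝔠 ∧ x ≠ 0} F = Set.indicator (𝔠 : Set (𝓞 K)) F := by
    funext x
    by_cases hx : x = 0
    · subst hx
      simp [hF0]
    · by_cases hxc : x ∈ 𝔠
      · rw [Set.indicator_of_mem (show x ∈ {x : 𝓞 K | x ∈ 𝔠 ∧ x ≠ 0} from ⟨hxc, hx⟩),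
          Set.indicator_of_mem (show x ∈ (𝔠 : Set (𝓞 K)) from hxc)]
      · rw [Set.indicator_of_notMem (fun h : x ∈ {x : 𝓞 K | x ∈ 𝔠 ∧ x ≠ 0} => hxc h.1),
          Set.indicator_of_notMem (fun h : x ∈ (𝔠 : Set (𝓞 K)) => hxc h)]
  rw [h2] at h1
  exact (hasSum_subtype_iff_indicator (s := (𝔠 : Set (𝓞 K))) (f := F)).mpr h1

/-- **Orbit formula**: `∑_{x ∈ 𝔞} F_s x = χ(N𝔞) N𝔞^(-s) L_{[𝔞]⁻¹}(s)`. -/
theorem normL_orbit {w : K → ℝ} {T : Finset (𝓞 K)ˣ} {B L : ℝ}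
    (hW : IsUnitWeight K w T B L) (χ : DirichletCharacter ℂ m) (𝔞 : (Ideal (𝓞 K))⁰)
    {s : ℝ} (hs : 1 < s) :
    HasSum (fun x : (𝔞 : Ideal (𝓞 K)) => normLF χ w s (x : 𝓞 K))
      (normChar χ (𝔞 : Ideal (𝓞 K)) *
        ((((Ideal.absNorm (𝔞 : Ideal (𝓞 K)) : ℝ) ^ (-s) : ℝ) : ℂ) *
          normLClass K χ s (ClassGroup.mk0 𝔞)⁻¹)) := by
  have h1 := os_hasSum_weighted 𝔞 w hW.nonneg hW.hasSum s (summable_absNorm_rpow K hs)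
    (fun I => normChar χ ((𝔞 : Ideal (𝓞 K)) * I)) (fun I => norm_normChar_le χ _)
    (fun x => normChar χ (Ideal.span {x}))
    (fun x I hx h => by rw [h])
  have h2 : (∑' I : {I : (Ideal (𝓞 K))⁰ // ClassGroup.mk0 I = (ClassGroup.mk0 𝔞)⁻¹},
      normChar χ ((𝔞 : Ideal (𝓞 K)) * ((I : (Ideal (𝓞 K))⁰) : Ideal (𝓞 K))) *
        ((Ideal.absNorm ((I : (Ideal (𝓞 K))⁰) : Ideal (𝓞 K)) : ℝ) ^ (-s) : ℝ)) =
      normChar χ (𝔞 : Ideal (𝓞 K)) * normLClass K χ s (ClassGroup.mk0 𝔞)⁻¹ := by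
    unfold normLClass
    rw [← tsum_mul_left]
    refine tsum_congr fun I => ?_
    rw [normChar_mul, normLTerm, mul_assoc]
  rw [h2] at h1
  have h3 := normL_hasSum_ideal_of_ne_zero (𝔞 : Ideal (𝓞 K)) (normLF χ w s)
    (normLF_zero χ w (by linarith)) h1
  convert h3 using 1
  ring

/-! ### Decomposition along cosets with prescribed representatives -/

/-- The translation equivalence between an ideal and one of its cosets. -/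
noncomputable def normLCosetEquiv (𝔞 : Ideal (𝓞 K)) (q : 𝓞 K ⧸ 𝔞) (r : 𝓞 K)
    (hr : Ideal.Quotient.mk 𝔞 r = q) :
    (𝔞 : Ideal (𝓞 K)) ≃ {y : 𝓞 K // Ideal.Quotient.mk 𝔞 y = q} where
  toFun x := ⟨(x : 𝓞 K) + r, by
    rw [map_add, Ideal.Quotient.eq_zero_iff_mem.mpr x.2, zero_add]
    exact hr⟩
  invFun y := ⟨(y : 𝓞 K) - r, by
    rw [← Ideal.Quotient.eq_zero_iff_mem, map_sub, y.2, sub_eq_zero]
    exact hr.symm⟩
  left_inv x := by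
    apply Subtype.ext
    simp
  right_inv y := by
    apply Subtype.ext
    simp

theorem normL_tsum_cosets (𝔞 : Ideal (𝓞 K)) [Fintype (𝓞 K ⧸ 𝔞)] (r : 𝓞 K ⧸ 𝔞 → 𝓞 K)
    (hr : ∀ u, Ideal.Quotient.mk 𝔞 (r u) = u) (F : 𝓞 K → ℂ) (hF : Summable F) :
    ∑' y : 𝓞 K, F y = ∑ q : 𝓞 K ⧸ 𝔞, ∑' x : 𝔞, F ((x : 𝓞 K) + r q) := by
  have h1 : HasSum (fun q : 𝓞 K ⧸ 𝔞 =>
      ∑' y : {y : 𝓞 K // Ideal.Quotient.mk 𝔞 y = q}, F y) (∑' y : 𝓞 K, F y) :=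
    hF.hasSum.tsum_fiberwise (Ideal.Quotient.mk 𝔞)
  rw [← h1.tsum_eq, tsum_fintype]
  refine Finset.sum_congr rfl fun q _ => ?_
  rw [← (normLCosetEquiv 𝔞 q (r q) (hr q)).tsum_eq]
  rfl

/-! ### Lemma A: the sum over `𝓞 K` against the class part of `[𝔞]⁻¹` -/

theorem normL_span_ne_bot (K : Type) [Field K] [NumberField K] (m : ℕ) [NeZero m] :
    Ideal.span {((m : ℕ) : 𝓞 K)} ≠ ⊥ := by
  rw [Ne, Ideal.span_singleton_eq_bot]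
  exact_mod_cast NeZero.ne m

theorem normL_lemmaA {w : K → ℝ} {T : Finset (𝓞 K)ˣ} {B L : ℝ}
    (hW : IsUnitWeight K w T B L) (hF : FiberwiseAt K w) (χ : DirichletCharacter ℂ m)
    (𝔞 : (Ideal (𝓞 K))⁰) (hcop : IsCoprime (𝔞 : Ideal (𝓞 K)) (Ideal.span {((m : ℕ) : 𝓞 K)})) :
    ∃ E : ℝ → ℂ, ContinuousOn E (Set.Icc 1 2) ∧ ∀ s : ℝ, 1 < s → s ≤ 2 →
      ∑' x : 𝓞 K, normLF χ w s x =
        normChar χ (𝔞 : Ideal (𝓞 K)) *
          ((((Ideal.absNorm (𝔞 : Ideal (𝓞 K)) : ℝ) ^ (1 - s) : ℝ) : ℂ) *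
            normLClass K χ s (ClassGroup.mk0 𝔞)⁻¹) + E s := by
  classical
  have h𝔞0 : (𝔞 : Ideal (𝓞 K)) ≠ ⊥ := nonZeroDivisors.coe_ne_zero 𝔞
  haveI : Finite (𝓞 K ⧸ (𝔞 : Ideal (𝓞 K))) := Ideal.finiteQuotientOfFreeOfNeBot _ h𝔞0
  letI : Fintype (𝓞 K ⧸ (𝔞 : Ideal (𝓞 K))) := Fintype.ofFinite _
  obtain ⟨r, hr⟩ := exists_residue_rep (Ideal.span {((m : ℕ) : 𝓞 K)}) (𝔞 : Ideal (𝓞 K))
    hcop.symm
  refine ⟨fun s => ∑ q : 𝓞 K ⧸ (𝔞 : Ideal (𝓞 K)),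
    ∑' x : (𝔞 : Ideal (𝓞 K)), (normLF χ w s ((x : 𝓞 K) + r q) - normLF χ w s (x : 𝓞 K)), ?_, ?_⟩
  · exact continuousOn_finsetSum _ fun q _ =>
      normL_shift_continuousOn hW hF χ (r q) (hr q).1 (𝔞 : Ideal (𝓞 K))
  · intro s hs1 hs2
    have hS := normLF_summable hW hF χ hs1
    rw [normL_tsum_cosets (𝔞 : Ideal (𝓞 K)) r (fun u => (hr u).2) (normLF χ w s) hS]
    have h1 : ∀ q : 𝓞 K ⧸ (𝔞 : Ideal (𝓞 K)),
        ∑' x : (𝔞 : Ideal (𝓞 K)), normLF χ w s ((x : 𝓞 K) + r q) =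
          ∑' x : (𝔞 : Ideal (𝓞 K)), normLF χ w s (x : 𝓞 K) +
            ∑' x : (𝔞 : Ideal (𝓞 K)),
              (normLF χ w s ((x : 𝓞 K) + r q) - normLF χ w s (x : 𝓞 K)) :=
      fun q => normL_shift_eq hW hF χ (r q) (𝔞 : Ideal (𝓞 K)) hs1
    rw [Finset.sum_congr rfl fun q _ => h1 q, Finset.sum_add_distrib, Finset.sum_const,
      Finset.card_univ, (normL_orbit hW χ 𝔞 hs1).tsum_eq, nsmul_eq_mul]
    congr 1
    have hcard : (Fintype.card (𝓞 K ⧸ (𝔞 : Ideal (𝓞 K))) : ℂ) =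
        (((Ideal.absNorm (𝔞 : Ideal (𝓞 K)) : ℝ)) : ℂ) := by
      rw [← Nat.card_eq_fintype_card, natCard_quot_eq_absNorm]
      push_cast
      rfl
    have hN0 : (0 : ℝ) < (Ideal.absNorm (𝔞 : Ideal (𝓞 K)) : ℝ) := by
      have h0 : Ideal.absNorm (𝔞 : Ideal (𝓞 K)) ≠ 0 := by
        rw [Ne, Ideal.absNorm_eq_zero_iff]
        exact h𝔞0
      exact_mod_cast Nat.pos_of_ne_zero h0
    have hpow : (Ideal.absNorm (𝔞 : Ideal (𝓞 K)) : ℝ) ^ (1 - s) =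
        (Ideal.absNorm (𝔞 : Ideal (𝓞 K)) : ℝ) *
          (Ideal.absNorm (𝔞 : Ideal (𝓞 K)) : ℝ) ^ (-s) := by
      rw [show (1 : ℝ) - s = 1 + -s by ring, Real.rpow_add hN0, Real.rpow_one]
    rw [hcard, hpow]
    push_cast
    ring

/-! ### Lemma B: comparison of the class parts of `c` and `c [𝔟]⁻¹` -/

/-- The multiplier `γ(s) = χ(N𝔟) N𝔟^(1-s)`. -/
noncomputable def normLGamma (χ : DirichletCharacter ℂ m) (𝔟 : (Ideal (𝓞 K))⁰) (s : ℝ) : ℂ :=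
  normChar χ (𝔟 : Ideal (𝓞 K)) * (((Ideal.absNorm (𝔟 : Ideal (𝓞 K)) : ℝ) ^ (1 - s) : ℝ) : ℂ)

theorem normL_absNorm_pos (𝔞 : (Ideal (𝓞 K))⁰) :
    (0 : ℝ) < (Ideal.absNorm (𝔞 : Ideal (𝓞 K)) : ℝ) := by
  have h0 : Ideal.absNorm (𝔞 : Ideal (𝓞 K)) ≠ 0 := by
    rw [Ne, Ideal.absNorm_eq_zero_iff]
    exact nonZeroDivisors.coe_ne_zero 𝔞
  exact_mod_cast Nat.pos_of_ne_zero h0

theorem normL_rpow_continuousOn (𝔞 : (Ideal (𝓞 K))⁰) :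
    ContinuousOn (fun s : ℝ => (((Ideal.absNorm (𝔞 : Ideal (𝓞 K)) : ℝ) ^ (1 - s) : ℝ) : ℂ))
      (Set.Icc 1 2) := by
  refine Complex.continuous_ofReal.comp_continuousOn ?_
  have h : Continuous (fun s : ℝ => (Ideal.absNorm (𝔞 : Ideal (𝓞 K)) : ℝ) ^ (1 - s)) :=
    Real.continuous_const_rpow (normL_absNorm_pos 𝔞).ne' |>.comp (continuous_const.sub continuous_id)
  exact h.continuousOn

theorem normLGamma_continuousOn (χ : DirichletCharacter ℂ m) (𝔟 : (Ideal (𝓞 K))⁰) :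
    ContinuousOn (normLGamma χ 𝔟) (Set.Icc 1 2) :=
  continuousOn_const.mul (normL_rpow_continuousOn 𝔟)

theorem normL_lemmaB [NeZero m] {w : K → ℝ} {T : Finset (𝓞 K)ˣ} {B L : ℝ}
    (hW : IsUnitWeight K w T B L) (hF : FiberwiseAt K w) (χ : DirichletCharacter ℂ m)
    (𝔟 : (Ideal (𝓞 K))⁰) (h𝔟 : normChar χ (𝔟 : Ideal (𝓞 K)) ≠ 0) (c : ClassGroup (𝓞 K)) :
    ∃ D : ℝ → ℂ, ContinuousOn D (Set.Icc 1 2) ∧ ∀ s : ℝ, 1 < s → s ≤ 2 →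
      normLClass K χ s c - normLGamma χ 𝔟 s * normLClass K χ s (c * (ClassGroup.mk0 𝔟)⁻¹) =
        D s := by
  obtain ⟨𝔞, hcop, h𝔞c⟩ := exists_coprime_rep K (Ideal.span {((m : ℕ) : 𝓞 K)})
    (normL_span_ne_bot K m) c⁻¹
  have hc : (ClassGroup.mk0 𝔞)⁻¹ = c := by rw [h𝔞c, inv_inv]
  have h𝔟cop : IsCoprime (𝔟 : Ideal (𝓞 K)) (Ideal.span {((m : ℕ) : 𝓞 K)}) :=
    normL_isCoprime_of_absNorm _ ((normChar_ne_zero_iff χ _).mp h𝔟)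
  have hcop2 : IsCoprime (((𝔟 * 𝔞 : (Ideal (𝓞 K))⁰)) : Ideal (𝓞 K))
      (Ideal.span {((m : ℕ) : 𝓞 K)}) := by
    rw [Submonoid.coe_mul]
    exact IsCoprime.mul_left h𝔟cop hcop
  have hc2 : (ClassGroup.mk0 (𝔟 * 𝔞))⁻¹ = c * (ClassGroup.mk0 𝔟)⁻¹ := by
    rw [map_mul, mul_inv, hc, mul_comm]
  obtain ⟨E₁, hE₁c, hE₁⟩ := normL_lemmaA hW hF χ 𝔞 hcop
  obtain ⟨E₂, hE₂c, hE₂⟩ := normL_lemmaA hW hF χ (𝔟 * 𝔞) hcop2
  have hψ𝔞 : normChar χ (𝔞 : Ideal (𝓞 K)) ≠ 0 :=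
    (normChar_ne_zero_iff χ _).mpr
      (normL_coprime_absNorm _ (nonZeroDivisors.coe_ne_zero 𝔞) hcop)
  have hpow_ne : ∀ s : ℝ, (((Ideal.absNorm (𝔞 : Ideal (𝓞 K)) : ℝ) ^ (1 - s) : ℝ) : ℂ) ≠ 0 := by
    intro s
    exact_mod_cast (Real.rpow_pos_of_pos (normL_absNorm_pos 𝔞) _).ne'
  refine ⟨fun s => (normChar χ (𝔞 : Ideal (𝓞 K)) *
      (((Ideal.absNorm (𝔞 : Ideal (𝓞 K)) : ℝ) ^ (1 - s) : ℝ) : ℂ))⁻¹ * (E₂ s - E₁ s), ?_, ?_⟩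
  · refine ContinuousOn.mul ?_ (hE₂c.sub hE₁c)
    refine ContinuousOn.inv₀ (continuousOn_const.mul (normL_rpow_continuousOn 𝔞)) ?_
    intro s _
    exact mul_ne_zero hψ𝔞 (hpow_ne s)
  · intro s hs1 hs2
    have e1 := hE₁ s hs1 hs2
    have e2 := hE₂ s hs1 hs2
    rw [hc] at e1
    rw [hc2, Submonoid.coe_mul, normChar_mul, map_mul, Nat.cast_mul,
      Real.mul_rpow (normL_absNorm_pos 𝔟).le (normL_absNorm_pos 𝔞).le] at e2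
    have hne : normChar χ (𝔞 : Ideal (𝓞 K)) *
        (((Ideal.absNorm (𝔞 : Ideal (𝓞 K)) : ℝ) ^ (1 - s) : ℝ) : ℂ) ≠ 0 :=
      mul_ne_zero hψ𝔞 (hpow_ne s)
    rw [eq_comm, inv_mul_eq_iff_eq_mul₀ hne]
    unfold normLGamma
    have e3 := e1.symm.trans e2
    push_cast at e3 ⊢
    linear_combination (-1 : ℂ) * e3

/-! ### The main theorem -/

/-- `γ(s) ≠ 1` on `[1, 2]` if `χ(N𝔟) ≠ 1`. -/
theorem normLGamma_ne_one (χ : DirichletCharacter ℂ m) (𝔟 : (Ideal (𝓞 K))⁰)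
    (h𝔟 : normChar χ (𝔟 : Ideal (𝓞 K)) ≠ 1) {s : ℝ} (hs : 1 ≤ s) :
    normLGamma χ 𝔟 s ≠ 1 := by
  intro h
  have hN1 : (1 : ℝ) ≤ (Ideal.absNorm (𝔟 : Ideal (𝓞 K)) : ℝ) := by
    have h0 : Ideal.absNorm (𝔟 : Ideal (𝓞 K)) ≠ 0 := by
      rw [Ne, Ideal.absNorm_eq_zero_iff]
      exact nonZeroDivisors.coe_ne_zero 𝔟
    exact_mod_cast Nat.one_le_iff_ne_zero.mpr h0
  have hp0 : 0 ≤ (Ideal.absNorm (𝔟 : Ideal (𝓞 K)) : ℝ) ^ (1 - s) :=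
    Real.rpow_nonneg (by linarith) _
  have hp1 : (Ideal.absNorm (𝔟 : Ideal (𝓞 K)) : ℝ) ^ (1 - s) ≤ 1 :=
    Real.rpow_le_one_of_one_le_of_nonpos hN1 (by linarith)
  have hnorm : ‖normLGamma χ 𝔟 s‖ = 1 := by rw [h, norm_one]
  unfold normLGamma at hnorm h
  rw [norm_mul, Complex.norm_real, Real.norm_of_nonneg hp0] at hnorm
  have hχ1 := norm_normChar_le χ (𝔟 : Ideal (𝓞 K))
  have hχ0 := norm_nonneg (normChar χ (𝔟 : Ideal (𝓞 K)))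
  have hp : (Ideal.absNorm (𝔟 : Ideal (𝓞 K)) : ℝ) ^ (1 - s) = 1 := by
    nlinarith
  rw [hp, Complex.ofReal_one, mul_one] at h
  exact h𝔟 h

/-- Internal form of the main theorem. -/
theorem normL_continuous_aux [NeZero m] (χ : DirichletCharacter ℂ m) (𝔟 : (Ideal (𝓞 K))⁰)
    (h𝔟0 : normChar χ (𝔟 : Ideal (𝓞 K)) ≠ 0) (h𝔟1 : normChar χ (𝔟 : Ideal (𝓞 K)) ≠ 1) :
    ∃ g : ℝ → ℂ, ContinuousOn g (Set.Icc 1 2) ∧ ∀ s : ℝ, 1 < s → s ≤ 2 → normL K χ s = g s := by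
  classical
  obtain ⟨w, T, B, L, hB, hL, h0, h1, hsum, hcov, hsupp, hlip⟩ := unitWeightStatement K
  have hW : IsUnitWeight K w T B L := ⟨hB, hL, h0, h1, hsum, hcov, hsupp, hlip⟩
  have hF : FiberwiseAt K w := fiberwise_of_idealZeta idealZetaStatement K w h0 hsum
  choose D hDc hD using fun c : ClassGroup (𝓞 K) => normL_lemmaB hW hF χ 𝔟 h𝔟0 c
  refine ⟨fun s => (1 - normLGamma χ 𝔟 s)⁻¹ * ∑ c : ClassGroup (𝓞 K), D c s, ?_, ?_⟩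
  · refine ContinuousOn.mul ?_ (continuousOn_finsetSum _ fun c _ => hDc c)
    refine ContinuousOn.inv₀ (continuousOn_const.sub (normLGamma_continuousOn χ 𝔟)) ?_
    intro s hs
    exact sub_ne_zero.mpr (normLGamma_ne_one χ 𝔟 h𝔟1 hs.1).symm
  · intro s hs1 hs2
    have hne : 1 - normLGamma χ 𝔟 s ≠ 0 :=
      sub_ne_zero.mpr (normLGamma_ne_one χ 𝔟 h𝔟1 hs1.le).symm
    rw [eq_comm, inv_mul_eq_iff_eq_mul₀ hne]
    have hL := normL_eq_sum (K := K) χ hs1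
    have hshift : ∑ c : ClassGroup (𝓞 K), normLClass K χ s (c * (ClassGroup.mk0 𝔟)⁻¹) =
        ∑ c : ClassGroup (𝓞 K), normLClass K χ s c :=
      Fintype.sum_equiv (Equiv.mulRight (ClassGroup.mk0 𝔟)⁻¹) _ _ (fun c => rfl)
    calc ∑ c : ClassGroup (𝓞 K), D c s
        = ∑ c : ClassGroup (𝓞 K), (normLClass K χ s c -
            normLGamma χ 𝔟 s * normLClass K χ s (c * (ClassGroup.mk0 𝔟)⁻¹)) :=
          Finset.sum_congr rfl fun c _ => (hD c s hs1 hs2).symm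
      _ = (1 - normLGamma χ 𝔟 s) * normL K χ s := by
          rw [Finset.sum_sub_distrib, ← Finset.mul_sum, hshift, ← hL]
          ring

/-- **S48/CD-L**: for a Dirichlet character `χ` modulo `m` such that `χ ∘ N` takes a value
different from `0` and `1` on the ideals of `K`, the series `L(s, χ ∘ N)` agrees on `(1, 2]` with
a function that is continuous on `[1, 2]`. -/
theorem normL_continuous (K : Type) [Field K] [NumberField K] (m : ℕ) [NeZero m]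
    (χ : DirichletCharacter ℂ m)
    (hχ : ∃ I : (Ideal (𝓞 K))⁰, χ ((Ideal.absNorm (I : Ideal (𝓞 K)) : ℕ) : ZMod m) ≠ 0 ∧
      χ ((Ideal.absNorm (I : Ideal (𝓞 K)) : ℕ) : ZMod m) ≠ 1) :
    ∃ g : ℝ → ℂ, ContinuousOn g (Set.Icc 1 2) ∧ ∀ s : ℝ, 1 < s → s ≤ 2 →
      ∑' I : (Ideal (𝓞 K))⁰, (χ ((Ideal.absNorm (I : Ideal (𝓞 K)) : ℕ) : ZMod m) : ℂ) *
          (((Ideal.absNorm (I : Ideal (𝓞 K)) : ℝ) ^ (-s) : ℝ) : ℂ) = g s := by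
  obtain ⟨𝔟, h0, h1⟩ := hχ
  exact normL_continuous_aux χ 𝔟 h0 h1

/-- **S48/CD-L**, boundedness on `(1, 2]`. -/
theorem normL_bounded (K : Type) [Field K] [NumberField K] (m : ℕ) [NeZero m]
    (χ : DirichletCharacter ℂ m)
    (hχ : ∃ I : (Ideal (𝓞 K))⁰, χ ((Ideal.absNorm (I : Ideal (𝓞 K)) : ℕ) : ZMod m) ≠ 0 ∧
      χ ((Ideal.absNorm (I : Ideal (𝓞 K)) : ℕ) : ZMod m) ≠ 1) :
    ∃ C : ℝ, ∀ s : ℝ, 1 < s → s ≤ 2 →
      ‖∑' I : (Ideal (𝓞 K))⁰, (χ ((Ideal.absNorm (I : Ideal (𝓞 K)) : ℕ) : ZMod m) : ℂ) *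
          (((Ideal.absNorm (I : Ideal (𝓞 K)) : ℝ) ^ (-s) : ℝ) : ℂ)‖ ≤ C := by
  obtain ⟨g, hgc, hg⟩ := normL_continuous K m χ hχ
  obtain ⟨C, hC⟩ := isCompact_Icc.exists_bound_of_continuousOn hgc
  refine ⟨C, fun s hs1 hs2 => ?_⟩
  rw [hg s hs1 hs2]
  exact hC s ⟨hs1.le, hs2⟩

/-- **S48/CD-L**, the limit for `s → 1⁺`. -/
theorem normL_tendsto (K : Type) [Field K] [NumberField K] (m : ℕ) [NeZero m]
    (χ : DirichletCharacter ℂ m)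
    (hχ : ∃ I : (Ideal (𝓞 K))⁰, χ ((Ideal.absNorm (I : Ideal (𝓞 K)) : ℕ) : ZMod m) ≠ 0 ∧
      χ ((Ideal.absNorm (I : Ideal (𝓞 K)) : ℕ) : ZMod m) ≠ 1) :
    ∃ ℓ : ℂ, Filter.Tendsto (fun s : ℝ =>
      ∑' I : (Ideal (𝓞 K))⁰, (χ ((Ideal.absNorm (I : Ideal (𝓞 K)) : ℕ) : ZMod m) : ℂ) *
          (((Ideal.absNorm (I : Ideal (𝓞 K)) : ℝ) ^ (-s) : ℝ) : ℂ))
      (nhdsWithin 1 (Set.Ioi 1)) (nhds ℓ) := by
  obtain ⟨g, hgc, hg⟩ := normL_continuous K m χ hχ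
  refine ⟨g 1, ?_⟩
  have h1 : Filter.Tendsto g (nhdsWithin 1 (Set.Icc 1 2)) (nhds (g 1)) :=
    hgc 1 ⟨le_rfl, by norm_num⟩
  have h2 : Filter.Tendsto g (nhdsWithin 1 (Set.Ioc 1 2)) (nhds (g 1)) :=
    h1.mono_left (nhdsWithin_mono _ Set.Ioc_subset_Icc_self)
  have h3 : nhdsWithin (1 : ℝ) (Set.Ioi 1) = nhdsWithin 1 (Set.Ioc 1 2) := by
    have : Set.Ioc (1 : ℝ) 2 = Set.Ioi 1 ∩ Set.Iic 2 := by
      ext x; simp [Set.mem_Ioc]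
    rw [this]
    exact (nhdsWithin_inter_of_mem' (mem_nhdsWithin_of_mem_nhds
      (Iic_mem_nhds (by norm_num : (1 : ℝ) < 2)))).symm
  rw [h3]
  refine h2.congr' ?_
  filter_upwards [self_mem_nhdsWithin] with s hs
  exact (hg s hs.1 hs.2).symm

/-- **S48/CD-L**, summability for `s > 1`. -/
theorem normL_summable' (K : Type) [Field K] [NumberField K] (m : ℕ)
    (χ : DirichletCharacter ℂ m) {s : ℝ} (hs : 1 < s) :
    Summable fun I : (Ideal (𝓞 K))⁰ =>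
      (χ ((Ideal.absNorm (I : Ideal (𝓞 K)) : ℕ) : ZMod m) : ℂ) *
          (((Ideal.absNorm (I : Ideal (𝓞 K)) : ℝ) ^ (-s) : ℝ) : ℂ) :=
  normL_summable χ hs

/-- **S48/CD-L** in the form of the interface `Fermat/Agent/S48/CD/Plan.lean`. -/
theorem stmtNormL : StmtNormL := by
  intro E _ _ m _ χ hχ
  obtain ⟨g, hgc, hg⟩ := normL_continuous E m χ hχ
  exact ⟨g, hgc, fun s hs1 hs2 => (hg s hs1 hs2).symm⟩

end Fermat.Agent.S48.CD
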