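import Fermat.Agent.S48.CD.Plan
import Fermat.Agent.Cheb.Split
import Fermat.Agent.Cheb.PrimeSum
import Fermat.Agent.Cheb.Density

/-!
# S48/CD, piece SP1: the primes of norm `≡ 1 mod ℓ` have density `1/[M:E]`

`M/E` Galois, `ζ ∈ M` a primitive `ℓ`-th root of unity on which `Gal(M/E)` acts faithfully.
Outside the finite set of the primes of `E` which ramify in `M` or lie above `ℓ`, a prime `v`
splits completely in `M` iff `N v ≡ 1 mod ℓ`:

* if `v` splits completely, the residue field at `w ∣ v` has `N v` elements and contains an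
  element of order `ℓ` (the class of `ζ`), so `ℓ ∣ N v - 1`;
* if `N v ≡ 1 mod ℓ`, a Frobenius element `φ` at `w ∣ v` fixes `ζ` (`φ ζ = ζ ^ (N v)`), so
  `φ = 1` and `x ^ (N v) ≡ x mod w` for all `x`: the residue degree is one.

Then `Cheb.stmtSplit` gives the density.
-/

set_option autoImplicit false
set_option linter.unusedSectionVars false
set_option linter.unusedVariables false
set_option linter.style.haveILetI false

open NumberField IsDedekindDomain
open Fermat.Agent.Cheb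

namespace Fermat.Agent.S48.CD

attribute [local instance] FractionRing.liftAlgebra

section

variable (E M : Type) [Field E] [NumberField E] [Field M] [NumberField M] [Algebra E M]

/-- The primes of `E` above `ℓ` form a finite set. -/
theorem sp1_finite_above (ℓ : ℕ) (hℓ : ℓ ≠ 0) :
    {v : HeightOneSpectrum (𝓞 E) | ((ℓ : ℕ) : 𝓞 E) ∈ v.asIdeal}.Finite := by
  have h0 : Ideal.span {((ℓ : ℕ) : 𝓞 E)} ≠ ⊥ := by
    rw [Ne, Ideal.span_singleton_eq_bot]
    exact_mod_cast hℓ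
  refine (Ideal.finite_factors h0).subset ?_
  intro v hv
  exact Ideal.dvd_span_singleton.mpr hv

/-- `N v ≡ 0 mod ℓ` if `v` lies above `ℓ`. -/
theorem sp1_absNorm_of_mem (ℓ : ℕ) (hℓ : ℓ.Prime) (v : HeightOneSpectrum (𝓞 E))
    (hv : ((ℓ : ℕ) : 𝓞 E) ∈ v.asIdeal) : ((Ideal.absNorm v.asIdeal : ℕ) : ZMod ℓ) = 0 := by
  haveI : v.asIdeal.IsPrime := v.isPrime
  rw [ZMod.natCast_eq_zero_iff]
  have h1 : (Ideal.absNorm v.asIdeal : ℤ) ∈ Ideal.span {((ℓ : ℕ) : ℤ)} := by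
    have h2 : v.asIdeal.under ℤ = Ideal.span {((ℓ : ℕ) : ℤ)} := by
      have h3 : ((ℓ : ℕ) : ℤ) ∈ v.asIdeal.under ℤ := by
        rw [Ideal.mem_comap]
        simpa using hv
      have hmax : (Ideal.span {((ℓ : ℕ) : ℤ)}).IsMaximal :=
        (Ideal.span_singleton_prime (by exact_mod_cast hℓ.ne_zero)).mpr
          (Nat.prime_iff_prime_int.mp hℓ) |>.isMaximal (by
            rw [Ne, Ideal.span_singleton_eq_bot]; exact_mod_cast hℓ.ne_zero)
      have hle : Ideal.span {((ℓ : ℕ) : ℤ)} ≤ v.asIdeal.under ℤ :=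
        (Ideal.span_singleton_le_iff_mem _).mpr h3
      have hne : v.asIdeal.under ℤ ≠ ⊤ := Ideal.IsPrime.ne_top inferInstance
      exact (hmax.eq_of_le hne hle).symm
    rw [← h2, Ideal.mem_comap]
    have := Ideal.absNorm_mem v.asIdeal
    simpa using this
  obtain ⟨k, hk⟩ := Ideal.mem_span_singleton'.mp h1
  exact_mod_cast (Dvd.intro_left k hk : ((ℓ : ℕ) : ℤ) ∣ (Ideal.absNorm v.asIdeal : ℤ))

end

section galois

variable (E M : Type) [Field E] [NumberField E] [Field M] [NumberField M] [Algebra E M]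
  [IsGalois E M]

/-- The primes of `E` below a ramified prime of `M` form a finite set. -/
theorem sp1_finite_ram :
    {v : HeightOneSpectrum (𝓞 E) | ∃ w : HeightOneSpectrum (𝓞 M),
      c2Under E M w = v ∧ w.asIdeal ∣ differentIdeal (𝓞 E) (𝓞 M)}.Finite := by
  refine ((c2_finite_ramified E M).image (c2Under E M)).subset ?_
  rintro v ⟨w, hw, hdvd⟩
  exact ⟨w, hdvd, hw⟩

/-- Every prime of `E` has a prime of `M` above it. -/
theorem sp1_exists_over (v : HeightOneSpectrum (𝓞 E)) :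
    ∃ w : HeightOneSpectrum (𝓞 M), c2Under E M w = v := by
  haveI : v.asIdeal.IsPrime := v.isPrime
  haveI : v.asIdeal.IsMaximal := v.isMaximal
  obtain ⟨P, hP⟩ := Ideal.nonempty_primesOver (S := 𝓞 M) v.asIdeal
  haveI : P.IsPrime := hP.1
  haveI hlo : P.LiesOver v.asIdeal := hP.2
  have hPne : P ≠ ⊥ := by
    intro h
    subst h
    have := hlo.over
    apply v.ne_bot
    rw [this]
    exact Ideal.under_bot (𝓞 E) (𝓞 M)
  exact ⟨⟨P, hP.1, hPne⟩, HeightOneSpectrum.ext hlo.over.symm⟩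

variable {E M}

/-- `ℓ ∉ w` if `ℓ` is not in the prime below `w`. -/
theorem sp1_not_mem_of_under (ℓ : ℕ) (w : HeightOneSpectrum (𝓞 M))
    (h : ((ℓ : ℕ) : 𝓞 E) ∉ (c2Under E M w).asIdeal) : ((ℓ : ℕ) : 𝓞 M) ∉ w.asIdeal := by
  intro hw
  apply h
  show ((ℓ : ℕ) : 𝓞 E) ∈ w.asIdeal.under (𝓞 E)
  rw [Ideal.mem_comap]
  simpa using hw

/-- The integral element `ζ`. -/
theorem sp1_exists_integer {ℓ : ℕ} (hℓ : ℓ.Prime) {ζ : M} (hζ : IsPrimitiveRoot ζ ℓ) :
    ∃ ζ' : 𝓞 M, (ζ' : M) = ζ ∧ IsPrimitiveRoot ζ' ℓ := by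
  have hint : IsIntegral ℤ ζ := hζ.isIntegral hℓ.pos
  refine ⟨⟨ζ, hint⟩, rfl, ?_⟩
  refine IsPrimitiveRoot.of_map_of_injective (f := algebraMap (𝓞 M) M) ?_
    RingOfIntegers.coe_injective
  exact hζ

attribute [local instance] Ideal.Quotient.field in
/-- (a) a completely split prime not above `ℓ` has norm `≡ 1 mod ℓ`. -/
theorem sp1_norm_of_split {ℓ : ℕ} (hℓ : ℓ.Prime) {ζ : M} (hζ : IsPrimitiveRoot ζ ℓ)
    (w : HeightOneSpectrum (𝓞 M)) (hsplit : SplitsCompletely M (c2Under E M w))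
    (hw : ((ℓ : ℕ) : 𝓞 M) ∉ w.asIdeal) :
    ((Ideal.absNorm (c2Under E M w).asIdeal : ℕ) : ZMod ℓ) = 1 := by
  classical
  haveI : Fact ℓ.Prime := ⟨hℓ⟩
  rw [← c2_absNorm_eq_of_split E M w hsplit]
  haveI : w.asIdeal.IsMaximal := w.isMaximal
  haveI : Finite (𝓞 M ⧸ w.asIdeal) := Ideal.finiteQuotientOfFreeOfNeBot _ w.ne_bot
  letI : Fintype (𝓞 M ⧸ w.asIdeal) := Fintype.ofFinite _
  obtain ⟨ζ', -, hζ'⟩ := sp1_exists_integer hℓ hζ
  set z : 𝓞 M ⧸ w.asIdeal := Ideal.Quotient.mk w.asIdeal ζ' with hz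
  have hzpow : z ^ ℓ = 1 := by rw [hz, ← map_pow, hζ'.pow_eq_one, map_one]
  have hz1 : z ≠ 1 := by
    intro h1
    have hsum := hζ'.geom_sum_eq_zero hℓ.one_lt
    have h2 := congrArg (Ideal.Quotient.mk w.asIdeal) hsum
    rw [map_sum, map_zero] at h2
    have h3 : ∀ i ∈ Finset.range ℓ, Ideal.Quotient.mk w.asIdeal (ζ' ^ i) = 1 := by
      intro i _
      rw [map_pow, ← hz, h1, one_pow]
    rw [Finset.sum_congr rfl h3, Finset.sum_const, Finset.card_range, nsmul_eq_mul, mul_one,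
      ← map_natCast (Ideal.Quotient.mk w.asIdeal), Ideal.Quotient.eq_zero_iff_mem] at h2
    exact hw h2
  have hz0 : z ≠ 0 := by
    intro h0
    rw [h0, zero_pow hℓ.ne_zero] at hzpow
    exact zero_ne_one hzpow
  have hord : orderOf z = ℓ := orderOf_eq_prime hzpow hz1
  have hcard : Fintype.card (𝓞 M ⧸ w.asIdeal) = Ideal.absNorm w.asIdeal := by
    rw [← Nat.card_eq_fintype_card, Ideal.absNorm_apply, Submodule.cardQuot_apply]
  have hpow : z ^ (Ideal.absNorm w.asIdeal - 1) = 1 := by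
    rw [← hcard]
    exact FiniteField.pow_card_sub_one_eq_one z hz0
  have hdvd : ℓ ∣ Ideal.absNorm w.asIdeal - 1 := by
    rw [← hord]
    exact orderOf_dvd_of_pow_eq_one hpow
  have hq1 : 1 ≤ Ideal.absNorm w.asIdeal := one_le_absNorm w
  have e : Ideal.absNorm w.asIdeal = (Ideal.absNorm w.asIdeal - 1) + 1 := by omega
  rw [e, Nat.cast_add, (ZMod.natCast_eq_zero_iff _ _).mpr hdvd, zero_add, Nat.cast_one]

attribute [local instance] Ideal.Quotient.field in
/-- (b) an unramified prime of norm `≡ 1 mod ℓ` splits completely. -/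
theorem sp1_split_of_norm {ℓ : ℕ} {ζ : M} (hcyc : IsCycl E M ℓ ζ)
    (w : HeightOneSpectrum (𝓞 M)) (hur : ¬ w.asIdeal ∣ differentIdeal (𝓞 E) (𝓞 M))
    (hw : ((ℓ : ℕ) : 𝓞 M) ∉ w.asIdeal)
    (hN : ((Ideal.absNorm (c2Under E M w).asIdeal : ℕ) : ZMod ℓ) = 1) :
    SplitsCompletely M (c2Under E M w) := by
  classical
  obtain ⟨hℓ, hζ, hfaith⟩ := hcyc
  haveI : Fact ℓ.Prime := ⟨hℓ⟩
  haveI : w.asIdeal.IsPrime := w.isPrime
  haveI : w.asIdeal.IsMaximal := w.isMaximal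
  haveI : Finite (𝓞 M ⧸ w.asIdeal) := Ideal.finiteQuotientOfFreeOfNeBot _ w.ne_bot
  letI : Fintype (𝓞 M ⧸ w.asIdeal) := Fintype.ofFinite _
  set v := c2Under E M w with hv
  set q := Ideal.absNorm v.asIdeal with hq
  have hq1 : 1 ≤ q := one_le_absNorm v
  have hcardv : Nat.card (𝓞 E ⧸ w.asIdeal.under (𝓞 E)) = q := by
    show Nat.card (𝓞 E ⧸ v.asIdeal) = q
    rw [hq, Ideal.absNorm_apply, Submodule.cardQuot_apply]
  obtain ⟨ζ', hζ'coe, hζ'⟩ := sp1_exists_integer hℓ hζ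
  obtain ⟨φ, hφ⟩ := IsArithFrobAt.exists_of_isInvariant (𝓞 E) (M ≃ₐ[E] M) w.asIdeal
  -- `φ ζ = ζ ^ q = ζ`
  have h1 : φ • ζ' = ζ' ^ q := by
    have := hφ.apply_of_pow_eq_one hζ'.pow_eq_one hw
    rw [hcardv] at this
    exact this
  have hdvd : ℓ ∣ q - 1 := by
    rw [← ZMod.natCast_eq_zero_iff]
    have e : ((q - 1 : ℕ) : ZMod ℓ) = (q : ZMod ℓ) - 1 := by
      rw [Nat.cast_sub hq1, Nat.cast_one]
    rw [e, hN, sub_self]
  have h2 : ζ' ^ q = ζ' := by
    obtain ⟨k, hk⟩ := hdvd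
    have e : q = ℓ * k + 1 := by omega
    rw [e, pow_succ, pow_mul, hζ'.pow_eq_one, one_pow, one_mul]
  have h3 : φ ζ = ζ := by
    have h' : ((φ • ζ' : 𝓞 M) : M) = (ζ' : M) :=
      congrArg (fun x : 𝓞 M => (x : M)) (h1.trans h2)
    rw [← hζ'coe]
    exact h'
  have hφ1 : φ = 1 := hfaith φ h3
  -- `x ^ q ≡ x mod w`
  have h4 : ∀ x : 𝓞 M ⧸ w.asIdeal, x ^ q = x := by
    intro x
    obtain ⟨y, rfl⟩ := Ideal.Quotient.mk_surjective x
    have h5 : φ • y - y ^ q ∈ w.asIdeal := by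
      have := hφ y
      rw [hcardv] at this
      exact this
    rw [hφ1, one_smul] at h5
    rw [← map_pow, eq_comm, Ideal.Quotient.eq]
    exact h5
  -- a generator of the unit group of the residue field
  have hQ : Fintype.card (𝓞 M ⧸ w.asIdeal) = Ideal.absNorm w.asIdeal := by
    rw [← Nat.card_eq_fintype_card, Ideal.absNorm_apply, Submodule.cardQuot_apply]
  have hq2 : 2 ≤ q := by
    rcases Nat.lt_or_ge q 2 with h | h
    · exfalso
      have hq' : q = 1 := by omega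
      rw [hq, Ideal.absNorm_eq_one_iff] at hq'
      exact (Ideal.IsPrime.ne_top v.isPrime) hq'
    · exact h
  have hle : Ideal.absNorm w.asIdeal ≤ q := by
    obtain ⟨g, hg⟩ := IsCyclic.exists_generator (α := (𝓞 M ⧸ w.asIdeal)ˣ)
    have hgo : orderOf g = Fintype.card (𝓞 M ⧸ w.asIdeal)ˣ := by
      rw [← Nat.card_eq_fintype_card]
      exact orderOf_eq_card_of_forall_mem_zpowers hg
    rw [Fintype.card_units, hQ] at hgo
    have hg1 : g ^ (q - 1) = 1 := by
      apply Units.ext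
      rw [Units.val_pow_eq_pow_val, Units.val_one]
      have h6 := h4 (g : 𝓞 M ⧸ w.asIdeal)
      have e : q = (q - 1) + 1 := by omega
      rw [e, pow_succ] at h6
      have h7 : ((g : 𝓞 M ⧸ w.asIdeal)) ^ (q - 1) * g = 1 * g := by rw [one_mul]; exact h6
      exact mul_right_cancel₀ g.ne_zero h7
    have h8 : Ideal.absNorm w.asIdeal - 1 ∣ q - 1 := by
      rw [← hgo]
      exact orderOf_dvd_of_pow_eq_one hg1
    have h9 : Ideal.absNorm w.asIdeal - 1 ≤ q - 1 := Nat.le_of_dvd (by omega) h8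
    omega
  have hpowf := c2_absNorm E M w
  have hf : w.asIdeal.inertiaDeg (𝓞 E) = 1 := by
    have hfpos : 0 < w.asIdeal.inertiaDeg (𝓞 E) := by
      rcases Nat.eq_zero_or_pos (w.asIdeal.inertiaDeg (𝓞 E)) with h0 | h0
      · exfalso
        rw [h0, pow_zero] at hpowf
        have : Ideal.absNorm w.asIdeal = 1 := hpowf.symm
        rw [Ideal.absNorm_eq_one_iff] at this
        exact (Ideal.IsPrime.ne_top w.isPrime) this
      · exact h0
    by_contra hne
    have h2f : 2 ≤ w.asIdeal.inertiaDeg (𝓞 E) := by omega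
    have h10 : q ^ 2 ≤ q ^ w.asIdeal.inertiaDeg (𝓞 E) := Nat.pow_le_pow_right (by omega) h2f
    have h11 : q ^ w.asIdeal.inertiaDeg (𝓞 E) ≤ q := by
      rw [show q ^ w.asIdeal.inertiaDeg (𝓞 E) = Ideal.absNorm w.asIdeal from hpowf]
      exact hle
    nlinarith
  have hun : Algebra.IsUnramifiedAt (𝓞 E) w.asIdeal := not_dvd_differentIdeal_iff.mp hur
  have he : w.asIdeal.ramificationIdx (𝓞 E) = 1 := Ideal.ramificationIdx_eq_one _ _
  have hfund := c2_fund E M w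
  rw [he, hf, mul_one, mul_one] at hfund
  exact hfund

/-- **(SP1)** the primes of `E` of norm `≡ 1 mod ℓ` have density `1/[M:E]`. -/
theorem stmtSplitOne : StmtSplitOne := by
  intro E M _ _ _ _ _ _ ℓ ζ hcyc
  have hℓ : ℓ.Prime := hcyc.1
  have hE : PrimeSummable E := (stmtPrimeSum E).1
  have hA := stmtSplit stmtPrimeSum E M
  set N : Set (HeightOneSpectrum (𝓞 E)) :=
    {v | ∃ w : HeightOneSpectrum (𝓞 M),
      c2Under E M w = v ∧ w.asIdeal ∣ differentIdeal (𝓞 E) (𝓞 M)} ∪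
    {v | ((ℓ : ℕ) : 𝓞 E) ∈ v.asIdeal} with hNdef
  have hNfin : N.Finite := (sp1_finite_ram E M).union (sp1_finite_above E ℓ hℓ.ne_zero)
  have hN0 : HasLogDensity N 0 := hasLogDensity_zero_of_finite hNfin
  refine HasLogDensity.congr_of_symmDiff hE hA hN0 ?_ ?_
  · intro v hv
    by_cases hvN : v ∈ N
    · exact Or.inr hvN
    · left
      obtain ⟨w, rfl⟩ := sp1_exists_over E M v
      have hℓv : ((ℓ : ℕ) : 𝓞 E) ∉ (c2Under E M w).asIdeal := fun h => hvN (Or.inr h)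
      exact sp1_norm_of_split hℓ hcyc.2.1 w hv (sp1_not_mem_of_under ℓ w hℓv)
  · intro v hv
    by_cases hvN : v ∈ N
    · exact Or.inr hvN
    · left
      obtain ⟨w, rfl⟩ := sp1_exists_over E M v
      have hℓv : ((ℓ : ℕ) : 𝓞 E) ∉ (c2Under E M w).asIdeal := fun h => hvN (Or.inr h)
      have hur : ¬ w.asIdeal ∣ differentIdeal (𝓞 E) (𝓞 M) := fun h =>
        hvN (Or.inl ⟨w, rfl, h⟩)
      exact sp1_split_of_norm hcyc w hur (sp1_not_mem_of_under ℓ w hℓv) hv

end galois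

end Fermat.Agent.S48.CD
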