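/-
S48/CD (helper61): Chebotarev's density theorem `Fermat.Agent.S48.StmtChebDensity`, assembled from
the pieces of `S48/CD/Plan.lean`.
-/
import Fermat.Agent.S48.CD.NormL
import Fermat.Agent.S48.CD.EulerLog
import Fermat.Agent.S48.CD.ArgBounded
import Fermat.Agent.S48.CD.SplitOne
import Fermat.Agent.S48.CD.NormRange
import Fermat.Agent.S48.CD.NormGen
import Fermat.Agent.S48.CD.DirichletE
import Fermat.Agent.S48.CD.FrobTransfer
import Fermat.Agent.S48.CD.FiberCount
import Fermat.Agent.S48.CD.ChebCycT
import Fermat.Agent.S48.CD.GlueConj
import Fermat.Agent.S48.CD.CycLift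
import Fermat.Agent.S48.CD.GoodCount
import Fermat.Agent.S48.CD.ChebClass
import Fermat.Agent.S48.CD.Final

set_option autoImplicit false

namespace Fermat.Agent.S48.CD

/-- Dirichlet's theorem over a number field, for the norms modulo a prime. -/
theorem stmtDirichletE_holds : StmtDirichletE :=
  stmtDirichletE stmtNormL stmtEulerLog stmtArgBounded stmtSplitOne stmtNormRange stmtNormGen

/-- Chebotarev for the elements of cyclotomic type. -/
theorem stmtChebCycT : StmtChebCycT :=
  stmtChebCycT_of stmtDirichletE_holds stmtFrobTransfer stmtFiberCount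

/-- Chebotarev for one conjugacy class. -/
theorem stmtChebClass : StmtChebClass :=
  stmtChebClass_of stmtChebCycT stmtGlueConj stmtCycLift stmtGoodCount

/-- **Chebotarev's density theorem** (lower Dirichlet density, conjugation stable sets). -/
theorem stmtChebDensity : StmtChebDensity :=
  stmtChebDensity_of stmtChebClass

end Fermat.Agent.S48.CD
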