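import Mathlib
import Fermat.Agent.S48.CD.Plan

/-!
# S48/CD, piece LIFTζ: `Gal(ℚ̄/F)` acts on `μ_ℓ` through all of `(ℤ/ℓ)ˣ` for large `ℓ`

If the prime `ℓ` does not divide the discriminant of the number field `F`, then `Φ_ℓ(X + 1)` is an
Eisenstein polynomial at any prime `𝔩 ∣ ℓ` of `𝓞 F`, so `Φ_ℓ` is irreducible over `F`, and all
primitive `ℓ`-th roots of unity in `ℚ̄` are conjugate over `F`.
-/

set_option autoImplicit false

open NumberField Polynomial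

namespace Fermat.Agent.S48.CD

section Eis

variable (F : Type) [Field F] [NumberField F]

/-- there is a prime of `𝓞 F` above the prime number `ℓ` -/
theorem cyl_exists_prime (ℓ : ℕ) (hℓ : ℓ.Prime) :
    ∃ 𝔩 : Ideal (𝓞 F), 𝔩.IsPrime ∧ (ℓ : 𝓞 F) ∈ 𝔩 := by
  have hp : (Ideal.span {(ℓ : ℤ)}).IsPrime :=
    (Ideal.span_singleton_prime (by exact_mod_cast hℓ.ne_zero)).mpr
      (Nat.prime_iff_prime_int.mp hℓ)
  obtain ⟨Q, hQ, hQc⟩ := Ideal.exists_ideal_over_prime_of_isIntegral_of_isDomain (S := 𝓞 F)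
    (Ideal.span {(ℓ : ℤ)}) (by
      rw [(RingHom.injective_iff_ker_eq_bot _).mp
        (FaithfulSMul.algebraMap_injective ℤ (𝓞 F))]
      exact bot_le)
  refine ⟨Q, hQ, ?_⟩
  have h1 : (ℓ : ℤ) ∈ Q.comap (algebraMap ℤ (𝓞 F)) := by
    rw [hQc]
    exact Ideal.mem_span_singleton_self _
  rw [Ideal.mem_comap] at h1
  simpa using h1

/-- a prime above an unramified prime number does not contain it to the second power -/
theorem cyl_natCast_notMem_sq (ℓ : ℕ) (hℓ : ℓ.Prime) (hd : ¬ (ℓ : ℤ) ∣ discr F)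
    (𝔩 : Ideal (𝓞 F)) [h𝔩p : 𝔩.IsPrime] (h𝔩 : (ℓ : 𝓞 F) ∈ 𝔩) : (ℓ : 𝓞 F) ∉ 𝔩 ^ 2 := by
  have hp : Prime (ℓ : ℤ) := Nat.prime_iff_prime_int.mp hℓ
  have hunr : Algebra.IsUnramifiedAt ℤ 𝔩 :=
    (NumberField.not_dvd_discr_iff_forall_mem F (𝓞 F) hp).mp hd 𝔩 inferInstance
      (by simpa using h𝔩)
  have he : 𝔩.ramificationIdx ℤ = 1 := Ideal.ramificationIdx_eq_one 𝔩 ℤ
  have hlies : 𝔩.LiesOver (Ideal.span {(ℓ : ℤ)}) :=
    (Ideal.liesOver_span_iff h𝔩p.ne_top hp).mpr (by simpa using h𝔩)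
  have hmap : (Ideal.span {(ℓ : ℤ)}).map (algebraMap ℤ (𝓞 F)) = Ideal.span {(ℓ : 𝓞 F)} := by
    rw [Ideal.map_span, Set.image_singleton]
    simp
  have hℓ0 : (ℓ : 𝓞 F) ≠ 0 := by exact_mod_cast hℓ.ne_zero
  have hne : (Ideal.span {(ℓ : ℤ)}).map (algebraMap ℤ (𝓞 F)) ≠ ⊥ := by
    rw [hmap, Ne, Ideal.span_singleton_eq_bot]
    exact hℓ0
  have hmul := Ideal.IsDedekindDomain.ramificationIdx_eq_multiplicity
    (Ideal.span {(ℓ : ℤ)}) 𝔩 hne
  rw [he, hmap] at hmul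
  intro hsq
  have hdvd : 𝔩 ^ 2 ∣ Ideal.span {(ℓ : 𝓞 F)} := by
    rw [Ideal.dvd_iff_le, Ideal.span_singleton_le_iff_mem]
    exact hsq
  have hfin : FiniteMultiplicity 𝔩 (Ideal.span {(ℓ : 𝓞 F)}) := by
    apply FiniteMultiplicity.of_not_isUnit
    · rw [Ideal.isUnit_iff]
      exact h𝔩p.ne_top
    · rw [Ne, Ideal.zero_eq_bot, Ideal.span_singleton_eq_bot]
      exact hℓ0
  have := hfin.le_multiplicity_of_pow_dvd hdvd
  omega

omit [NumberField F] in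
/-- `Φ_ℓ(X + 1)` over `𝓞 F` is an Eisenstein polynomial at `𝔩` -/
theorem cyl_isEisensteinAt (ℓ : ℕ) (hℓ : ℓ.Prime) (𝔩 : Ideal (𝓞 F)) [h𝔩p : 𝔩.IsPrime]
    (h𝔩 : (ℓ : 𝓞 F) ∈ 𝔩) (hsq : (ℓ : 𝓞 F) ∉ 𝔩 ^ 2) :
    ((cyclotomic ℓ (𝓞 F)).comp (X + 1)).IsEisensteinAt 𝔩 := by
  have : Fact ℓ.Prime := ⟨hℓ⟩
  have h0 : ((cyclotomic ℓ ℤ).comp (X + 1)).IsEisensteinAt (Submodule.span ℤ {(ℓ : ℤ)}) :=
    cyclotomic_comp_X_add_one_isEisensteinAt ℓ
  have hmonic0 : ((cyclotomic ℓ ℤ).comp (X + 1)).Monic :=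
    (cyclotomic.monic ℓ ℤ).comp_X_add_C 1
  have hmap : (cyclotomic ℓ (𝓞 F)).comp (X + 1) =
      ((cyclotomic ℓ ℤ).comp (X + 1)).map (algebraMap ℤ (𝓞 F)) := by
    rw [Polynomial.map_comp, map_cyclotomic]
    simp
  have hmonic : ((cyclotomic ℓ (𝓞 F)).comp (X + 1)).Monic :=
    (cyclotomic.monic ℓ (𝓞 F)).comp_X_add_C 1
  have hdeg : ((cyclotomic ℓ (𝓞 F)).comp (X + 1)).natDegree =
      ((cyclotomic ℓ ℤ).comp (X + 1)).natDegree := by
    rw [hmap, hmonic0.natDegree_map]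
  refine Polynomial.Monic.isEisensteinAt_of_mem_of_notMem hmonic h𝔩p.ne_top ?_ ?_
  · intro n hn
    rw [hdeg] at hn
    have h1 : ((cyclotomic ℓ ℤ).comp (X + 1)).coeff n ∈ Ideal.span {(ℓ : ℤ)} := h0.mem hn
    obtain ⟨c, hc⟩ := Ideal.mem_span_singleton.mp h1
    rw [hmap, coeff_map, hc]
    simp only [map_mul, map_natCast, eq_intCast]
    exact 𝔩.mul_mem_right _ h𝔩
  · have h1 : ((cyclotomic ℓ ℤ).comp (X + 1)).coeff 0 = (ℓ : ℤ) := by
      rw [coeff_zero_eq_eval_zero, eval_comp]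
      simp [eval_one_cyclotomic_prime]
    rw [hmap, coeff_map, h1]
    simpa using hsq

/-- the `ℓ`-th cyclotomic polynomial is irreducible over `F` if `ℓ ∤ disc F` -/
theorem cyl_irreducible (ℓ : ℕ) (hℓ : ℓ.Prime) (hd : ¬ (ℓ : ℤ) ∣ discr F) :
    Irreducible (cyclotomic ℓ F) := by
  obtain ⟨𝔩, h𝔩p, h𝔩⟩ := cyl_exists_prime F ℓ hℓ
  have hE := cyl_isEisensteinAt F ℓ hℓ 𝔩 h𝔩 (cyl_natCast_notMem_sq F ℓ hℓ hd 𝔩 h𝔩)
  have hmonic : ((cyclotomic ℓ (𝓞 F)).comp (X + 1)).Monic :=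
    (cyclotomic.monic ℓ (𝓞 F)).comp_X_add_C 1
  have hpos : 0 < ((cyclotomic ℓ (𝓞 F)).comp (X + 1)).natDegree := by
    have h1 : (X + 1 : (𝓞 F)[X]).natDegree = 1 := by
      simpa using natDegree_X_add_C (1 : 𝓞 F)
    rw [natDegree_comp, natDegree_cyclotomic, h1, mul_one, Nat.totient_prime hℓ]
    have := hℓ.two_le
    omega
  have hirr : Irreducible ((cyclotomic ℓ (𝓞 F)).comp (X + 1)) :=
    hE.irreducible h𝔩p hmonic.isPrimitive hpos
  have hirrF : Irreducible (((cyclotomic ℓ (𝓞 F)).comp (X + 1)).map (algebraMap (𝓞 F) F)) :=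
    (Monic.irreducible_iff_irreducible_map_fraction_map hmonic).mp hirr
  have hcomp : ((cyclotomic ℓ (𝓞 F)).comp (X + 1)).map (algebraMap (𝓞 F) F) =
      algEquivAevalXAddC (1 : F) (cyclotomic ℓ F) := by
    rw [Polynomial.map_comp, map_cyclotomic, algEquivAevalXAddC_apply]
    simp [aeval_def, eval₂_eq_eval_map, comp]
  rw [hcomp] at hirrF
  exact (MulEquiv.irreducible_iff (algEquivAevalXAddC (1 : F)).toMulEquiv).mp hirrF

end Eis

/-- `ℚ̄ / ℚ` is algebraic (for the instance of `Algebra ℚ ℚ̄` found by unification) -/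
theorem cyl_qbar_isAlgebraic : Algebra.IsAlgebraic ℚ (AlgebraicClosure ℚ) := by
  have h1 : @Algebra.IsAlgebraic ℚ (AlgebraicClosure ℚ) _ _ (AlgebraicClosure.instAlgebra ℚ) :=
    inferInstance
  convert h1
  exact Subsingleton.elim _ _

/-- `ℚ̄ / ℚ` is normal (for the instance of `Algebra ℚ ℚ̄` found by unification) -/
theorem cyl_qbar_normal : Normal ℚ (AlgebraicClosure ℚ) := by
  have h1 : @Normal ℚ (AlgebraicClosure ℚ) _ _ (AlgebraicClosure.instAlgebra ℚ) := inferInstance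
  convert h1
  exact Subsingleton.elim _ _

/-- **Piece LIFTζ** of S48/CD. -/
theorem stmtCycLift : StmtCycLift := by
  intro F _
  refine ⟨(discr F).natAbs, fun ℓ hℓ hN ζ hζ t ht => ?_⟩
  have hd : ¬ (ℓ : ℤ) ∣ discr F := by
    intro h
    have h1 : ℓ ∣ (discr F).natAbs := Int.natCast_dvd.mp h
    have h2 := Nat.le_of_dvd (Int.natAbs_pos.mpr (discr_ne_zero F)) h1
    omega
  have hirr := cyl_irreducible F ℓ hℓ hd
  have hne0 : NeZero ((ℓ : ℕ) : F) := ⟨by exact_mod_cast hℓ.ne_zero⟩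
  have halgQ := cyl_qbar_isAlgebraic
  have hnormQ := cyl_qbar_normal
  have halgFQ : Algebra.IsAlgebraic F (AlgebraicClosure ℚ) :=
    Algebra.IsAlgebraic.tower_top (K := ℚ) F
  have hnormal : Normal F (AlgebraicClosure ℚ) := Normal.tower_top_of_normal ℚ F _
  have hmin : cyclotomic ℓ F = minpoly F ζ :=
    hζ.minpoly_eq_cyclotomic_of_irreducible hirr
  have hζt : IsPrimitiveRoot (ζ ^ t) ℓ :=
    hζ.pow_of_coprime t ((Nat.Prime.coprime_iff_not_dvd hℓ).mpr ht).symm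
  have hroot : aeval (ζ ^ t) (minpoly F ζ) = 0 := by
    rw [← hmin, aeval_def, eval₂_eq_eval_map, map_cyclotomic]
    exact hζt.isRoot_cyclotomic hℓ.pos
  have halg : IsAlgebraic F ζ := Algebra.IsAlgebraic.isAlgebraic ζ
  obtain ⟨σ, hσ⟩ := minpoly.exists_algEquiv_of_root' (K := F) (L := AlgebraicClosure ℚ)
    halg hroot
  refine ⟨σ.restrictScalars ℚ, fun x hx => ?_, hσ⟩
  exact σ.commutes ⟨x, hx⟩

end Fermat.Agent.S48.CD
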