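import Mathlib

/-!
# S48/CD-L, part 1: the norm residue of `x + ρ`

For `ρ ∈ m 𝓞 K` and `x` large compared with `ρ` at every infinite place, the absolute norms of
the principal ideals `(x + ρ)` and `(x)` are congruent modulo `m`:
`N (x + ρ) ≡ N x mod m` (determinants modulo `m`) and `N (x + ρ) / N x = N (1 + ρ / x) > 0`.
-/

set_option autoImplicit false

open NumberField

namespace Fermat.Agent.S48.CD

variable {K : Type} [Field K] [NumberField K]

/-- `N (x + ρ) ≡ N x mod m` for `ρ ∈ m 𝓞 K`. -/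
theorem normL_norm_congr (m : ℕ) (x ρ : 𝓞 K) (hρ : ρ ∈ Ideal.span {((m : ℕ) : 𝓞 K)}) :
    ((Algebra.norm ℤ (x + ρ) : ℤ) : ZMod m) = ((Algebra.norm ℤ x : ℤ) : ZMod m) := by
  classical
  obtain ⟨ρ', rfl⟩ := Ideal.mem_span_singleton'.mp hρ
  rw [Algebra.norm_eq_matrix_det (RingOfIntegers.basis K),
    Algebra.norm_eq_matrix_det (RingOfIntegers.basis K)]
  show (Int.castRingHom (ZMod m)) _ = (Int.castRingHom (ZMod m)) _
  rw [RingHom.map_det, RingHom.map_det]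
  congr 1
  rw [map_add, map_mul, map_natCast, map_add, map_mul, map_natCast]
  have h0 : ((m : ℕ) : Matrix (Module.Free.ChooseBasisIndex ℤ (𝓞 K))
      (Module.Free.ChooseBasisIndex ℤ (𝓞 K)) (ZMod m)) = 0 := by
    ext i j
    rw [Matrix.natCast_apply]
    simp
  rw [h0, mul_zero, add_zero]

/-- `exp (1/2) < 2`. -/
theorem normL_exp_half_lt_two : Real.exp (1 / 2) < 2 := by
  have h1 : Real.exp (1 / 2) * Real.exp (1 / 2) = Real.exp 1 := by
    rw [← Real.exp_add]; norm_num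
  have h2 : Real.exp 1 < 4 := lt_trans Real.exp_one_lt_d9 (by norm_num)
  have h3 : 0 < Real.exp (1 / 2) := Real.exp_pos _
  nlinarith

/-- The norm of `1 + u` is positive if `u` is small at every infinite place. -/
theorem normL_norm_pos (u : K)
    (hu : ∀ v : InfinitePlace K, v u ≤ 1 / (2 * (Module.finrank ℚ K : ℝ))) :
    0 < Algebra.norm ℚ (1 + u) := by
  have hn : (0 : ℝ) < (Module.finrank ℚ K : ℝ) := Nat.cast_pos.mpr Module.finrank_pos
  have h1 := Algebra.norm_eq_prod_embeddings ℚ ℂ (1 + u)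
  have h2 : ‖(∏ σ : K →ₐ[ℚ] ℂ, (1 + σ u)) - 1‖ ≤
      Real.exp (∑ σ : K →ₐ[ℚ] ℂ, ‖σ u‖) - 1 :=
    Finset.norm_prod_one_add_sub_one_le _ _
  have h3 : ∑ σ : K →ₐ[ℚ] ℂ, ‖σ u‖ ≤ 1 / 2 := by
    have h4 : ∀ σ : K →ₐ[ℚ] ℂ, ‖σ u‖ ≤ 1 / (2 * (Module.finrank ℚ K : ℝ)) := by
      intro σ
      have := hu (InfinitePlace.mk σ.toRingHom)
      rwa [InfinitePlace.apply] at this
    calc ∑ σ : K →ₐ[ℚ] ℂ, ‖σ u‖ ≤ ∑ _σ : K →ₐ[ℚ] ℂ, 1 / (2 * (Module.finrank ℚ K : ℝ)) :=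
          Finset.sum_le_sum fun σ _ => h4 σ
      _ = 1 / 2 := by
          rw [Finset.sum_const, Finset.card_univ, AlgHom.card, nsmul_eq_mul]
          field_simp
  have h5 : ‖(∏ σ : K →ₐ[ℚ] ℂ, (1 + σ u)) - 1‖ < 1 := by
    have h6 : Real.exp (∑ σ : K →ₐ[ℚ] ℂ, ‖σ u‖) ≤ Real.exp (1 / 2) := Real.exp_le_exp.mpr h3
    have := normL_exp_half_lt_two
    linarith
  have h7 : (∏ σ : K →ₐ[ℚ] ℂ, (1 + σ u)) = ((Algebra.norm ℚ (1 + u) : ℚ) : ℂ) := by
    rw [show ((Algebra.norm ℚ (1 + u) : ℚ) : ℂ) = algebraMap ℚ ℂ (Algebra.norm ℚ (1 + u)) from rfl,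
      h1]
    refine Finset.prod_congr rfl fun σ _ => ?_
    rw [map_add, map_one]
  rw [h7] at h5
  have h8 : ‖(((Algebra.norm ℚ (1 + u) : ℚ) : ℂ)) - 1‖ =
      |((Algebra.norm ℚ (1 + u) : ℚ) : ℝ) - 1| := by
    have : (((Algebra.norm ℚ (1 + u) : ℚ) : ℂ)) - 1 =
        (((((Algebra.norm ℚ (1 + u) : ℚ) : ℝ) - 1 : ℝ)) : ℂ) := by
      push_cast; ring
    rw [this, Complex.norm_real, Real.norm_eq_abs]
  rw [h8, abs_lt] at h5
  have h9 : (0 : ℝ) < ((Algebra.norm ℚ (1 + u) : ℚ) : ℝ) := by linarith [h5.1]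
  exact_mod_cast h9

/-- **(P)**: for `ρ ∈ m 𝓞 K` and `x` large compared with `ρ` at every infinite place, the
absolute norms of `(x + ρ)` and `(x)` agree modulo `m`. -/
theorem normL_absNorm_shift (m : ℕ) (x ρ : 𝓞 K) (hρ : ρ ∈ Ideal.span {((m : ℕ) : 𝓞 K)})
    (hx0 : x ≠ 0)
    (hx : ∀ v : InfinitePlace K, 2 * (Module.finrank ℚ K : ℝ) * v (ρ : K) ≤ v (x : K)) :
    ((Ideal.absNorm (Ideal.span {x + ρ}) : ℕ) : ZMod m) =
      ((Ideal.absNorm (Ideal.span {x}) : ℕ) : ZMod m) := by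
  have hn : (0 : ℝ) < (Module.finrank ℚ K : ℝ) := Nat.cast_pos.mpr Module.finrank_pos
  have hxK : (x : K) ≠ 0 := by
    intro h; exact hx0 (by exact_mod_cast h)
  set u : K := (ρ : K) / (x : K) with hu
  have hupos : 0 < Algebra.norm ℚ (1 + u) := by
    apply normL_norm_pos
    intro v
    have hvx : 0 < v (x : K) := v.pos_iff.mpr hxK
    rw [hu, map_div₀, div_le_iff₀ hvx]
    have := hx v
    have e : 1 / (2 * (Module.finrank ℚ K : ℝ)) * v (x : K) =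
        v (x : K) / (2 * (Module.finrank ℚ K : ℝ)) := by ring
    rw [e, le_div_iff₀ (by positivity)]
    linarith
  have hmul : ((x + ρ : 𝓞 K) : K) = (x : K) * (1 + u) := by
    rw [hu]
    push_cast
    field_simp
  -- relation between the integral norms
  have hrel : ((Algebra.norm ℤ (x + ρ) : ℤ) : ℚ) =
      ((Algebra.norm ℤ x : ℤ) : ℚ) * Algebra.norm ℚ (1 + u) := by
    rw [Algebra.coe_norm_int, Algebra.coe_norm_int, hmul, map_mul]
  have hb0 : Algebra.norm ℤ x ≠ 0 := by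
    rw [Ne, Algebra.norm_eq_zero_iff]
    exact hx0
  have hcong := normL_norm_congr m x ρ hρ
  rw [Ideal.absNorm_span_singleton, Ideal.absNorm_span_singleton]
  rcases lt_or_gt_of_ne hb0 with hb | hb
  · -- both negative
    have ha : Algebra.norm ℤ (x + ρ) < 0 := by
      have h1 : ((Algebra.norm ℤ x : ℤ) : ℚ) < 0 := by exact_mod_cast hb
      have h2 : ((Algebra.norm ℤ (x + ρ) : ℤ) : ℚ) < 0 := by
        rw [hrel]; exact mul_neg_of_neg_of_pos h1 hupos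
      exact_mod_cast h2
    have e1 : ((Algebra.norm ℤ (x + ρ)).natAbs : ℤ) = - Algebra.norm ℤ (x + ρ) := by
      rw [Int.natCast_natAbs, abs_of_neg ha]
    have e2 : ((Algebra.norm ℤ x).natAbs : ℤ) = - Algebra.norm ℤ x := by
      rw [Int.natCast_natAbs, abs_of_neg hb]
    have e3 : (((Algebra.norm ℤ (x + ρ)).natAbs : ℕ) : ZMod m) =
        ((((Algebra.norm ℤ (x + ρ)).natAbs : ℕ) : ℤ) : ZMod m) := (Int.cast_natCast _).symm
    have e4 : (((Algebra.norm ℤ x).natAbs : ℕ) : ZMod m) =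
        ((((Algebra.norm ℤ x).natAbs : ℕ) : ℤ) : ZMod m) := (Int.cast_natCast _).symm
    rw [e3, e4, e1, e2, Int.cast_neg, Int.cast_neg, hcong]
  · have ha : 0 < Algebra.norm ℤ (x + ρ) := by
      have h1 : (0 : ℚ) < ((Algebra.norm ℤ x : ℤ) : ℚ) := by exact_mod_cast hb
      have h2 : (0 : ℚ) < ((Algebra.norm ℤ (x + ρ) : ℤ) : ℚ) := by
        rw [hrel]; exact mul_pos h1 hupos
      exact_mod_cast h2
    have e1 : ((Algebra.norm ℤ (x + ρ)).natAbs : ℤ) = Algebra.norm ℤ (x + ρ) := by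
      rw [Int.natCast_natAbs, abs_of_pos ha]
    have e2 : ((Algebra.norm ℤ x).natAbs : ℤ) = Algebra.norm ℤ x := by
      rw [Int.natCast_natAbs, abs_of_pos hb]
    have e3 : (((Algebra.norm ℤ (x + ρ)).natAbs : ℕ) : ZMod m) =
        ((((Algebra.norm ℤ (x + ρ)).natAbs : ℕ) : ℤ) : ZMod m) := (Int.cast_natCast _).symm
    have e4 : (((Algebra.norm ℤ x).natAbs : ℕ) : ZMod m) =
        ((((Algebra.norm ℤ x).natAbs : ℕ) : ℤ) : ZMod m) := (Int.cast_natCast _).symm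
    rw [e3, e4, e1, e2, hcong]

end Fermat.Agent.S48.CD
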